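/-
Programme T (S56, Taylor–Wiles primes), chapter ASM (helper8): SMALL LEMMAS for the final assembly.

* `eq_zero_on_inertia_of_resq1_eq_zero` (the hypothesis `hloc` of `LevelChange8` /
  `SelmerBound8.dualSel_eq_bot`): if `N` is locally unramified at `q` and the restriction to `ℚ_q` of
  the class of a level cocycle `c` is zero, then `c` vanishes on the inertia groups of ALL places
  over `q`  (`DecompSurj4.eq_one_of_forall_Iq` applied to `LevelChange8.affHom`);
* `rep_ρ_eq_one_of_rbar_eq_one`, `exists_levelS_ad0_eq_one`, `exists_levelS_dualTwist_eq_one` :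
  triviality of `ad⁰ρ̄` and of `(ad⁰ρ̄)^*(1)` on a member of `levelS S`;
* `dualTwist_unramAt` : `(ad⁰ρ̄)^*(1)` is locally unramified at a prime `q ≠ p` where `ρ̄` is;
* `condF_top`;
* `card_invariants_ad0Rep_eq_one` : `H⁰(G_ℚ, ad⁰ρ̄) = 0` under `TWHyp`;
* `coe_detU_eq_algebraMap_cycloChar` : `det ρ̄ = ` the mod `p` cyclotomic character, in the form `hc`
  of `TraceDual8`;
* `prod_union_ite` : the product of the local factors.
-/
import Mathlib
import Fermat.Agent.TW.ASM.TraceDual8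
import Fermat.Agent.TW.LOC.DecompSurj4
import Fermat.Agent.TW.GRP.CycSub3
import Fermat.Agent.S14.Fields

set_option autoImplicit false
set_option linter.unusedSectionVars false
set_option linter.style.haveILetI false

open groupCohomology
open Fermat.Agent.PT.PRO.LevelCoh28 Fermat.Agent.PT.PRO.LevelCohRes28
open Fermat.Agent.PT.GLUE.Objects21
open Fermat.Agent.TW.DEF.Basic1 Fermat.Agent.TW.DEF.ScalarRes8 Fermat.Agent.TW.DEF.Mu1
open Fermat.Agent.TW.GRP.AdZero3 Fermat.Agent.TW.GRP.Irred3 Fermat.Agent.TW.GRP.Bridge3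
open Fermat.Agent.TW.GRP.TWHyp3
open Fermat.Agent.TW.ASM.LevelChange8 Fermat.Agent.TW.ASM.TraceDual8
open Fermat.Agent.TW.LOC.Defs2 (Iq)
open ExtCitation

namespace Fermat.Agent.TW.ASM.AsmLemmas8

/-! ### Local triviality forces vanishing on inertia -/

section LocTriv

variable {k : Type} [CommRing k] (N : Rep.{0} k GQ) (S : Finset Nat.Primes)

theorem eq_zero_on_inertia_of_resq1_eq_zero (q : ℕ) [Fact q.Prime]
    (hN : ∀ τ ∈ Iq q, N.ρ (rq q τ) = 1) (c : ↥(Z1 (levelS S) N))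
    (h0 : resq1 S N q (H1mk (levelS S) N c) = 0)
    (P : ValuationSubring (AlgebraicClosure ℚ)) (hP : P.LiesOverPrime q)
    (ι : GQ) (hι : ι ∈ P.inertiaSubgroupIn ℚ) : c.1 ι = 0 := by
  rw [resq1_mk', H1mk_eq_zero_iff] at h0
  obtain ⟨m, hm⟩ := h0
  have hc := c.2.1
  have h1 : ∀ τ ∈ Iq q, affHom N hc (rq q τ) = 1 := fun τ hτ => by
    refine (affHom_eq_one_iff N hc _).2 ⟨hN τ hτ, ?_⟩
    have h2 := congrFun hm τ
    rw [d₀₁_hom_apply] at h2
    have h3 : (Mq N q).ρ τ m = m := by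
      show N.ρ (rq q τ) m = m
      rw [hN τ hτ]
      rfl
    rw [h3, sub_self] at h2
    exact h2.symm
  exact ((affHom_eq_one_iff N hc ι).1
    (Fermat.Agent.TW.LOC.DecompSurj4.eq_one_of_forall_Iq (affHom N hc) h1 hP hι)).2

end LocTriv

/-! ### Triviality on a member of the level basis -/

section Level

variable {k : Type} [Field k] (rbar : GQ →* M2 k)

theorem ad0Rep_ρ_eq_one_of_rbar_eq_one {s : GQ} (hs : rbar s = 1) : (ad0Rep rbar).ρ s = 1 := by
  have hs' : rbar s⁻¹ = 1 := by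
    have := rbar_inv_mul rbar s
    rwa [hs, mul_one] at this
  refine LinearMap.ext fun X => ?_
  apply ad0Val_injective rbar
  rw [ad0Val_ρ_apply, hs, hs', one_mul, mul_one]
  rfl

variable (F : Type) [Field F] [Algebra F k]

theorem resScalars_ρ_eq_one {G : Type} [Group G] (M : Rep.{0} k G) {s : G} (hs : M.ρ s = 1) :
    (resScalars F M).ρ s = 1 := by
  refine LinearMap.ext fun X => ?_
  rw [resScalars_ρ_apply, hs]
  rfl

variable (p : ℕ) [Fact p.Prime] [Algebra (ZMod p) k]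

/-- `(ad⁰ρ̄)^*(1)` is trivial on a member of `levelS S` if `ρ̄` is and `p ∈ S`. -/
theorem exists_levelS_dualTwist_eq_one {S : Finset Nat.Primes} (hpS : pPrime p ∈ S)
    (h : ∃ U ∈ (levelS S).sets, ∀ s ∈ U, rbar s = 1) :
    ∃ U ∈ (levelS S).sets, ∀ s ∈ U,
      ((resScalars (ZMod p) (ad0Rep rbar)).dualTwist (cycloChar p)).ρ s = 1 := by
  obtain ⟨U, hU, hU1⟩ := h
  have hK : (Fermat.Agent.S14.Fields.Kz p).fixingSubgroup ∈ (levelS S).sets :=
    ⟨_, Fermat.Agent.PT.BR.DualTwist7.isUnramifiedOutside_Kz p hpS, rfl⟩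
  obtain ⟨W, hW, hWle⟩ := (levelS S).isBasis.directed U hU _ hK
  refine ⟨W, hW, fun s hs => ?_⟩
  exact Fermat.Agent.PT.BR.DualTwist7.dualTwist_ρ_eq_one _
    (resScalars_ρ_eq_one (ZMod p) _ (ad0Rep_ρ_eq_one_of_rbar_eq_one rbar (hU1 s (hWle hs).1)))
    (Fermat.Agent.PT.BR.DualTwist7.cycloChar_eq_one_of_mem_fixingSubgroup_Kz p (hWle hs).2)

/-- `(ad⁰ρ̄)^*(1)` is locally unramified at `q ≠ p` if `ρ̄` is unramified at `q`. -/
theorem dualTwist_unramAt (q : ℕ) [Fact q.Prime] (hqp : q ≠ p)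
    (hunr : ∀ P : ValuationSubring (AlgebraicClosure ℚ), P.LiesOverPrime q →
      ∀ ι ∈ P.inertiaSubgroupIn ℚ, rbar ι = 1) (τ : Gq q) (hτ : τ ∈ Iq q) :
    ((resScalars (ZMod p) (ad0Rep rbar)).dualTwist (cycloChar p)).ρ (rq q τ) = 1 := by
  have hι := Fermat.Agent.TW.LOC.Defs2.rq_mem_inertia q hτ
  have hP := Fermat.Agent.TW.LOC.TameProfinite4.liesOverPrime_padicPlace q
  exact Fermat.Agent.PT.BR.DualTwist7.dualTwist_ρ_eq_one _
    (resScalars_ρ_eq_one (ZMod p) _ (ad0Rep_ρ_eq_one_of_rbar_eq_one rbar (hunr _ hP _ hι)))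
    (Fermat.Agent.PT.BR.DualTwist7.cycloChar_eq_one_of_mem_inertia p (Fact.out : q.Prime) hqp _ hP hι)

end Level

/-! ### `condF ⊤ = ⊤` -/

theorem condF_top (F : Type) {k : Type} [CommRing F] [CommRing k] [Algebra F k] (M : Rep.{0} k GQ)
    (q : ℕ) [Fact q.Prime] : condF F M q ⊤ = ⊤ := by
  ext y
  rw [mem_condF_iff]
  exact ⟨fun _ => Submodule.mem_top, fun _ => Submodule.mem_top⟩

/-! ### `H⁰(G_ℚ, ad⁰ρ̄) = 0` -/

theorem card_invariants_ad0Rep_eq_one {k : Type} [Field k] (rbar : GQ →* M2 k) (h2 : (2 : k) ≠ 0)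
    (hρ : TWHyp rbar) : Nat.card ↥(ad0Rep rbar).ρ.invariants = 1 := by
  have h0 : ∀ X : ↥(ad0Rep rbar).ρ.invariants, X = 0 := by
    rintro ⟨X, hX⟩
    apply Subtype.ext
    apply ad0Val_injective rbar
    show ad0Val rbar X = ad0Val rbar 0
    rw [map_zero]
    let Y : ↥(slM k) := ⟨ad0Val rbar X, mem_slM.2 (trace_ad0Val rbar X)⟩
    have hY : ∀ g : GQ, adSl rbar 1 g Y = Y := by
      intro g
      apply Subtype.ext
      rw [adSl_apply_coe, MonoidHom.one_apply, Units.val_one, one_smul]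
      show rbar g * ad0Val rbar X * rbar g⁻¹ = ad0Val rbar X
      rw [← ad0Val_ρ_apply, hX g]
    have hY0 : Y = 0 := adSl_fixed_eq_zero (c := 1) h2 hρ hY
    exact congrArg Subtype.val hY0
  haveI : Subsingleton ↥(ad0Rep rbar).ρ.invariants := ⟨fun a b => by rw [h0 a, h0 b]⟩
  exact Nat.card_unique

/-! ### The determinant is the cyclotomic character -/

theorem coe_detU_eq_algebraMap_cycloChar (p : ℕ) [Fact p.Prime] {k : Type} [Field k]
    [Algebra (ZMod p) k] (ρbar : ResidualGaloisRep k)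
    (hdet : (GaloisRepAdic.ofResidualGaloisRep ρbar).DetIsCyclotomic p) (g : GQ) :
    ((detU (rhoM ρbar) g : kˣ) : k) = algebraMap (ZMod p) k (cycloChar p g) := by
  have hp0 := Fermat.Agent.TW.GRP.CycSub3.natCast_eq_zero p ρbar hdet
  have h := hdet.2 1 g (cycloExp p g) (fun μ hμ => by
    rw [pow_one] at hμ
    exact Fermat.Agent.S14.Fields.apply_eq_pow_cycloExp p g hμ)
  have hz : ((p ^ 1 : ℕ) : k) = 0 := by rw [pow_one, hp0]
  rw [Ideal.span_singleton_eq_bot.mpr hz] at h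
  have h1 : LinearMap.det (ρbar.ρ g) = ((cycloExp p g : ℕ) : k) :=
    sub_eq_zero.mp ((Submodule.mem_bot k).mp h)
  rw [coe_detU, det_rhoM, h1, coe_cycloChar, map_natCast]

/-! ### The product of the local factors -/

theorem prod_union_ite {A B : Finset Nat.Primes} (hAB : Disjoint A B) (a0 : Nat.Primes)
    (ha0 : a0 ∈ A) (c : ℕ) :
    ∏ q : ↥(A ∪ B), (if (q : Nat.Primes) = a0 then c else if (q : Nat.Primes) ∈ A then 1 else c) =
      c ^ (B.card + 1) := by
  classical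
  rw [Finset.prod_coe_sort (A ∪ B)
    (fun q : Nat.Primes => if q = a0 then c else if q ∈ A then 1 else c), Finset.prod_union hAB]
  have hA : ∏ q ∈ A, (if q = a0 then c else if q ∈ A then 1 else c) = c := by
    rw [Finset.prod_congr rfl (g := fun q => if q = a0 then c else 1)
      (fun q hq => by rw [if_pos hq]), Finset.prod_ite_eq' A a0 (fun _ => c), if_pos ha0]
  have hB : ∏ q ∈ B, (if q = a0 then c else if q ∈ A then 1 else c) = c ^ B.card := by
    rw [Finset.prod_congr rfl (g := fun _ => c) (fun q hq => by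
      have hqA : q ∉ A := fun h => Finset.disjoint_left.mp hAB h hq
      have hq0 : q ≠ a0 := fun h => hqA (h ▸ ha0)
      rw [if_neg hq0, if_neg hqA]), Finset.prod_const]
  rw [hA, hB, pow_succ, mul_comm]

end Fermat.Agent.TW.ASM.AsmLemmas8
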