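/-
Programme T (S56, Taylor–Wiles primes), chapter ASM (helper8): CHANGE OF THE RAMIFICATION SET for the
level cohomology `HS1 S M = H¹(G_S, M)` of `TW/DEF/Basic1` (ASM-3).

For `S ⊆ S'` (finite sets of primes) and `M : Rep k GQ`:
* `levelS_sets_mono`, `isLevel₁_mono`, `Z1_mono`; `inflZ1 M h`, `inflS1 M h : HS1 S M →ₗ[k] HS1 S' M`
  (identity on cocycles), `inflS1_mk`, `inflS1_injective`, `resq1_inflS1` (compatibility with the
  restriction maps to the decomposition groups);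
* `affHom M hf : GQ →* (M →ᵃ[k] M)`, `g ↦ (x ↦ ρ(g) x + f(g))` for a 1-cocycle `f`
  (`affHom_eq_one_iff : affHom M hf g = 1 ↔ M.ρ g = 1 ∧ f g = 0`);
* `mem_Z1_of_forall_inertia` (**descent of the level**): if `M` is trivial on a member of
  `levelS S`, a level-`S'` cocycle vanishing on all inertia groups at the primes of `S' \ S` is a
  level-`S` cocycle; `mem_range_inflS1`;
* `exists_mem_Sel_inflS1_eq` : comparison of `Sel S' M L'` (with `L' q = 0` at the new primes) with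
  `Sel S M L`.
-/
import Mathlib
import Fermat.Agent.TW.DEF.Basic1
import Fermat.Agent.TW.DEF.LevelKer1

set_option autoImplicit false
set_option linter.style.haveILetI false

open groupCohomology
open Fermat.Agent.PT.PRO.LevelCoh28 Fermat.Agent.PT.PRO.LevelCohRes28
open Fermat.Agent.PT.GLUE.Objects21
open Fermat.Agent.TW.DEF.Basic1

namespace Fermat.Agent.TW.ASM.LevelChange8

variable {k : Type} [CommRing k] (M : Rep.{0} k GQ) {S S' : Finset Nat.Primes}

theorem levelS_sets_mono (h : S ⊆ S') : (levelS S).sets ⊆ (levelS S').sets := by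
  rintro U ⟨F, hF, rfl⟩
  exact ⟨F, hF.mono h, rfl⟩

theorem isLevel₁_mono (h : S ⊆ S') {X : Type*} {f : GQ → X}
    (hf : IsLevel₁ (levelS S).sets f) : IsLevel₁ (levelS S').sets f := by
  obtain ⟨U, hU, hUf⟩ := hf
  exact ⟨U, levelS_sets_mono h hU, hUf⟩

theorem Z1_mono (h : S ⊆ S') : Z1 (levelS S) M ≤ Z1 (levelS S') M := fun _ hf =>
  ⟨hf.1, isLevel₁_mono h hf.2⟩

/-- Inflation of level cocycles from `G_S` to `G_{S'}` (identity on functions). -/
noncomputable def inflZ1 (h : S ⊆ S') : ↥(Z1 (levelS S) M) →ₗ[k] ↥(Z1 (levelS S') M) :=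
  Submodule.inclusion (Z1_mono M h)

@[simp] theorem coe_inflZ1 (h : S ⊆ S') (c : ↥(Z1 (levelS S) M)) :
    ((inflZ1 M h c).1 : GQ → M) = c.1 := rfl

/-- Inflation `H¹(G_S, M) → H¹(G_{S'}, M)`. -/
noncomputable def inflS1 (h : S ⊆ S') : HS1 S M →ₗ[k] HS1 S' M :=
  Submodule.mapQ _ _ (inflZ1 M h) fun _ hc => hc

theorem inflS1_mk (h : S ⊆ S') (c : ↥(Z1 (levelS S) M)) :
    inflS1 M h (H1mk (levelS S) M c) = H1mk (levelS S') M (inflZ1 M h c) := rfl

theorem inflS1_injective (h : S ⊆ S') : Function.Injective (inflS1 M h) := by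
  rw [← LinearMap.ker_eq_bot, eq_bot_iff]
  intro x hx
  obtain ⟨c, rfl⟩ := H1mk_surjective (levelS S) M x
  rw [LinearMap.mem_ker, inflS1_mk, H1mk_eq_zero_iff] at hx
  rw [Submodule.mem_bot, H1mk_eq_zero_iff]
  exact hx

/-- Inflation is compatible with restriction to the decomposition groups. -/
theorem resq1_inflS1 (h : S ⊆ S') (q : ℕ) [Fact q.Prime] (x : HS1 S M) :
    resq1 S' M q (inflS1 M h x) = resq1 S M q x := by
  obtain ⟨c, rfl⟩ := H1mk_surjective (levelS S) M x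
  rfl

/-! ### Descent of the level -/

section Descent

/-- The affine transformation `x ↦ ρ(g) x + f(g)` attached to a 1-cocycle `f`: a homomorphism from
`GQ` to the monoid of affine self-maps of `M`, trivial exactly where `ρ` and `f` are. -/
noncomputable def affHom {f : GQ → M} (hf : f ∈ cocycles₁ M) : GQ →* (M.V →ᵃ[k] M.V) where
  toFun g := ⟨fun x => M.ρ g x + f g, M.ρ g, fun p v => by
    show M.ρ g (v + p) + f g = M.ρ g v + (M.ρ g p + f g)
    rw [map_add, add_assoc]⟩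
  map_one' := by
    ext x
    show M.ρ 1 x + f 1 = x
    have h1 : f 1 = 0 := by
      have h := (mem_cocycles₁_iff f).mp hf 1 1
      rw [mul_one, map_one, Module.End.one_apply] at h
      exact left_eq_add.mp h
    rw [map_one, Module.End.one_apply, h1, add_zero]
  map_mul' g h := by
    ext x
    show M.ρ (g * h) x + f (g * h) = M.ρ g (M.ρ h x + f h) + f g
    rw [(mem_cocycles₁_iff f).mp hf g h, map_mul, map_add, Module.End.mul_apply, add_assoc]

theorem affHom_apply {f : GQ → M} (hf : f ∈ cocycles₁ M) (g : GQ) (x : M.V) :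
    affHom M hf g x = M.ρ g x + f g := rfl

theorem affHom_eq_one_iff {f : GQ → M} (hf : f ∈ cocycles₁ M) (g : GQ) :
    affHom M hf g = 1 ↔ M.ρ g = 1 ∧ f g = 0 := by
  constructor
  · intro h
    have h0 : f g = 0 := by
      have := congrArg (fun a : M.V →ᵃ[k] M.V => a 0) h
      simpa [affHom_apply] using this
    refine ⟨?_, h0⟩
    ext x
    have := congrArg (fun a : M.V →ᵃ[k] M.V => a x) h
    simpa [affHom_apply, h0] using this
  · rintro ⟨h1, h0⟩
    ext x
    rw [affHom_apply, h1, h0, add_zero]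
    rfl

/-- **Descent of the level.**  Let `S ⊆ S'`, let `M` be trivial on a member of `levelS S`, and let `f`
be a level-`S'` cocycle vanishing on all inertia groups at the primes of `S' \ S`.  Then `f` is a
level-`S` cocycle. -/
theorem mem_Z1_of_forall_inertia
    (hM : ∃ U ∈ (levelS S).sets, ∀ s ∈ U, M.ρ s = 1)
    {f : GQ → M} (hf : f ∈ Z1 (levelS S') M)
    (hfi : ∀ q : Nat.Primes, q ∈ S' → q ∉ S → ∀ P : ValuationSubring (AlgebraicClosure ℚ),
      P.LiesOverPrime (q : ℕ) → ∀ ι ∈ P.inertiaSubgroupIn ℚ, f ι = 0) :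
    f ∈ Z1 (levelS S) M := by
  obtain ⟨U, ⟨FU, hFU, rfl⟩, hUρ⟩ := hM
  obtain ⟨hfc, U', ⟨FU', hFU', rfl⟩, hU'f⟩ := hf
  have hf1 : f 1 = 0 := by
    have h1 := (mem_cocycles₁_iff f).mp hfc 1 1
    rw [mul_one, map_one, Module.End.one_apply] at h1
    exact left_eq_add.mp h1
  have hfU' : ∀ s ∈ FU'.fixingSubgroup, f s = 0 := fun s hs => by
    have := hU'f 1 s hs
    rwa [one_mul, hf1] at this
  obtain ⟨V, hV, -, hV1⟩ := Fermat.Agent.TW.DEF.LevelKer1.exists_levelS_forall_eq_one (affHom M hfc) S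
    ⟨FU ⊔ FU', by
      haveI := hFU.1
      haveI := hFU'.1
      exact IntermediateField.finiteDimensional_sup FU FU', fun s hs => by
      rw [IntermediateField.fixingSubgroup_sup] at hs
      exact (affHom_eq_one_iff M hfc s).mpr ⟨hUρ s hs.1, hfU' s hs.2⟩⟩
    (fun q hq P hP ι hι => by
      refine (affHom_eq_one_iff M hfc ι).mpr ⟨hUρ ι (hFU.2 q hq P hP hι), ?_⟩
      by_cases hqS' : q ∈ S'
      · exact hfi q hqS' hq P hP ι hι
      · exact hfU' ι (hFU'.2 q hqS' P hP hι))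
  refine ⟨hfc, V, hV, fun g s hs => ?_⟩
  obtain ⟨-, h0⟩ := (affHom_eq_one_iff M hfc s).mp (hV1 s hs)
  rw [(mem_cocycles₁_iff f).mp hfc g s, h0, map_zero, zero_add]

/-- The image of inflation: classes represented by a cocycle vanishing on inertia at `S' \ S`. -/
theorem mem_range_inflS1 (h : S ⊆ S')
    (hM : ∃ U ∈ (levelS S).sets, ∀ s ∈ U, M.ρ s = 1)
    (c : ↥(Z1 (levelS S') M))
    (hfi : ∀ q : Nat.Primes, q ∈ S' → q ∉ S → ∀ P : ValuationSubring (AlgebraicClosure ℚ),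
      P.LiesOverPrime (q : ℕ) → ∀ ι ∈ P.inertiaSubgroupIn ℚ, c.1 ι = 0) :
    H1mk (levelS S') M c ∈ LinearMap.range (inflS1 M h) :=
  ⟨H1mk (levelS S) M ⟨c.1, mem_Z1_of_forall_inertia M hM c.2 hfi⟩, rfl⟩

/-- **Comparison of Selmer groups.**  If the local conditions at the new primes `S' \ S` are `0`, the
local conditions at `S` agree, and vanishing of the restriction at a new prime forces the cocycle to
vanish on all inertia groups there (hypothesis `hloc`: `M` unramified at `q` + the decomposition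
group surjects), then every class of the Selmer group for `S'` is inflated from the Selmer group
for `S`. -/
theorem exists_mem_Sel_inflS1_eq (h : S ⊆ S')
    (hM : ∃ U ∈ (levelS S).sets, ∀ s ∈ U, M.ρ s = 1)
    (L : ∀ q : ↥S, Submodule k (Hq1 M ((q : Nat.Primes) : ℕ)))
    (L' : ∀ q : ↥S', Submodule k (Hq1 M ((q : Nat.Primes) : ℕ)))
    (hLL' : ∀ (q : Nat.Primes) (hq : q ∈ S), L' ⟨q, h hq⟩ = L ⟨q, hq⟩)
    (hbot : ∀ (q : Nat.Primes) (hq : q ∈ S'), q ∉ S → L' ⟨q, hq⟩ = ⊥)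
    (hloc : ∀ (q : Nat.Primes), q ∈ S' → q ∉ S → ∀ c : ↥(Z1 (levelS S') M),
      resq1 S' M (q : ℕ) (H1mk (levelS S') M c) = 0 →
        ∀ P : ValuationSubring (AlgebraicClosure ℚ), P.LiesOverPrime (q : ℕ) →
          ∀ ι ∈ P.inertiaSubgroupIn ℚ, c.1 ι = 0)
    (x : HS1 S' M) (hx : x ∈ Sel S' M L') :
    ∃ y ∈ Sel S M L, inflS1 M h y = x := by
  obtain ⟨c, rfl⟩ := H1mk_surjective (levelS S') M x
  rw [mem_Sel_iff] at hx
  have hfi : ∀ q : Nat.Primes, q ∈ S' → q ∉ S → ∀ P : ValuationSubring (AlgebraicClosure ℚ),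
      P.LiesOverPrime (q : ℕ) → ∀ ι ∈ P.inertiaSubgroupIn ℚ, c.1 ι = 0 := by
    intro q hq hqS
    refine hloc q hq hqS c ?_
    have := hx ⟨q, hq⟩
    rw [hbot q hq hqS] at this
    exact (Submodule.mem_bot _).mp this
  refine ⟨H1mk (levelS S) M ⟨c.1, mem_Z1_of_forall_inertia M hM c.2 hfi⟩, ?_, rfl⟩
  rw [mem_Sel_iff]
  rintro ⟨q, hq⟩
  rw [← resq1_inflS1 M h, ← hLL' q hq]
  exact hx ⟨q, h hq⟩

end Descent

end Fermat.Agent.TW.ASM.LevelChange8
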