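/-
Programme T (S56, Taylor–Wiles primes), chapter ASM (helper8): TRANSPORT ALONG AN EQUIVARIANT
ISOMORPHISM OF COEFFICIENT MODULES.

For `A B : Rep k G`, `e : A ≃ₗ[k] B` with `e (g • a) = g • e a` and a level basis `𝓑`:
* `symm_equivariant`;
* `h1Iso e he 𝓑 : H1 𝓑 A ≃ₗ[k] H1 𝓑 B` (`= mapH1 e`), `h2Iso e he 𝓑 : H2 𝓑 A ≃ₗ[k] H2 𝓑 B`
  (`= mapH2 e`), `h1Iso_mk`, `h1Iso_symm_mk`;
* `invIso e he : A.ρ.invariants ≃ₗ[k] B.ρ.invariants`, `card_invariants_eq`;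
* `isDiscrete_of_equiv`.

Galois vocabulary of `TW/DEF/Basic1` (`A B : Rep k GQ`):
* `hS1Iso e he S : HS1 S A ≃ₗ[k] HS1 S B`, `hq1Iso e he q : Hq1 A q ≃ₗ[k] Hq1 B q`,
  `hS2Iso`, `hq2Iso`;
* `resq1_hS1Iso : resq1 S B q (hS1Iso x) = hq1Iso (resq1 S A q x)`, `resq2_hS2Iso`,
  `inflS1_hS1Iso` (compatibility with the inflation of `LevelChange8`);
* `hS1Iso_mem_Sel_iff : hS1Iso x ∈ Sel S B L' ↔ x ∈ Sel S A (fun q => (L' q).comap hq1Iso)`,
  `selIso`, `card_Sel_eq`;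
* `invqIso`, `card_invariants_Mq_eq` (local invariants).
-/
import Mathlib
import Fermat.Agent.TW.DEF.Basic1
import Fermat.Agent.TW.ASM.LevelChange8

set_option autoImplicit false

open groupCohomology
open Fermat.Agent.PT.PRO.LevelCoh28 Fermat.Agent.PT.PRO.LevelCohRes28
open Fermat.Agent.PT.GLUE.Objects21
open Fermat.Agent.TW.DEF.Basic1

namespace Fermat.Agent.TW.ASM.EquivTransport8

section Generic

variable {k G : Type} [CommRing k] [Group G] {A B : Rep.{0} k G} (e : A.V ≃ₗ[k] B.V)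
  (he : ∀ g a, e (A.ρ g a) = B.ρ g (e a))

include he in
theorem symm_equivariant (g : G) (b : B.V) : e.symm (B.ρ g b) = A.ρ g (e.symm b) := by
  apply e.injective
  rw [e.apply_symm_apply, he, e.apply_symm_apply]

variable (𝓑 : LevelBasis G)

/-- `H¹` of isomorphic coefficient modules. -/
noncomputable def h1Iso : H1 𝓑 A ≃ₗ[k] H1 𝓑 B :=
  LinearEquiv.ofLinearMap (mapH1 (𝓑 := 𝓑) (e : A.V →ₗ[k] B.V) he)
    (mapH1 (𝓑 := 𝓑) (e.symm : B.V →ₗ[k] A.V) (symm_equivariant e he))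
    (LinearMap.ext fun x => by
      obtain ⟨c, rfl⟩ := H1mk_surjective 𝓑 B x
      rw [LinearMap.comp_apply, mapH1_mk, mapH1_mk, LinearMap.id_apply]
      congr 1
      apply Subtype.ext
      funext g
      exact e.apply_symm_apply _)
    (LinearMap.ext fun x => by
      obtain ⟨c, rfl⟩ := H1mk_surjective 𝓑 A x
      rw [LinearMap.comp_apply, mapH1_mk, mapH1_mk, LinearMap.id_apply]
      congr 1
      apply Subtype.ext
      funext g
      exact e.symm_apply_apply _)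

theorem h1Iso_apply (x : H1 𝓑 A) :
    h1Iso e he 𝓑 x = mapH1 (𝓑 := 𝓑) (e : A.V →ₗ[k] B.V) he x := rfl

theorem h1Iso_symm_apply (x : H1 𝓑 B) :
    (h1Iso e he 𝓑).symm x =
      mapH1 (𝓑 := 𝓑) (e.symm : B.V →ₗ[k] A.V) (symm_equivariant e he) x := rfl

theorem h1Iso_mk (c : ↥(Z1 𝓑 A)) :
    h1Iso e he 𝓑 (H1mk 𝓑 A c) = H1mk 𝓑 B (mapZ1 (e : A.V →ₗ[k] B.V) he c) := rfl

theorem h1Iso_symm_mk (c : ↥(Z1 𝓑 B)) :
    (h1Iso e he 𝓑).symm (H1mk 𝓑 B c) =
      H1mk 𝓑 A (mapZ1 (e.symm : B.V →ₗ[k] A.V) (symm_equivariant e he) c) := rfl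

/-- `H²` of isomorphic coefficient modules. -/
noncomputable def h2Iso : H2 𝓑 A ≃ₗ[k] H2 𝓑 B :=
  LinearEquiv.ofLinearMap (mapH2 (𝓑 := 𝓑) (e : A.V →ₗ[k] B.V) he)
    (mapH2 (𝓑 := 𝓑) (e.symm : B.V →ₗ[k] A.V) (symm_equivariant e he))
    (LinearMap.ext fun x => by
      obtain ⟨c, rfl⟩ := H2mk_surjective 𝓑 B x
      rw [LinearMap.comp_apply, mapH2_mk, mapH2_mk, LinearMap.id_apply]
      congr 1
      apply Subtype.ext
      funext g
      exact e.apply_symm_apply _)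
    (LinearMap.ext fun x => by
      obtain ⟨c, rfl⟩ := H2mk_surjective 𝓑 A x
      rw [LinearMap.comp_apply, mapH2_mk, mapH2_mk, LinearMap.id_apply]
      congr 1
      apply Subtype.ext
      funext g
      exact e.symm_apply_apply _)

theorem h2Iso_apply (x : H2 𝓑 A) :
    h2Iso e he 𝓑 x = mapH2 (𝓑 := 𝓑) (e : A.V →ₗ[k] B.V) he x := rfl

/-- Invariants of isomorphic modules. -/
noncomputable def invIso : ↥A.ρ.invariants ≃ₗ[k] ↥B.ρ.invariants :=
  LinearEquiv.ofSubmodules e A.ρ.invariants B.ρ.invariants (by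
    ext b
    constructor
    · rintro ⟨a, ha, rfl⟩ g
      show B.ρ g (e a) = e a
      rw [← he, ha g]
    · intro hb
      refine ⟨e.symm b, fun g => ?_, e.apply_symm_apply b⟩
      show A.ρ g (e.symm b) = e.symm b
      rw [← symm_equivariant e he, hb g])

include he in
theorem card_invariants_eq : Nat.card ↥A.ρ.invariants = Nat.card ↥B.ρ.invariants :=
  Nat.card_congr (invIso e he).toEquiv

include he in
theorem isDiscrete_of_equiv {𝓤 : Set (Subgroup G)} (hA : IsDiscrete 𝓤 A) : IsDiscrete 𝓤 B := by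
  intro b
  obtain ⟨U, hU, h⟩ := hA (e.symm b)
  refine ⟨U, hU, fun s hs => ?_⟩
  have := congrArg e (h s hs)
  rwa [he, e.apply_symm_apply] at this

end Generic

section Galois

variable {k : Type} [CommRing k] {A B : Rep.{0} k GQ} (e : A.V ≃ₗ[k] B.V)
  (he : ∀ g a, e (A.ρ g a) = B.ρ g (e a))

/-- Global `H¹`. -/
noncomputable def hS1Iso (S : Finset Nat.Primes) : HS1 S A ≃ₗ[k] HS1 S B := h1Iso e he (levelS S)

/-- Global `H²`. -/
noncomputable def hS2Iso (S : Finset Nat.Primes) : HS2 S A ≃ₗ[k] HS2 S B := h2Iso e he (levelS S)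

/-- Local `H¹`. -/
noncomputable def hq1Iso (q : ℕ) [Fact q.Prime] : Hq1 A q ≃ₗ[k] Hq1 B q :=
  h1Iso (A := Mq A q) (B := Mq B q) e (fun g a => he (rq q g) a) (levelLoc q)

/-- Local `H²`. -/
noncomputable def hq2Iso (q : ℕ) [Fact q.Prime] : Hq2 A q ≃ₗ[k] Hq2 B q :=
  h2Iso (A := Mq A q) (B := Mq B q) e (fun g a => he (rq q g) a) (levelLoc q)

theorem resq1_hS1Iso (S : Finset Nat.Primes) (q : ℕ) [Fact q.Prime] (x : HS1 S A) :
    resq1 S B q (hS1Iso e he S x) = hq1Iso e he q (resq1 S A q x) :=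
  ppH1_mapH1 (rq q) (isLevelHom_rq S q) (A := A) (B := B) (e : A.V →ₗ[k] B.V) he
    (A' := Mq A q) (B' := Mq B q) (e : A.V →ₗ[k] B.V) (fun g a => he (rq q g) a)
    LinearMap.id (fun _ _ => rfl) LinearMap.id (fun _ _ => rfl) (fun _ => rfl) x

theorem resq2_hS2Iso (S : Finset Nat.Primes) (q : ℕ) [Fact q.Prime] (x : HS2 S A) :
    resq2 S B q (hS2Iso e he S x) = hq2Iso e he q (resq2 S A q x) :=
  ppH2_mapH2 (rq q) (isLevelHom_rq S q) (A := A) (B := B) (e : A.V →ₗ[k] B.V) he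
    (A' := Mq A q) (B' := Mq B q) (e : A.V →ₗ[k] B.V) (fun g a => he (rq q g) a)
    LinearMap.id (fun _ _ => rfl) LinearMap.id (fun _ _ => rfl) (fun _ => rfl) x

theorem resq1_hS1Iso_symm (S : Finset Nat.Primes) (q : ℕ) [Fact q.Prime] (y : HS1 S B) :
    resq1 S A q ((hS1Iso e he S).symm y) = (hq1Iso e he q).symm (resq1 S B q y) := by
  apply (hq1Iso e he q).injective
  rw [LinearEquiv.apply_symm_apply, ← resq1_hS1Iso, LinearEquiv.apply_symm_apply]

open Fermat.Agent.TW.ASM.LevelChange8 in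
theorem inflS1_hS1Iso {S S' : Finset Nat.Primes} (h : S ⊆ S') (x : HS1 S A) :
    inflS1 B h (hS1Iso e he S x) = hS1Iso e he S' (inflS1 A h x) := by
  obtain ⟨c, rfl⟩ := H1mk_surjective (levelS S) A x
  rfl

/-- Selmer conditions correspond. -/
theorem hS1Iso_mem_Sel_iff (S : Finset Nat.Primes)
    (L' : ∀ q : ↥S, Submodule k (Hq1 B ((q : Nat.Primes) : ℕ))) (x : HS1 S A) :
    hS1Iso e he S x ∈ Sel S B L' ↔
      x ∈ Sel S A (fun q => (L' q).comap
        (hq1Iso e he ((q : Nat.Primes) : ℕ) : Hq1 A ((q : Nat.Primes) : ℕ) →ₗ[k] _)) := by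
  rw [mem_Sel_iff, mem_Sel_iff]
  refine forall_congr' fun q => ?_
  rw [resq1_hS1Iso, Submodule.mem_comap]
  rfl

theorem hS1Iso_symm_mem_Sel_iff (S : Finset Nat.Primes)
    (L' : ∀ q : ↥S, Submodule k (Hq1 B ((q : Nat.Primes) : ℕ))) (y : HS1 S B) :
    (hS1Iso e he S).symm y ∈ Sel S A (fun q => (L' q).comap
        (hq1Iso e he ((q : Nat.Primes) : ℕ) : Hq1 A ((q : Nat.Primes) : ℕ) →ₗ[k] _)) ↔
      y ∈ Sel S B L' := by
  rw [← hS1Iso_mem_Sel_iff, LinearEquiv.apply_symm_apply]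

/-- The Selmer groups correspond. -/
noncomputable def selIso (S : Finset Nat.Primes)
    (L' : ∀ q : ↥S, Submodule k (Hq1 B ((q : Nat.Primes) : ℕ))) :
    ↥(Sel S A (fun q => (L' q).comap
        (hq1Iso e he ((q : Nat.Primes) : ℕ) : Hq1 A ((q : Nat.Primes) : ℕ) →ₗ[k] _))) ≃ₗ[k]
      ↥(Sel S B L') :=
  LinearEquiv.ofSubmodules (hS1Iso e he S) _ _ (by
    ext y
    constructor
    · rintro ⟨x, hx, rfl⟩
      exact (hS1Iso_mem_Sel_iff e he S L' x).mpr hx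
    · intro hy
      exact ⟨(hS1Iso e he S).symm y, (hS1Iso_symm_mem_Sel_iff e he S L' y).mpr hy,
        LinearEquiv.apply_symm_apply _ _⟩)

theorem card_Sel_eq (S : Finset Nat.Primes)
    (L' : ∀ q : ↥S, Submodule k (Hq1 B ((q : Nat.Primes) : ℕ))) :
    Nat.card ↥(Sel S A (fun q => (L' q).comap
        (hq1Iso e he ((q : Nat.Primes) : ℕ) : Hq1 A ((q : Nat.Primes) : ℕ) →ₗ[k] _))) =
      Nat.card ↥(Sel S B L') :=
  Nat.card_congr (selIso e he S L').toEquiv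

/-- Local invariants. -/
noncomputable def invqIso (q : ℕ) [Fact q.Prime] :
    ↥(Mq A q).ρ.invariants ≃ₗ[k] ↥(Mq B q).ρ.invariants :=
  invIso (A := Mq A q) (B := Mq B q) e (fun g a => he (rq q g) a)

include he in
theorem card_invariants_Mq_eq (q : ℕ) [Fact q.Prime] :
    Nat.card ↥(Mq A q).ρ.invariants = Nat.card ↥(Mq B q).ρ.invariants :=
  Nat.card_congr (invqIso e he q).toEquiv

end Galois

end Fermat.Agent.TW.ASM.EquivTransport8
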