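/-
Programme T (S56, Taylor–Wiles primes), chapter ASM (helper8): THE TRACE PAIRING
`ad⁰ρ̄ × ad⁰ρ̄(1) → μ_p` and the identification `ad⁰ρ̄(1) ≅ (ad⁰ρ̄)^*(1)`.

`T/GLOB` (`GWNumeric1`) works with `M : Rep (ZMod p) GQ` and `M' = M.dualTwist (cycloChar p)`;
`T/GRP` (`Main3.exists_tw_primes`) works with raw cocycles with values in the matrix model
`adSl ρ̄ c` of `ad⁰ρ̄(1)` (`c = det ρ̄`).  This file identifies the two.

GENERIC PART (`F ⊆ k` finite separable extension of fields, `G` a group, `M N : Rep k G`,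
`b : M →ₗ[k] N →ₗ[k] k` with `b (g m) (g n) = c g * b m n`, `c g = algebraMap F k (χ g)`):
* `trPair F b : resScalars F M →ₗ[F] resScalars F N →ₗ[F] F`, `(m, n) ↦ Tr_{k/F} (b m n)`;
  `trPair_equivariant : trPair (g m) (g n) = χ g * trPair m n`;
* `toDualTwist F b χ : resScalars F N →ₗ[F] (resScalars F M).dualTwist χ` (`n ↦ trPair · n`),
  `toDualTwist_equivariant`, `toDualTwist_injective` (from right non-degeneracy of `b`),
  `dualTwistIso` (when the `F`-dimensions agree) and `dualTwistIso_equivariant`.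

MATRIX PART (`rbar : GQ →* M2 k`, `c : GQ →* kˣ`):
* `ad1Rep rbar c : Rep k GQ := Rep.of (adSl rbar c)` (`ad⁰ρ̄ ⊗ c` on trace-zero matrices);
* `trMat : ad0Rep rbar →ₗ[k] ad1Rep rbar c →ₗ[k] k`, `(X, Y) ↦ tr (X * Y)`; `trMat_equivariant`;
  `trMat_right_nondeg` (`2 ≠ 0`);
* `adDualIso F rbar c χ hc h2 : resScalars F (ad1Rep rbar c) ≃ₗ[F]
    (resScalars F (ad0Rep rbar)).dualTwist χ` and `adDualIso_equivariant`.

RAW COCYCLES: `mem_cocycles₁_ad1_iff`, `mem_coboundaries₁_ad1_iff` (`Coc3.IsCoc/IsCob` for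
`adSl rbar c`), `exists_field_of_mem_Z1` (level structure of a level-`S` cocycle).
-/
import Mathlib
import Fermat.Agent.TW.DEF.Basic1
import Fermat.Agent.TW.DEF.Mu1
import Fermat.Agent.TW.DEF.ScalarRes8
import Fermat.Agent.TW.GRP.AdZero3
import Fermat.Agent.TW.GRP.Coc3
import Fermat.Agent.TW.ASM.EquivTransport8

set_option autoImplicit false
set_option linter.unusedSectionVars false

open groupCohomology
open Fermat.Agent.PT.PRO.LevelCoh28 Fermat.Agent.PT.PRO.LevelCohRes28
open Fermat.Agent.PT.GLUE.Objects21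
open Fermat.Agent.TW.DEF.Basic1 Fermat.Agent.TW.DEF.ScalarRes8 Fermat.Agent.TW.DEF.Mu1
open Fermat.Agent.TW.GRP.AdZero3 Fermat.Agent.TW.GRP.Irred3 Fermat.Agent.TW.GRP.Coc3

namespace Fermat.Agent.TW.ASM.TraceDual8

noncomputable section

/-! ### Generic part -/

section Generic

variable (F : Type) {k G : Type} [Field F] [Field k] [Algebra F k] [Group G]
  {M N : Rep.{0} k G} (b : M.V →ₗ[k] N.V →ₗ[k] k)

/-- The `F`-bilinear pairing `Tr_{k/F} ∘ b`. -/
def trPair : (resScalars F M).V →ₗ[F] (resScalars F N).V →ₗ[F] F :=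
  LinearMap.mk₂ F (fun m n => Algebra.trace F k (b m n))
    (fun m m' n => by
      show Algebra.trace F k (b ((show M.V from m) + (show M.V from m')) n) = _
      rw [map_add, LinearMap.add_apply, map_add])
    (fun a m n => by
      show Algebra.trace F k (b (algebraMap F k a • (show M.V from m)) n) = _
      rw [map_smul, LinearMap.smul_apply, smul_eq_mul, ← Algebra.smul_def, map_smul])
    (fun m n n' => by
      show Algebra.trace F k (b m ((show N.V from n) + (show N.V from n'))) = _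
      rw [map_add, map_add])
    (fun a m n => by
      show Algebra.trace F k (b m (algebraMap F k a • (show N.V from n))) = _
      rw [map_smul, smul_eq_mul, ← Algebra.smul_def, map_smul])

theorem trPair_apply (m : M.V) (n : N.V) :
    trPair F b m n = Algebra.trace F k (b m n) := rfl

variable {F} (c : G →* kˣ) (χ : G →* Fˣ) (hc : ∀ g, (c g : k) = algebraMap F k (χ g))
  (hb : ∀ g m n, b (M.ρ g m) (N.ρ g n) = (c g : k) * b m n)

include hc hb in
theorem trPair_equivariant (g : G) (m : M.V) (n : N.V) :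
    trPair F b ((resScalars F M).ρ g m) ((resScalars F N).ρ g n) =
      (χ g : F) * trPair F b m n := by
  rw [resScalars_ρ_apply, resScalars_ρ_apply, trPair_apply, trPair_apply, hb, hc,
    ← Algebra.smul_def, map_smul, smul_eq_mul]

variable (F)

/-- `n ↦ Tr (b · n)`, with values in the twisted dual. -/
def toDualTwist : (resScalars F N).V →ₗ[F] ((resScalars F M).dualTwist χ).V :=
  (trPair F b).flip

theorem toDualTwist_apply (n : N.V) (m : M.V) :
    toDualTwist F b χ n m = Algebra.trace F k (b m n) := rfl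

variable {F}

include hc hb in
theorem toDualTwist_equivariant (g : G) (n : (resScalars F N).V) :
    toDualTwist F b χ ((resScalars F N).ρ g n) =
      ((resScalars F M).dualTwist χ).ρ g (toDualTwist F b χ n) := by
  rw [Rep.dualTwist_ρ_apply]
  refine LinearMap.ext fun m => ?_
  rw [LinearMap.smul_apply, LinearMap.comp_apply, smul_eq_mul]
  have h1 : m = (resScalars F M).ρ g ((resScalars F M).ρ g⁻¹ m) := by
    rw [← Module.End.mul_apply, ← map_mul, mul_inv_cancel, map_one, Module.End.one_apply]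
  have h2 := trPair_equivariant b c χ hc hb g ((resScalars F M).ρ g⁻¹ m) n
  rw [← h1] at h2
  exact h2

/-- Right non-degeneracy of `b` gives injectivity. -/
theorem toDualTwist_injective [FiniteDimensional F k] [Algebra.IsSeparable F k]
    (hnd : ∀ n : N.V, (∀ m : M.V, b m n = 0) → n = 0) :
    Function.Injective (toDualTwist F b χ) := by
  rw [← LinearMap.ker_eq_bot, LinearMap.ker_eq_bot']
  intro n hn
  refine hnd n fun m => ?_
  have hnd' := _root_.traceForm_nondegenerate F k
  refine hnd'.1 (b m n) fun a => ?_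
  rw [Algebra.traceForm_apply]
  have h1 : b m n * a = b (a • m) n := by
    rw [map_smul, LinearMap.smul_apply, smul_eq_mul, mul_comm]
  rw [h1]
  have h2 := congrArg (fun f : ((resScalars F M).dualTwist χ).V => f (a • m)) hn
  exact h2

/-- The isomorphism `N ≅ M^*(χ)` over `F`. -/
def dualTwistIso [FiniteDimensional F k] [Algebra.IsSeparable F k]
    [Module.Finite F (resScalars F M).V] [Module.Finite F (resScalars F N).V]
    (hnd : ∀ n : N.V, (∀ m : M.V, b m n = 0) → n = 0)
    (hdim : Module.finrank F (resScalars F N).V = Module.finrank F (resScalars F M).V) :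
    (resScalars F N).V ≃ₗ[F] ((resScalars F M).dualTwist χ).V :=
  LinearEquiv.ofBijective (toDualTwist F b χ)
    ⟨toDualTwist_injective b χ hnd,
      (LinearMap.injective_iff_surjective_of_finrank_eq_finrank
        (hdim.trans (Subspace.dual_finrank_eq (K := F) (V := (resScalars F M).V)).symm)).1
        (toDualTwist_injective b χ hnd)⟩

theorem dualTwistIso_apply [FiniteDimensional F k] [Algebra.IsSeparable F k]
    [Module.Finite F (resScalars F M).V] [Module.Finite F (resScalars F N).V]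
    (hnd : ∀ n : N.V, (∀ m : M.V, b m n = 0) → n = 0)
    (hdim : Module.finrank F (resScalars F N).V = Module.finrank F (resScalars F M).V)
    (n : (resScalars F N).V) :
    dualTwistIso b χ hnd hdim n = toDualTwist F b χ n := rfl

end Generic

/-! ### Finiteness of restrictions of scalars -/

section Finite

variable (F : Type) {k G : Type} [Field F] [Field k] [Algebra F k] [Group G]

theorem finite_resScalars (M : Rep.{0} k G) [Module.Finite F k] [Module.Finite k M.V] :
    Module.Finite F (resScalars F M).V := by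
  let _ : Module F M.V := Module.compHom M.V (algebraMap F k)
  have : IsScalarTower F k M.V := ⟨fun a x m => by
    show (a • x) • m = algebraMap F k a • (x • m)
    rw [Algebra.smul_def, mul_smul]⟩
  show Module.Finite F M.V
  exact Module.Finite.trans k M.V

end Finite

/-! ### Matrix part -/

section Mat

variable {k : Type} [Field k] (rbar : GQ →* M2 k) (c : GQ →* kˣ)

/-- `ad⁰ρ̄ ⊗ c` on trace-zero matrices (the matrix model of `ad⁰ρ̄(1)` when `c = det ρ̄`). -/
abbrev ad1Rep : Rep.{0} k GQ := Rep.of (adSl rbar c)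

/-- The underlying matrix of an element of `ad⁰ρ̄ ⊗ c`. -/
def ad1Val : (ad1Rep rbar c).V →ₗ[k] M2 k := (slM k).subtype

theorem ad1Val_injective : Function.Injective (ad1Val rbar c) := Subtype.val_injective

theorem trace_ad1Val (Y : (ad1Rep rbar c).V) : (ad1Val rbar c Y).trace = 0 :=
  mem_slM.1 (Subtype.prop (p := fun Z => Z ∈ slM k) Y)

theorem ad1Val_ρ_apply (g : GQ) (Y : (ad1Rep rbar c).V) :
    ad1Val rbar c ((ad1Rep rbar c).ρ g Y) = (c g : k) • (rbar g * ad1Val rbar c Y * rbar g⁻¹) :=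
  adSl_apply_coe rbar c g Y

/-- The trace pairing `(X, Y) ↦ tr (X * Y)`. -/
def trMat : (ad0Rep rbar).V →ₗ[k] (ad1Rep rbar c).V →ₗ[k] k :=
  ((LinearMap.mul k (M2 k)).compr₂ (Matrix.traceLinearMap (Fin 2) k k)).compl₁₂
    (ad0Val rbar) (ad1Val rbar c)

theorem trMat_apply (X : (ad0Rep rbar).V) (Y : (ad1Rep rbar c).V) :
    trMat rbar c X Y = Matrix.trace (ad0Val rbar X * ad1Val rbar c Y) := rfl

theorem trMat_equivariant (g : GQ) (X : (ad0Rep rbar).V) (Y : (ad1Rep rbar c).V) :
    trMat rbar c ((ad0Rep rbar).ρ g X) ((ad1Rep rbar c).ρ g Y) = (c g : k) * trMat rbar c X Y := by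
  rw [trMat_apply, trMat_apply, ad0Val_ρ_apply, ad1Val_ρ_apply, Matrix.mul_smul,
    Matrix.trace_smul, smul_eq_mul]
  congr 1
  have h1 : rbar g * ad0Val rbar X * rbar g⁻¹ * (rbar g * ad1Val rbar c Y * rbar g⁻¹) =
      rbar g * (ad0Val rbar X * ad1Val rbar c Y) * rbar g⁻¹ := by
    simp only [Matrix.mul_assoc]
    rw [← Matrix.mul_assoc (rbar g⁻¹) (rbar g), rbar_inv_mul, Matrix.one_mul]
  rw [h1, Matrix.trace_mul_cycle, rbar_inv_mul, Matrix.one_mul]

/-- The trace pairing is right non-degenerate when `2 ≠ 0`. -/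
theorem trMat_right_nondeg (h2 : (2 : k) ≠ 0) (Y : (ad1Rep rbar c).V)
    (h : ∀ X : (ad0Rep rbar).V, trMat rbar c X Y = 0) : Y = 0 := by
  apply ad1Val_injective rbar c
  rw [map_zero]
  set Z : M2 k := ad1Val rbar c Y with hZ
  have htr : Z.trace = 0 := trace_ad1Val rbar c Y
  rw [Matrix.trace_fin_two] at htr
  have hE12 : (!![0, 1; 0, 0] : M2 k) ∈ sl2 k := by
    rw [mem_sl2_iff, Matrix.trace_fin_two]
    simp
  have hE21 : (!![0, 0; 1, 0] : M2 k) ∈ sl2 k := by
    rw [mem_sl2_iff, Matrix.trace_fin_two]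
    simp
  have hH : (!![1, 0; 0, -1] : M2 k) ∈ sl2 k := by
    rw [mem_sl2_iff, Matrix.trace_fin_two]
    simp
  have h12 := h (⟨_, hE12⟩ : ↥(sl2 k))
  have h21 := h (⟨_, hE21⟩ : ↥(sl2 k))
  have hh := h (⟨_, hH⟩ : ↥(sl2 k))
  rw [trMat_apply, ← hZ] at h12 h21 hh
  change Matrix.trace ((!![0, 1; 0, 0] : M2 k) * Z) = 0 at h12
  change Matrix.trace ((!![0, 0; 1, 0] : M2 k) * Z) = 0 at h21
  change Matrix.trace ((!![1, 0; 0, -1] : M2 k) * Z) = 0 at hh
  rw [Matrix.trace_fin_two] at h12 h21 hh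
  simp only [Matrix.mul_apply, Fin.sum_univ_two, Matrix.of_apply, Matrix.cons_val', Matrix.cons_val_zero,
    Matrix.cons_val_one, Matrix.cons_val_fin_one, zero_mul, one_mul, add_zero, zero_add,
    neg_mul] at h12 h21 hh
  have h00 : Z 0 0 = 0 := by
    have : (2 : k) * Z 0 0 = 0 := by linear_combination htr + hh
    exact (mul_eq_zero.1 this).resolve_left h2
  have h11 : Z 1 1 = 0 := by linear_combination htr - h00
  ext i j
  fin_cases i <;> fin_cases j
  · exact h00
  · exact h21
  · exact h12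
  · exact h11

variable (F : Type) [Field F] [Algebra F k] [FiniteDimensional F k] [Algebra.IsSeparable F k]
  (χ : GQ →* Fˣ)

instance : Module.Finite k (ad0Rep rbar).V := inferInstanceAs (Module.Finite k ↥(sl2 k))

instance : Module.Finite k (ad1Rep rbar c).V := inferInstanceAs (Module.Finite k ↥(slM k))

instance : Module.Finite F (resScalars F (ad0Rep rbar)).V := finite_resScalars F (ad0Rep rbar)

instance : Module.Finite F (resScalars F (ad1Rep rbar c)).V := finite_resScalars F (ad1Rep rbar c)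

/-- **`ad⁰ρ̄(1) ≅ (ad⁰ρ̄)^*(1)`** as `F[G_ℚ]`-modules (`F = 𝔽_p`, `χ` the mod `p` cyclotomic
character, `c = det ρ̄`). -/
def adDualIso (h2 : (2 : k) ≠ 0) :
    (resScalars F (ad1Rep rbar c)).V ≃ₗ[F] ((resScalars F (ad0Rep rbar)).dualTwist χ).V :=
  dualTwistIso (trMat rbar c) χ (trMat_right_nondeg rbar c h2) rfl

theorem adDualIso_apply (h2 : (2 : k) ≠ 0) (Y : (ad1Rep rbar c).V) (X : (ad0Rep rbar).V) :
    adDualIso rbar c F χ h2 Y X =
      Algebra.trace F k (Matrix.trace (ad0Val rbar X * ad1Val rbar c Y)) := rfl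

theorem adDualIso_equivariant (hc : ∀ g, (c g : k) = algebraMap F k (χ g)) (h2 : (2 : k) ≠ 0)
    (g : GQ) (Y : (resScalars F (ad1Rep rbar c)).V) :
    adDualIso rbar c F χ h2 ((resScalars F (ad1Rep rbar c)).ρ g Y) =
      ((resScalars F (ad0Rep rbar)).dualTwist χ).ρ g (adDualIso rbar c F χ h2 Y) :=
  toDualTwist_equivariant (trMat rbar c) c χ hc (trMat_equivariant rbar c) g Y

end Mat

/-! ### Raw cocycles -/

section Raw

variable {k : Type} [Field k] (rbar : GQ →* M2 k) (c : GQ →* kˣ)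

theorem mem_cocycles₁_ad1_iff (f : GQ → (ad1Rep rbar c).V) :
    f ∈ cocycles₁ (ad1Rep rbar c) ↔ IsCoc (adSl rbar c) f := by
  rw [mem_cocycles₁_iff]
  refine forall_congr' fun g => forall_congr' fun h => ?_
  rw [add_comm]

theorem mem_coboundaries₁_ad1_iff (f : GQ → (ad1Rep rbar c).V) :
    f ∈ coboundaries₁ (ad1Rep rbar c) ↔ IsCob (adSl rbar c) f := by
  constructor
  · rintro ⟨w, rfl⟩
    exact ⟨w, fun g => rfl⟩
  · rintro ⟨w, hw⟩
    refine ⟨w, ?_⟩
    funext g
    exact (hw g).symm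

/-- A level-`S` cocycle vanishes on the fixing subgroup of a finite extension unramified outside
`S`. -/
theorem exists_field_of_mem_Z1 {k : Type} [CommRing k] {S : Finset Nat.Primes} {M : Rep.{0} k GQ}
    {f : GQ → M.V} (hf : f ∈ Z1 (levelS S) M) :
    ∃ L : IntermediateField ℚ (AlgebraicClosure ℚ), L.IsUnramifiedOutside S ∧
      ∀ σ ∈ L.fixingSubgroup, f σ = 0 := by
  obtain ⟨hcoc, _, ⟨L, hL, rfl⟩, hinv⟩ := hf
  refine ⟨L, hL, fun σ hσ => ?_⟩
  have h1 : f 1 = 0 := by
    have := (mem_cocycles₁_iff f).1 hcoc 1 1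
    rw [mul_one, map_one, Module.End.one_apply] at this
    exact left_eq_add.mp this
  have h2 := hinv 1 σ hσ
  rw [one_mul] at h2
  rw [h2, h1]

/-- The finite-level hypothesis `hlev` of `Main3.exists_tw_primes`. -/
theorem exists_finiteLevel_of_mem_Z1 {k : Type} [CommRing k] {S : Finset Nat.Primes}
    {M : Rep.{0} k GQ} {f : GQ → M.V} (hf : f ∈ Z1 (levelS S) M) :
    ∃ L : IntermediateField ℚ (AlgebraicClosure ℚ), FiniteDimensional ℚ L ∧
      ∀ σ : GQ, (∀ x ∈ L, σ x = x) → f σ = 0 := by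
  obtain ⟨L, hL, h⟩ := exists_field_of_mem_Z1 hf
  refine ⟨L, hL.1, fun σ hσ => h σ ?_⟩
  rw [IntermediateField.mem_fixingSubgroup_iff]
  exact hσ

/-- The unramifiedness hypothesis `hur` of `Main3.exists_tw_primes`. -/
theorem eq_zero_of_mem_inertia_of_mem_Z1 {k : Type} [CommRing k] {S : Finset Nat.Primes}
    {M : Rep.{0} k GQ} {f : GQ → M.V} (hf : f ∈ Z1 (levelS S) M) (q : Nat.Primes) (hq : q ∉ S)
    (P : ValuationSubring (AlgebraicClosure ℚ)) (hP : P.LiesOverPrime (q : ℕ))
    (ι : GQ) (hι : ι ∈ P.inertiaSubgroupIn ℚ) : f ι = 0 := by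
  obtain ⟨L, hL, h⟩ := exists_field_of_mem_Z1 hf
  exact h ι (hL.2 q hq P hP hι)

end Raw

end

end Fermat.Agent.TW.ASM.TraceDual8
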