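/-
Programme T (S56, Taylor–Wiles primes), chapter ASM (helper8): TAYLOR–WILES PRIMES KILL THE DUAL
SELMER GROUP (ASM-0, layer 3).

`ρbar : ResidualGaloisRep k` (`k` a finite field, `[Algebra (ZMod p) k]`), `rbar := rhoM ρbar`,
`M := resScalars (ZMod p) (ad0Rep rbar)`, `M' := M.dualTwist (cycloChar p)`.  For ANY
`ZMod p`-subspace `D₀ ≤ HS1 S₀ M'` (in the application: the dual Selmer group
`Sel S₀ M' (dualCond I₀ L₀)`), `exists_tw_primes_kill` produces `r` and, for every `n`, distinct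
primes `qv i ∉ S`, `qv i ≡ 1 mod p ^ (n + 1)` (`i : Fin r`) with `ρ̄(Frob)` regular semisimple and
`det ρ̄(Frob) = 1` at all places over `qv i`, such that a class of `D₀` which is locally trivial at
all the `qv i` is zero.

Proof: transport `D₀` to `HS1 S₀ (ad1Rep rbar (det rbar))` (`TraceDual8.adDualIso`,
`EquivTransport8`, `ScalarRes8`), take the `k`-span `W`, lift it to a space `D` of raw cocycles by a
`k`-linear section of `Z¹ → H¹` (`liftSub`), and apply `TW/GRP/Main3.exists_tw_primes` to `D`; the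
local triviality at `q` of the class of `f ∈ D` gives `f (φ) ∈ range (adOne φ - 1)` for
`φ = rq q τ`, `τ` a Frobenius lift of `Gq q` (`TW/LOC/TWLocalAd4.isFrobeniusAt_rq`).
-/
import Mathlib
import Fermat.Agent.TW.ASM.TraceDual8
import Fermat.Agent.TW.GRP.Main3
import Fermat.Agent.TW.LOC.TWLocalAd4

set_option autoImplicit false
set_option linter.unusedSectionVars false
set_option linter.style.haveILetI false

open groupCohomology
open Fermat.Agent.PT.PRO.LevelCoh28 Fermat.Agent.PT.PRO.LevelCohRes28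
open Fermat.Agent.PT.GLUE.Objects21
open Fermat.Agent.TW.DEF.Basic1 Fermat.Agent.TW.DEF.ScalarRes8 Fermat.Agent.TW.DEF.Mu1
open Fermat.Agent.TW.GRP.AdZero3 Fermat.Agent.TW.GRP.Irred3 Fermat.Agent.TW.GRP.Coc3
open Fermat.Agent.TW.GRP.Bridge3
open Fermat.Agent.TW.GRP.Mat2x3 (disc2)
open Fermat.Agent.TW.ASM.TraceDual8 Fermat.Agent.TW.ASM.EquivTransport8
open Fermat.Agent.TW.LOC.TameProfinite4 Fermat.Agent.TW.LOC.UnramGq4
open ExtCitation

namespace Fermat.Agent.TW.ASM.KillDual8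

noncomputable section

/-! ### Lifting a subspace of `H¹` to a space of cocycles -/

section Lift

variable {k : Type} [Field k] {S : Finset Nat.Primes} (N : Rep.{0} k GQ)

/-- A `k`-linear section of `Z¹ → H¹`. -/
theorem exists_section : ∃ s : HS1 S N →ₗ[k] ↥(Z1 (levelS S) N),
    ∀ w, H1mk (levelS S) N (s w) = w := by
  obtain ⟨s, hs⟩ := (H1mk (levelS S) N).exists_rightInverse_of_surjective
    (LinearMap.range_eq_top.2 (H1mk_surjective (levelS S) N))
  exact ⟨s, fun w => LinearMap.congr_fun hs w⟩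

/-- The space of cocycles `s w`, `w ∈ W`. -/
def liftSub (s : HS1 S N →ₗ[k] ↥(Z1 (levelS S) N)) (W : Submodule k (HS1 S N)) :
    Submodule k (GQ → N.V) :=
  (W.map s).map (Z1 (levelS S) N).subtype

theorem mem_liftSub_iff (s : HS1 S N →ₗ[k] ↥(Z1 (levelS S) N)) (W : Submodule k (HS1 S N))
    (f : GQ → N.V) : f ∈ liftSub N s W ↔ ∃ w ∈ W, ((s w : ↥(Z1 (levelS S) N)) : GQ → N.V) = f := by
  constructor
  · rintro ⟨z, ⟨w, hw, rfl⟩, rfl⟩
    exact ⟨w, hw, rfl⟩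
  · rintro ⟨w, hw, rfl⟩
    exact ⟨s w, ⟨w, hw, rfl⟩, rfl⟩

instance (s : HS1 S N →ₗ[k] ↥(Z1 (levelS S) N)) (W : Submodule k (HS1 S N))
    [Module.Finite k ↥W] : Module.Finite k ↥(liftSub N s W) := by
  unfold liftSub
  infer_instance

end Lift

/-! ### The main theorem of layer 3 -/

section Main

variable (p : ℕ) [hp : Fact p.Prime] {k : Type} [Field k] [Finite k] [Algebra (ZMod p) k]
  (ρbar : ResidualGaloisRep k)

/-- **Taylor–Wiles primes killing a given subspace of `H¹(G_{S₀}, (ad⁰ρ̄)^*(1))`.** -/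
theorem exists_tw_primes_kill (hp2 : p ≠ 2) (habs : ρbar.IsAbsolutelyIrreducible)
    (hdet : (GaloisRepAdic.ofResidualGaloisRep ρbar).DetIsCyclotomic p)
    (hTW : ∀ (K : Type) [Field K] [Algebra k K] (G : Subgroup GQ), G.index = 2 →
      ∀ V : Submodule K (ρbar.baseChange K).V,
        (∀ σ ∈ G, ∀ x ∈ V, (ρbar.baseChange K).ρ σ x ∈ V) → V = ⊥ ∨ V = ⊤)
    (hvan : Fermat.Agent.TW.GRP.VanReduce3.MatrixH1Vanishing (rhoM ρbar) (detU (rhoM ρbar)))
    (hc : ∀ g, ((detU (rhoM ρbar) g : kˣ) : k) = algebraMap (ZMod p) k (cycloChar p g))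
    (S : Finset ℕ) (hpS : p ∈ S)
    (hρS : ∀ q : ℕ, q.Prime → q ∉ S → ρbar.IsUnramifiedAt q)
    (S₀ : Finset Nat.Primes) (hS₀ : ∀ q : Nat.Primes, q ∈ S₀ → (q : ℕ) ∈ S)
    [Finite (HS1 S₀ ((resScalars (ZMod p) (ad0Rep (rhoM ρbar))).dualTwist (cycloChar p)))]
    (D₀ : Submodule (ZMod p)
      (HS1 S₀ ((resScalars (ZMod p) (ad0Rep (rhoM ρbar))).dualTwist (cycloChar p)))) :
    ∃ r : ℕ, ∀ n : ℕ, ∃ qv : Fin r → Nat.Primes, Function.Injective qv ∧
      (∀ i, ((qv i : Nat.Primes) : ℕ) ∉ S ∧ p ^ (n + 1) ∣ ((qv i : Nat.Primes) : ℕ) - 1) ∧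
      (∀ i, ∀ P : ValuationSubring (AlgebraicClosure ℚ),
        P.LiesOverPrime ((qv i : Nat.Primes) : ℕ) → ∀ φ : GQ,
        P.IsFrobeniusAt φ ((qv i : Nat.Primes) : ℕ) →
          disc2 (rhoM ρbar φ) ≠ 0 ∧ detU (rhoM ρbar) φ = 1) ∧
      ∀ y ∈ D₀, (∀ i, resq1 S₀ ((resScalars (ZMod p) (ad0Rep (rhoM ρbar))).dualTwist (cycloChar p))
        ((qv i : Nat.Primes) : ℕ) y = 0) → y = 0 := by
  classical
  have h2 : (2 : k) ≠ 0 := Fermat.Agent.TW.GRP.CycSub3.two_ne_zero_of p ρbar hp2 hdet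
  -- the isomorphism `ad⁰(1) ≅ (ad⁰)^*(1)`
  let M1k : Rep.{0} k GQ := ad1Rep (rhoM ρbar) (detU (rhoM ρbar))
  let e := adDualIso (rhoM ρbar) (detU (rhoM ρbar)) (ZMod p) (cycloChar p) h2
  have he := adDualIso_equivariant (rhoM ρbar) (detU (rhoM ρbar)) (ZMod p) (cycloChar p) hc h2
  -- the comparison of global `H¹`
  let Φ : HS1 S₀ M1k →
      HS1 S₀ ((resScalars (ZMod p) (ad0Rep (rhoM ρbar))).dualTwist (cycloChar p)) :=
    fun w => hS1Iso e he S₀ (hS1Equiv (ZMod p) S₀ M1k w)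
  have hΦinj : Function.Injective Φ :=
    (hS1Iso e he S₀).injective.comp (hS1Equiv (ZMod p) S₀ M1k).injective
  have hΦsurj : Function.Surjective Φ :=
    (hS1Iso e he S₀).surjective.comp (hS1Equiv (ZMod p) S₀ M1k).surjective
  have hΦ0 : Φ 0 = 0 := by
    show hS1Iso e he S₀ (hS1Equiv (ZMod p) S₀ M1k 0) = 0
    rw [map_zero, map_zero]
  haveI : Finite (HS1 S₀ M1k) := Finite.of_injective Φ hΦinj
  haveI : Module.Finite k (HS1 S₀ M1k) := Module.Finite.of_finite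
  -- the `k`-span of the transported subspace, lifted to cocycles
  let W : Submodule k (HS1 S₀ M1k) := Submodule.span k (Φ ⁻¹' (D₀ : Set _))
  obtain ⟨s, hs⟩ := exists_section (S := S₀) M1k
  let D : Submodule k (GQ → slM k) := liftSub M1k s W
  haveI : FiniteDimensional k ↥D := inferInstanceAs (Module.Finite k ↥(liftSub M1k s W))
  have hD : ∀ f ∈ D, ∃ w ∈ W, ((s w : ↥(Z1 (levelS S₀) M1k)) : GQ → M1k.V) = f :=
    fun f hf => (mem_liftSub_iff M1k s W f).1 hf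
  refine ⟨Module.finrank k ↥D, fun n => ?_⟩
  obtain ⟨qv, hinj, hq, hfrob, hkill⟩ := Fermat.Agent.TW.GRP.Main3.exists_tw_primes p ρbar hp2 habs
    hdet hTW hvan S hpS hρS D
    (fun f hf => by
      obtain ⟨w, -, rfl⟩ := hD f hf
      exact (mem_cocycles₁_ad1_iff (rhoM ρbar) (detU (rhoM ρbar)) _).1 (s w).2.1)
    (fun f hf => by
      obtain ⟨w, -, rfl⟩ := hD f hf
      exact exists_finiteLevel_of_mem_Z1 (s w).2)
    (fun f hf q hq hqS P hP ι hι => by
      obtain ⟨w, -, rfl⟩ := hD f hf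
      exact eq_zero_of_mem_inertia_of_mem_Z1 (s w).2 ⟨q, hq⟩ (fun h => hqS (hS₀ _ h)) P hP ι hι)
    (fun f hf hcob => by
      obtain ⟨w, -, rfl⟩ := hD f hf
      have h1 : H1mk (levelS S₀) M1k (s w) = 0 :=
        (H1mk_eq_zero_iff (levelS S₀) M1k (s w)).2
          ((mem_coboundaries₁_ad1_iff (rhoM ρbar) (detU (rhoM ρbar)) _).2 hcob)
      rw [hs w] at h1
      rw [h1, map_zero]
      rfl) n
  -- the primes, as elements of `Nat.Primes`
  obtain ⟨qp, hqp⟩ : ∃ qp : Fin (Module.finrank k ↥D) → Nat.Primes,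
      qv = fun i => ((qp i : Nat.Primes) : ℕ) := ⟨fun i => ⟨qv i, (hq i).1⟩, rfl⟩
  subst hqp
  refine ⟨qp, fun i j hij => hinj (congrArg (fun q : Nat.Primes => (q : ℕ)) hij),
    fun i => ⟨(hq i).2.1, (hq i).2.2⟩, fun i P hP φ hφ => hfrob i P hP φ hφ, ?_⟩
  intro y hy hres
  obtain ⟨w, rfl⟩ := hΦsurj y
  have hwW : w ∈ W := Submodule.subset_span hy
  have hfD : ((s w : ↥(Z1 (levelS S₀) M1k)) : GQ → slM k) ∈ D :=
    (mem_liftSub_iff M1k s W _).2 ⟨w, hwW, rfl⟩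
  choose τ hτ using fun i => exists_isFrobLift ((qp i : Nat.Primes) : ℕ)
  have h0 := hkill (fun i => padicPlace ((qp i : Nat.Primes) : ℕ))
    (fun i => rq ((qp i : Nat.Primes) : ℕ) (τ i))
    (fun i => liesOverPrime_padicPlace ((qp i : Nat.Primes) : ℕ))
    (fun i => Fermat.Agent.TW.LOC.TWLocalAd4.isFrobeniusAt_rq ((qp i : Nat.Primes) : ℕ) (hτ i))
    _ hfD (fun i => ?_)
  · have hsw : s w = 0 := Subtype.ext h0
    have hw0 : w = 0 := by rw [← hs w, hsw, map_zero]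
    rw [hw0]
    exact hΦ0
  · have h1 : resq1 S₀ M1k ((qp i : Nat.Primes) : ℕ) w = 0 := by
      apply (hq1Equiv (ZMod p) M1k ((qp i : Nat.Primes) : ℕ)).injective
      apply (hq1Iso e he ((qp i : Nat.Primes) : ℕ)).injective
      rw [map_zero, map_zero, ← resq1_hS1Equiv, ← resq1_hS1Iso]
      exact hres i
    have h1' : resq1 S₀ M1k ((qp i : Nat.Primes) : ℕ) (H1mk (levelS S₀) M1k (s w)) = 0 := by
      rw [hs w]
      exact h1
    rw [resq1_mk', H1mk_eq_zero_iff] at h1'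
    obtain ⟨m, hm⟩ := h1'
    refine ⟨m, ?_⟩
    have h3 := congrFun hm (τ i)
    rw [d₀₁_hom_apply] at h3
    exact h3

end Main

end

end Fermat.Agent.TW.ASM.KillDual8
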