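/-
Programme T (S56, Taylor–Wiles primes), chapter ASM (helper8): THE SELMER BOUND (ASM-0, layers 1–2).

Layer 1 (`card_Sel_le_pow`): `M : Rep k GQ` finite (`k` a finite field, `[Algebra (ZMod p) k]`),
`I : GWInputs S (resScalars (ZMod p) M) M'`, local conditions `L q ≤ Hq1 M q` (`k`-subspaces).  If
* `#k ≤ I.r0` (oddness), `#H⁰(G_ℚ, M) = 1`,
* the dual Selmer group `Sel S M' (dualCond I L)` is `0`,
* `∏_q #L_q ≤ (#k)^(n+1) * ∏_q #H⁰(ℚ_q, M)`,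
then `#Sel S M L ≤ (#k)^n`.  (Direct consequence of `GWNumeric1.card_Sel_le`.)

`prod_card_le` : the product bound from bounds prime by prime
(`#L_q ≤ a_q * #H⁰(ℚ_q, M)` with `∏ a_q ≤ (#k)^(n+1)`).

Layer 2 (`dualSel_eq_bot`): `S₀ ⊆ S`; the pairings of `I : GWInputs S M M'` and `I₀ : GWInputs S₀ M M'`
come from one family `pairq` of local pairings, right non-degenerate at the primes of `S \ S₀`; the
conditions `L` agree with `L₀` on `S₀` and are `⊤` on `S \ S₀`.  If every class of the dual Selmer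
group `Sel S₀ M' (dualCond I₀ L₀)` which is locally trivial at all primes of `S \ S₀` is zero, then
`Sel S M' (dualCond I L) = ⊥`.
-/
import Mathlib
import Fermat.Agent.TW.DEF.ScalarRes8
import Fermat.Agent.TW.GLOB.GWNumeric1
import Fermat.Agent.TW.ASM.LevelChange8

set_option autoImplicit false
set_option linter.unusedSectionVars false
set_option linter.style.haveILetI false

open Fermat.Agent.PT.PRO.LevelCoh28 Fermat.Agent.PT.PRO.LevelCohRes28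
open Fermat.Agent.PT.GLUE.Objects21
open Fermat.Agent.TW.DEF.Basic1 Fermat.Agent.TW.DEF.ScalarRes8
open Fermat.Agent.TW.GLOB.GWNumeric1 Fermat.Agent.TW.ASM.LevelChange8

namespace Fermat.Agent.TW.ASM.SelmerBound8

/-! ### Layer 1 -/

section Layer1

/-- Arithmetic of layer 1. -/
theorem arith_sel {s h0' P0 r0 d h0 PL c n : ℕ} (hc : 0 < c) (hP0 : 0 < P0) (hh0' : 0 < h0')
    (hr0 : c ≤ r0) (hd : d = 1) (hh0 : h0 = 1)
    (hgw : s * h0' * P0 * r0 ≤ d * h0 * PL) (hloc : PL ≤ c ^ (n + 1) * P0) : s ≤ c ^ n := by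
  subst hd hh0
  have h1 : s * (P0 * c) ≤ c ^ n * (P0 * c) :=
    calc s * (P0 * c) = s * 1 * P0 * c := by ring
      _ ≤ s * h0' * P0 * r0 := by gcongr; exact hh0'
      _ ≤ 1 * 1 * PL := hgw
      _ = PL := by ring
      _ ≤ c ^ (n + 1) * P0 := hloc
      _ = c ^ n * (P0 * c) := by ring
  exact Nat.le_of_mul_le_mul_right h1 (Nat.mul_pos hP0 hc)

variable {p : ℕ} [Fact p.Prime] {k : Type} [Field k] [Finite k] [Algebra (ZMod p) k]
  (M : Rep.{0} k GQ) [Finite M.V] {S : Finset Nat.Primes} {M' : Rep.{0} (ZMod p) GQ}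
  (I : GWInputs S (resScalars (ZMod p) M) M')
  (L : ∀ q : ↥S, Submodule k (Hq1 M ((q : Nat.Primes) : ℕ)))

theorem card_invariants_Mq_resScalars (q : ℕ) [Fact q.Prime] :
    Nat.card ↥(Mq (resScalars (ZMod p) M) q).ρ.invariants = Nat.card ↥(Mq M q).ρ.invariants :=
  card_invariants_resScalars (ZMod p) (Mq M q)

/-- **Layer 1: the bound for the Selmer group.** -/
theorem card_Sel_le_pow [∀ q, Finite ↥(L q)] (n : ℕ)
    (hr0 : Nat.card k ≤ I.r0) (hH0 : Nat.card ↥M.ρ.invariants = 1)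
    (hdual : Sel S M' (dualCond I (fun q => condF (ZMod p) M ((q : Nat.Primes) : ℕ) (L q))) = ⊥)
    (hloc : ∏ q : ↥S, Nat.card ↥(L q) ≤
      Nat.card k ^ (n + 1) * ∏ q : ↥S, Nat.card ↥(Mq M ((q : Nat.Primes) : ℕ)).ρ.invariants) :
    Nat.card ↥(Sel S M L) ≤ Nat.card k ^ n := by
  haveI : ∀ q : ↥S, Finite ↥(condF (ZMod p) M ((q : Nat.Primes) : ℕ) (L q)) := fun q =>
    Finite.of_equiv _ (condEquiv (ZMod p) M ((q : Nat.Primes) : ℕ) (L q))
  haveI := I.finM'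
  haveI : ∀ q : ↥S, Finite ↥(Mq M ((q : Nat.Primes) : ℕ)).ρ.invariants := fun q =>
    Finite.of_injective (fun x : ↥(Mq M ((q : Nat.Primes) : ℕ)).ρ.invariants => (x.1 : M.V))
      Subtype.val_injective
  have hP0 : ∏ q : ↥S, Nat.card ↥(Mq (resScalars (ZMod p) M) ((q : Nat.Primes) : ℕ)).ρ.invariants =
      ∏ q : ↥S, Nat.card ↥(Mq M ((q : Nat.Primes) : ℕ)).ρ.invariants :=
    Finset.prod_congr rfl fun q _ => card_invariants_Mq_resScalars M ((q : Nat.Primes) : ℕ)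
  have hPL : ∏ q : ↥S, Nat.card ↥(condF (ZMod p) M ((q : Nat.Primes) : ℕ) (L q)) =
      ∏ q : ↥S, Nat.card ↥(L q) :=
    Finset.prod_congr rfl fun q _ => card_condF (ZMod p) M ((q : Nat.Primes) : ℕ) (L q)
  have hgw : Nat.card ↥(Sel S M L) * Nat.card ↥M'.ρ.invariants *
      (∏ q : ↥S, Nat.card ↥(Mq M ((q : Nat.Primes) : ℕ)).ρ.invariants) * I.r0 ≤
      Nat.card ↥(Sel S M' (dualCond I
        (fun q => condF (ZMod p) M ((q : Nat.Primes) : ℕ) (L q)))) * Nat.card ↥M.ρ.invariants *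
        ∏ q : ↥S, Nat.card ↥(L q) := by
    have h0 := card_Sel_le I (fun q => condF (ZMod p) M ((q : Nat.Primes) : ℕ) (L q))
    rw [card_Sel_resScalars, card_invariants_resScalars] at h0
    rw [← hP0, ← hPL]
    exact h0
  have hd : Nat.card ↥(Sel S M'
      (dualCond I (fun q => condF (ZMod p) M ((q : Nat.Primes) : ℕ) (L q)))) = 1 := by
    rw [hdual]
    exact Nat.card_unique
  exact arith_sel (Nat.card_pos (α := k))
    (Finset.prod_pos fun q _ => Nat.card_pos) (Nat.card_pos (α := ↥M'.ρ.invariants)) hr0 hd hH0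
    hgw hloc

/-- The product bound from bounds prime by prime. -/
theorem prod_card_le (a : ↥S → ℕ) (n : ℕ)
    (hq : ∀ q : ↥S, Nat.card ↥(L q) ≤
      a q * Nat.card ↥(Mq M ((q : Nat.Primes) : ℕ)).ρ.invariants)
    (ha : ∏ q : ↥S, a q ≤ Nat.card k ^ (n + 1)) :
    ∏ q : ↥S, Nat.card ↥(L q) ≤
      Nat.card k ^ (n + 1) * ∏ q : ↥S, Nat.card ↥(Mq M ((q : Nat.Primes) : ℕ)).ρ.invariants :=
  calc ∏ q : ↥S, Nat.card ↥(L q)
      ≤ ∏ q : ↥S, a q * Nat.card ↥(Mq M ((q : Nat.Primes) : ℕ)).ρ.invariants :=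
        Finset.prod_le_prod' fun q _ => hq q
    _ = (∏ q : ↥S, a q) * ∏ q : ↥S, Nat.card ↥(Mq M ((q : Nat.Primes) : ℕ)).ρ.invariants :=
        Finset.prod_mul_distrib
    _ ≤ _ := Nat.mul_le_mul_right _ ha

end Layer1

/-! ### Layer 2 -/

section Layer2

variable {p : ℕ} [Fact p.Prime] {S₀ S : Finset Nat.Primes} {M M' : Rep.{0} (ZMod p) GQ}

/-- **Layer 2: vanishing of the dual Selmer group after adding primes.** -/
theorem dualSel_eq_bot (h : S₀ ⊆ S) (I₀ : GWInputs S₀ M M') (I : GWInputs S M M')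
    (pairq : ∀ q : Nat.Primes, Hq1 M (q : ℕ) →ₗ[ZMod p] Hq1 M' (q : ℕ) →ₗ[ZMod p] ZMod p)
    (hI₀ : ∀ q : ↥S₀, I₀.pair q = pairq q) (hI : ∀ q : ↥S, I.pair q = pairq q)
    (hnd : ∀ q : Nat.Primes, q ∈ S → q ∉ S₀ →
      ∀ y : Hq1 M' (q : ℕ), (∀ x, pairq q x y = 0) → y = 0)
    (L₀ : ∀ q : ↥S₀, Submodule (ZMod p) (Hq1 M ((q : Nat.Primes) : ℕ)))
    (L : ∀ q : ↥S, Submodule (ZMod p) (Hq1 M ((q : Nat.Primes) : ℕ)))
    (hLL₀ : ∀ (q : Nat.Primes) (hq : q ∈ S₀), L ⟨q, h hq⟩ = L₀ ⟨q, hq⟩)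
    (hLtop : ∀ (q : Nat.Primes) (hq : q ∈ S), q ∉ S₀ → L ⟨q, hq⟩ = ⊤)
    (hM' : ∃ U ∈ (levelS S₀).sets, ∀ s ∈ U, M'.ρ s = 1)
    (hloc : ∀ (q : Nat.Primes), q ∈ S → q ∉ S₀ → ∀ c : ↥(Z1 (levelS S) M'),
      resq1 S M' (q : ℕ) (H1mk (levelS S) M' c) = 0 →
        ∀ P : ValuationSubring (AlgebraicClosure ℚ), P.LiesOverPrime (q : ℕ) →
          ∀ ι ∈ P.inertiaSubgroupIn ℚ, c.1 ι = 0)
    (hkill : ∀ y ∈ Sel S₀ M' (dualCond I₀ L₀),
      (∀ q : Nat.Primes, q ∈ S → q ∉ S₀ → resq1 S₀ M' (q : ℕ) y = 0) → y = 0) :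
    Sel S M' (dualCond I L) = ⊥ := by
  rw [eq_bot_iff]
  intro x hx
  have hbot : ∀ (q : Nat.Primes) (hq : q ∈ S), q ∉ S₀ → dualCond I L ⟨q, hq⟩ = ⊥ :=
    fun q hq hq₀ => dualCond_eq_bot_of_top I L ⟨q, hq⟩ (hLtop q hq hq₀) (fun y hy =>
      hnd q hq hq₀ y fun x => by rw [← hI ⟨q, hq⟩]; exact hy x)
  obtain ⟨y, hy, rfl⟩ := exists_mem_Sel_inflS1_eq M' h hM' (dualCond I₀ L₀) (dualCond I L)
    (fun q hq => by
      ext y
      rw [mem_dualCond_iff, mem_dualCond_iff, hLL₀ q hq, hI ⟨q, h hq⟩, hI₀ ⟨q, hq⟩])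
    hbot hloc x hx
  have hy0 : y = 0 := by
    refine hkill y hy fun q hq hq₀ => ?_
    rw [mem_Sel_iff] at hx
    have h1 := hx ⟨q, hq⟩
    rw [hbot q hq hq₀, Submodule.mem_bot, resq1_inflS1] at h1
    exact h1
  rw [hy0, map_zero]
  exact Submodule.zero_mem _

end Layer2

end Fermat.Agent.TW.ASM.SelmerBound8
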