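/-
Programme T (S56, Taylor–Wiles primes), chapter ASM (helper8): THE ASSEMBLY (ASM-0, layer 4a).

`exists_tw_primes_card_Sel_le`: from the hypotheses of S56 on `ρbar` (`k` a finite field,
`[Algebra (ZMod p) k]`) and
* (GLOB) a family `pairq q` of right non-degenerate local pairings and Greenberg–Wiles inputs
  `I Σ : GWInputs Σ M M'` for every `Σ ⊇ primesOf Smin` with `(I Σ).pair q = pairq q`, `#k ≤ (I Σ).r0`
  (`M = resScalars (ZMod p) (ad0Rep (rhoM ρbar))`, `M' = M.dualTwist (cycloChar p)`),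
* (LOC) local conditions `Lmin q ≤ Hq1 (ad0Rep (rhoM ρbar)) q` at the primes of `Smin`, finite, with
  `#Lmin p ≤ #k * #H⁰(ℚ_p, ad⁰)` and `#Lmin q ≤ #H⁰(ℚ_q, ad⁰)` (`q ≠ p`),
there is `r` such that for every `n` there are Taylor–Wiles primes `qv : Fin r → Nat.Primes`
(distinct, `∉ S`, `≡ 1 mod p ^ (n + 1)`, `ρ̄(Frob)` with distinct eigenvalues) with

  `#Sel (sigQ Smin qv) (ad0Rep (rhoM ρbar)) (condQ … Lmin qv) ≤ (#k) ^ r`,

where `sigQ Smin qv = primesOf Smin ∪ image qv` and `condQ` is `Lmin` on `Smin`, `⊤` at the `qv i`.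
Everything else (GRP: `Final3`, `KillDual8`; LOC: `TWLocalAd4`, `DecompSurj4`; ASM: `SelmerBound8`,
`LevelChange8`, `TraceDual8`) is wired in here.
-/
import Mathlib
import Fermat.Agent.TW.ASM.AsmLemmas8
import Fermat.Agent.TW.ASM.SelmerBound8
import Fermat.Agent.TW.ASM.KillDual8
import Fermat.Agent.TW.GRP.Final3

set_option autoImplicit false
set_option linter.unusedSectionVars false
set_option linter.style.haveILetI false

open groupCohomology Polynomial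
open Fermat.Agent.PT.PRO.LevelCoh28 Fermat.Agent.PT.PRO.LevelCohRes28
open Fermat.Agent.PT.GLUE.Objects21
open Fermat.Agent.TW.DEF.Basic1 Fermat.Agent.TW.DEF.ScalarRes8 Fermat.Agent.TW.DEF.Mu1
open Fermat.Agent.TW.GRP.AdZero3 Fermat.Agent.TW.GRP.Irred3 Fermat.Agent.TW.GRP.Bridge3
open Fermat.Agent.TW.GRP.TWHyp3 Fermat.Agent.TW.GRP.CycSub3
open Fermat.Agent.TW.GLOB.GWNumeric1
open Fermat.Agent.TW.ASM.LevelChange8 Fermat.Agent.TW.ASM.TraceDual8
open Fermat.Agent.TW.ASM.AsmLemmas8 Fermat.Agent.TW.ASM.SelmerBound8 Fermat.Agent.TW.ASM.KillDual8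
open Fermat.Agent.TW.LOC.Defs2 (Iq)
open ExtCitation

namespace Fermat.Agent.TW.ASM.Assembly8

noncomputable section

/-- The primes of a finite set of natural numbers, as a finite set of `Nat.Primes`. -/
def primesOf (T : Finset ℕ) : Finset Nat.Primes := T.subtype Nat.Prime

theorem mem_primesOf {T : Finset ℕ} {q : Nat.Primes} : q ∈ primesOf T ↔ (q : ℕ) ∈ T :=
  Finset.mem_subtype

/-- The ramification set after adding the Taylor–Wiles primes `qv i`. -/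
def sigQ (Smin : Finset ℕ) {r : ℕ} (qv : Fin r → Nat.Primes) : Finset Nat.Primes :=
  primesOf Smin ∪ Finset.univ.image qv

theorem primesOf_subset_sigQ (Smin : Finset ℕ) {r : ℕ} (qv : Fin r → Nat.Primes) :
    primesOf Smin ⊆ sigQ Smin qv := Finset.subset_union_left

theorem mem_sigQ {Smin : Finset ℕ} {r : ℕ} {qv : Fin r → Nat.Primes} {q : Nat.Primes} :
    q ∈ sigQ Smin qv ↔ (q : ℕ) ∈ Smin ∨ ∃ i, qv i = q := by
  rw [sigQ, Finset.mem_union, mem_primesOf, Finset.mem_image]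
  simp

/-- The local conditions after adding the Taylor–Wiles primes: `Lmin` on `Smin`, everything at the
new primes. -/
def condQ {k : Type} [Field k] (rbar : GQ →* M2 k) (Smin : Finset ℕ)
    (Lmin : ∀ q : Nat.Primes, Submodule k (Hq1 (ad0Rep rbar) (q : ℕ))) {r : ℕ}
    (qv : Fin r → Nat.Primes) (q : ↥(sigQ Smin qv)) :
    Submodule k (Hq1 (ad0Rep rbar) ((q : Nat.Primes) : ℕ)) :=
  if (q : Nat.Primes) ∈ primesOf Smin then Lmin q else ⊤

theorem condQ_of_mem {k : Type} [Field k] (rbar : GQ →* M2 k) (Smin : Finset ℕ)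
    (Lmin : ∀ q : Nat.Primes, Submodule k (Hq1 (ad0Rep rbar) (q : ℕ))) {r : ℕ}
    (qv : Fin r → Nat.Primes) (q : ↥(sigQ Smin qv)) (hq : (q : Nat.Primes) ∈ primesOf Smin) :
    condQ rbar Smin Lmin qv q = Lmin q := if_pos hq

theorem condQ_of_not_mem {k : Type} [Field k] (rbar : GQ →* M2 k) (Smin : Finset ℕ)
    (Lmin : ∀ q : Nat.Primes, Submodule k (Hq1 (ad0Rep rbar) (q : ℕ))) {r : ℕ}
    (qv : Fin r → Nat.Primes) (q : ↥(sigQ Smin qv)) (hq : (q : Nat.Primes) ∉ primesOf Smin) :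
    condQ rbar Smin Lmin qv q = ⊤ := if_neg hq

variable (p : ℕ) [hp : Fact p.Prime] {k : Type} [Field k] [Finite k] [Algebra (ZMod p) k]
  (ρbar : ResidualGaloisRep k)

/-- **Taylor–Wiles primes and the bound for the Selmer group.** -/
theorem exists_tw_primes_card_Sel_le (hp2 : p ≠ 2) (habs : ρbar.IsAbsolutelyIrreducible)
    (hdet : (GaloisRepAdic.ofResidualGaloisRep ρbar).DetIsCyclotomic p)
    (hsplit : ∀ σ : GQ, ∃ α β : k, LinearMap.charpoly (ρbar.ρ σ) = (X - C α) * (X - C β))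
    (hTW : ∀ (K : Type) [Field K] [Algebra k K] (G : Subgroup GQ), G.index = 2 →
      ∀ V : Submodule K (ρbar.baseChange K).V,
        (∀ σ ∈ G, ∀ x ∈ V, (ρbar.baseChange K).ρ σ x ∈ V) → V = ⊥ ∨ V = ⊤)
    (S Smin : Finset ℕ) (hpSmin : p ∈ Smin) (hSmin : Smin ⊆ S)
    (hmin : ∀ q : ℕ, q.Prime → q ≠ p → (q ∈ Smin ↔ ¬ ρbar.IsUnramifiedAt q))
    -- (GLOB)
    (pairq : ∀ q : Nat.Primes,
      Hq1 (resScalars (ZMod p) (ad0Rep (rhoM ρbar))) (q : ℕ) →ₗ[ZMod p]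
        Hq1 ((resScalars (ZMod p) (ad0Rep (rhoM ρbar))).dualTwist (cycloChar p)) (q : ℕ) →ₗ[ZMod p]
          ZMod p)
    (hnd : ∀ (q : Nat.Primes)
      (y : Hq1 ((resScalars (ZMod p) (ad0Rep (rhoM ρbar))).dualTwist (cycloChar p)) (q : ℕ)),
      (∀ x, pairq q x y = 0) → y = 0)
    (I : ∀ Sg : Finset Nat.Primes, primesOf Smin ⊆ Sg →
      GWInputs Sg (resScalars (ZMod p) (ad0Rep (rhoM ρbar)))
        ((resScalars (ZMod p) (ad0Rep (rhoM ρbar))).dualTwist (cycloChar p)))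
    (hI : ∀ (Sg : Finset Nat.Primes) (h : primesOf Smin ⊆ Sg) (q : ↥Sg),
      (I Sg h).pair q = pairq q)
    (hr0 : ∀ (Sg : Finset Nat.Primes) (h : primesOf Smin ⊆ Sg), Nat.card k ≤ (I Sg h).r0)
    -- (LOC)
    (Lmin : ∀ q : Nat.Primes, Submodule k (Hq1 (ad0Rep (rhoM ρbar)) (q : ℕ)))
    (hLfin : ∀ q : Nat.Primes, q ∈ primesOf Smin → Finite ↥(Lmin q))
    (hLcard : ∀ q : Nat.Primes, q ∈ primesOf Smin → Nat.card ↥(Lmin q) ≤
      (if q = pPrime p then Nat.card k else 1) *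
        Nat.card ↥(Mq (ad0Rep (rhoM ρbar)) (q : ℕ)).ρ.invariants) :
    ∃ r : ℕ, ∀ n : ℕ, ∃ qv : Fin r → Nat.Primes, Function.Injective qv ∧
      (∀ i, ((qv i : Nat.Primes) : ℕ) ∉ S ∧ p ^ (n + 1) ∣ ((qv i : Nat.Primes) : ℕ) - 1) ∧
      (∀ i, ∀ P : ValuationSubring (AlgebraicClosure ℚ),
        P.LiesOverPrime ((qv i : Nat.Primes) : ℕ) → ∀ φ : GQ,
        P.IsFrobeniusAt φ ((qv i : Nat.Primes) : ℕ) →
          ∃ α β : k, α ≠ β ∧ LinearMap.charpoly (ρbar.ρ φ) = (X - C α) * (X - C β)) ∧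
      Finite (HS1 (sigQ Smin qv) (ad0Rep (rhoM ρbar))) ∧
      Nat.card ↥(Sel (sigQ Smin qv) (ad0Rep (rhoM ρbar)) (condQ (rhoM ρbar) Smin Lmin qv)) ≤
        Nat.card k ^ r := by
  classical
  -- basic facts
  have h2 : (2 : k) ≠ 0 := two_ne_zero_of p ρbar hp2 hdet
  have hp0 := natCast_eq_zero p ρbar hdet
  haveI hchar : CharP k p := (CharP.charP_iff_prime_eq_zero hp.out).mpr hp0
  have hρ : TWHyp (rhoM ρbar) := twHyp ρbar habs hTW
  have hc := coe_detU_eq_algebraMap_cycloChar p ρbar hdet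
  have hvan := Fermat.Agent.TW.GRP.Final3.matrixH1Vanishing_rhoM p ρbar hp2 habs hdet hsplit hTW
  have hρS : ∀ q : ℕ, q.Prime → q ∉ S → ρbar.IsUnramifiedAt q :=
    Fermat.Agent.TW.GRP.Main3.unramified_of_hmin p ρbar hpSmin hSmin hmin
  have hρSmin : ∀ q : ℕ, q.Prime → q ∉ Smin → ρbar.IsUnramifiedAt q :=
    Fermat.Agent.TW.GRP.Main3.unramified_of_hmin p ρbar hpSmin (Finset.Subset.refl _) hmin
  have hpP : pPrime p ∈ primesOf Smin := mem_primesOf.2 hpSmin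
  haveI : Finite (ad0Rep (rhoM ρbar)).V :=
    Finite.of_injective _ (ad0Val_injective (rhoM ρbar))
  -- the dual Selmer group at level `Smin`
  haveI := (I (primesOf Smin) (Finset.Subset.refl _)).finH1'
  obtain ⟨r, hr⟩ := exists_tw_primes_kill p ρbar hp2 habs hdet hTW hvan hc S (hSmin hpSmin) hρS
    (primesOf Smin) (fun q hq => hSmin (mem_primesOf.1 hq))
    (Sel (primesOf Smin) ((resScalars (ZMod p) (ad0Rep (rhoM ρbar))).dualTwist (cycloChar p))
      (dualCond (I (primesOf Smin) (Finset.Subset.refl _))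
        (fun q => condF (ZMod p) (ad0Rep (rhoM ρbar)) ((q : Nat.Primes) : ℕ) (Lmin q))))
  refine ⟨r, fun n => ?_⟩
  obtain ⟨qv, hinj, hq, hfrob, hkill⟩ := hr n
  refine ⟨qv, hinj, hq, fun i P hP φ hφ => exists_roots_ne ρbar hsplit (hfrob i P hP φ hφ).1, ?_⟩
  have hS₀Sg : primesOf Smin ⊆ sigQ Smin qv := primesOf_subset_sigQ Smin qv
  have hqvS₀ : ∀ i, qv i ∉ primesOf Smin := fun i h => (hq i).1 (hSmin (mem_primesOf.1 h))
  have hQ : ∀ q : Nat.Primes, q ∈ sigQ Smin qv → q ∉ primesOf Smin → ∃ i, qv i = q := by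
    intro q hq1 hq2
    rcases mem_sigQ.1 hq1 with h | h
    · exact absurd (mem_primesOf.2 h) hq2
    · exact h
  -- the local facts at the new primes
  have hunr : ∀ i, ∀ P : ValuationSubring (AlgebraicClosure ℚ),
      P.LiesOverPrime ((qv i : Nat.Primes) : ℕ) → ∀ ι ∈ P.inertiaSubgroupIn ℚ,
        rhoM ρbar ι = 1 :=
    fun i P hP ι hι => rhoM_inertia ρbar (hρS _ (qv i).2 (hq i).1) P hP hι
  have hpq : ∀ i, ((qv i : Nat.Primes) : ℕ) ≠ p := fun i h => (hq i).1 (h ▸ hSmin hpSmin)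
  have hloc := fun i => Fermat.Agent.TW.LOC.TWLocalAd4.card_Hq1_ad0_le_of_global
    (q := ((qv i : Nat.Primes) : ℕ)) (rbar := rhoM ρbar) p hp2 (fun h => hpq i h.symm)
    (dvd_trans (dvd_pow_self p (Nat.succ_ne_zero n)) (hq i).2) (hunr i) (rhoM_finiteLevel ρbar)
    (fun P hP φ hφ => (hfrob i P hP φ hφ).1)
  -- `rbar` is trivial on a member of `levelS (primesOf Smin)`
  have hlev₀ : ∃ U ∈ (levelS (primesOf Smin)).sets, ∀ s ∈ U, rhoM ρbar s = 1 := by
    obtain ⟨U, hU, -, hU1⟩ := Fermat.Agent.TW.DEF.LevelKer1.exists_levelS_forall_eq_one (rhoM ρbar)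
      (primesOf Smin)
      (by
        obtain ⟨L, hL, hL1⟩ := rhoM_finiteLevel ρbar
        exact ⟨L, hL, fun s hs => hL1 s fun x hx => by
          rw [IntermediateField.mem_fixingSubgroup_iff] at hs
          exact hs x hx⟩)
      (fun q hq' P hP g hg => rhoM_inertia ρbar
        (hρSmin _ q.2 (fun h => hq' (mem_primesOf.2 h))) P hP hg)
    exact ⟨U, hU, hU1⟩
  -- layer 2: the dual Selmer group for `sigQ` vanishes
  have hdual : Sel (sigQ Smin qv)
      ((resScalars (ZMod p) (ad0Rep (rhoM ρbar))).dualTwist (cycloChar p))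
      (dualCond (I (sigQ Smin qv) hS₀Sg) (fun q => condF (ZMod p) (ad0Rep (rhoM ρbar))
        ((q : Nat.Primes) : ℕ) (condQ (rhoM ρbar) Smin Lmin qv q))) = ⊥ := by
    refine dualSel_eq_bot hS₀Sg (I (primesOf Smin) (Finset.Subset.refl _)) (I (sigQ Smin qv) hS₀Sg)
      pairq (hI _ _) (hI _ _) (fun q _ _ => hnd q)
      (fun q => condF (ZMod p) (ad0Rep (rhoM ρbar)) ((q : Nat.Primes) : ℕ) (Lmin q)) _
      (fun q hq' => ?_) (fun q hq1 hq2 => ?_)
      (exists_levelS_dualTwist_eq_one (rhoM ρbar) p hpP hlev₀) (fun q hq1 hq2 c h0 P hP ι hι => ?_)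
      (fun y hy hres => hkill y hy fun i => hres (qv i)
        (mem_sigQ.2 (Or.inr ⟨i, rfl⟩)) (hqvS₀ i))
    · show condF (ZMod p) (ad0Rep (rhoM ρbar)) (q : ℕ)
        (condQ (rhoM ρbar) Smin Lmin qv ⟨q, hS₀Sg hq'⟩) = _
      rw [condQ_of_mem (rhoM ρbar) Smin Lmin qv ⟨q, hS₀Sg hq'⟩ hq']
    · show condF (ZMod p) (ad0Rep (rhoM ρbar)) (q : ℕ)
        (condQ (rhoM ρbar) Smin Lmin qv ⟨q, hq1⟩) = _
      rw [condQ_of_not_mem (rhoM ρbar) Smin Lmin qv ⟨q, hq1⟩ hq2, condF_top]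
    · obtain ⟨i, rfl⟩ := hQ q hq1 hq2
      exact eq_zero_on_inertia_of_resq1_eq_zero _ (sigQ Smin qv) ((qv i : Nat.Primes) : ℕ)
        (dualTwist_unramAt (rhoM ρbar) p ((qv i : Nat.Primes) : ℕ) (hpq i) (hunr i)) c h0 P hP ι hι
  -- finiteness
  haveI hfinL : ∀ q : ↥(sigQ Smin qv), Finite ↥(condQ (rhoM ρbar) Smin Lmin qv q) := by
    intro q
    by_cases hq' : (q : Nat.Primes) ∈ primesOf Smin
    · rw [condQ_of_mem _ _ _ _ q hq']
      exact hLfin q hq'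
    · rw [condQ_of_not_mem _ _ _ _ q hq']
      obtain ⟨i, hi⟩ := hQ q q.2 hq'
      haveI : Finite (Hq1 (ad0Rep (rhoM ρbar)) ((q : Nat.Primes) : ℕ)) := by
        rw [← hi]
        exact (hloc i).1
      exact Finite.of_equiv _ (Submodule.topEquiv (R := k)
        (M := Hq1 (ad0Rep (rhoM ρbar)) ((q : Nat.Primes) : ℕ))).symm.toEquiv
  haveI hfinH : Finite (HS1 (sigQ Smin qv) (ad0Rep (rhoM ρbar))) := by
    haveI := (I (sigQ Smin qv) hS₀Sg).finH1
    exact Finite.of_equiv _ (hS1Equiv (ZMod p) (sigQ Smin qv) (ad0Rep (rhoM ρbar))).symm.toEquiv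
  refine ⟨hfinH, ?_⟩
  -- layer 1
  refine card_Sel_le_pow (ad0Rep (rhoM ρbar)) (I (sigQ Smin qv) hS₀Sg)
    (condQ (rhoM ρbar) Smin Lmin qv) r (hr0 _ _)
    (card_invariants_ad0Rep_eq_one (rhoM ρbar) h2 hρ) hdual ?_
  refine prod_card_le (ad0Rep (rhoM ρbar)) (condQ (rhoM ρbar) Smin Lmin qv)
    (fun q => if (q : Nat.Primes) = pPrime p then Nat.card k
      else if (q : Nat.Primes) ∈ primesOf Smin then 1 else Nat.card k) r (fun q => ?_) ?_
  · by_cases hq' : (q : Nat.Primes) ∈ primesOf Smin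
    · rw [condQ_of_mem _ _ _ _ q hq']
      refine (hLcard q hq').trans (Nat.mul_le_mul_right _ ?_)
      by_cases hqp : (q : Nat.Primes) = pPrime p
      · rw [if_pos hqp, if_pos hqp]
      · rw [if_neg hqp, if_neg hqp, if_pos hq']
    · rw [condQ_of_not_mem _ _ _ _ q hq']
      obtain ⟨i, hi⟩ := hQ q q.2 hq'
      have hqp : (q : Nat.Primes) ≠ pPrime p := fun h => hq' (h ▸ hpP)
      rw [if_neg hqp, if_neg hq']
      have h3 : Nat.card ↥(⊤ : Submodule k (Hq1 (ad0Rep (rhoM ρbar)) ((q : Nat.Primes) : ℕ))) =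
          Nat.card (Hq1 (ad0Rep (rhoM ρbar)) ((q : Nat.Primes) : ℕ)) :=
        Nat.card_congr (Submodule.topEquiv (R := k)
          (M := Hq1 (ad0Rep (rhoM ρbar)) ((q : Nat.Primes) : ℕ))).toEquiv
      rw [h3, ← hi]
      exact (hloc i).2.2.2
  · have hdisj : Disjoint (primesOf Smin) (Finset.univ.image qv) := by
      rw [Finset.disjoint_left]
      intro q hq1 hq2
      obtain ⟨i, -, rfl⟩ := Finset.mem_image.1 hq2
      exact hqvS₀ i hq1
    have hcard : (Finset.univ.image qv).card = r := by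
      rw [Finset.card_image_of_injective _ hinj, Finset.card_univ, Fintype.card_fin]
    have := prod_union_ite hdisj (pPrime p) hpP (Nat.card k)
    rw [hcard] at this
    exact le_of_eq this

end

end Fermat.Agent.TW.ASM.Assembly8
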