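/-
Programme T (S56, Taylor–Wiles primes), chapter ASM (helper8): THE ASSEMBLY (ASM-0, layer 4b).

The two halves of statement S56, from `Assembly8.exists_tw_primes_card_Sel_le` (Taylor–Wiles primes +
Selmer bound) and `DEF/TangentCardSO8` (tangent space ↪ Selmer group, power series surjection):

* `s56_strictOrdinary_of_inputs` : the first conjunct of S56, with the extra hypotheses
  (GLOB) `pairq`, `hnd`, `I`, `hI`, `hr0`  (Greenberg–Wiles inputs for all `Σ ⊇ Smin`),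
  (LOC)  `Lmin`, `hLfin`, `hLcard`, `hLlift` (local conditions at the primes of `Smin` containing the
         restrictions of the classes of all strict-ordinary lifts to `k[ε]`);
* `s56_flat_of_inputs` : the second conjunct, with the same kind of hypotheses for the flat condition
  and `hflat` (base changes of the universal deformation to `k[ε]` are flat at `p`).
-/
import Mathlib
import Fermat.Agent.TW.ASM.Assembly8
import Fermat.Agent.TW.DEF.TangentCardSO8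

set_option autoImplicit false
set_option linter.unusedSectionVars false
set_option linter.style.haveILetI false

open groupCohomology Polynomial IsLocalRing
open Fermat.Agent.PT.PRO.LevelCoh28 Fermat.Agent.PT.PRO.LevelCohRes28
open Fermat.Agent.PT.GLUE.Objects21
open Fermat.Agent.S53 (matrixOfBasisRes MatCont ofMatrix)
open Fermat.Agent.TW.DEF.Basic1 Fermat.Agent.TW.DEF.ScalarRes8 Fermat.Agent.TW.DEF.Mu1
open Fermat.Agent.TW.DEF.LiftCocycle1 Fermat.Agent.TW.DEF.DualLift8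
open Fermat.Agent.TW.DEF.DualLiftLevel8 Fermat.Agent.TW.DEF.CondStable8
open Fermat.Agent.TW.DEF.TangentCardSO8
open Fermat.Agent.TW.GRP.Bridge3
open Fermat.Agent.TW.GLOB.GWNumeric1
open Fermat.Agent.TW.ASM.Assembly8
open ExtCitation GaloisRep

namespace Fermat.Agent.TW.ASM.AssemblyDef8

section Wrap

variable {𝒪 : Type} [CommRing 𝒪] [IsDomain 𝒪] [IsDiscreteValuationRing 𝒪]
  [IsAdicComplete (maximalIdeal 𝒪) 𝒪] [Finite (ResidueField 𝒪)]
  [alg : Algebra 𝒪 (DualNumber (ResidueField 𝒪))]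
  {ρbar : ResidualGaloisRep (ResidueField 𝒪)} {p : ℕ} {Sig Smin : Finset ℕ}

/-- `TangentCardSO8.exists_mvPowerSeries_surjective_so` for a matrix form `rbar` given up to equality. -/
theorem exists_surjective_so_of_eq
    (halg : ∀ c : 𝒪, algebraMap 𝒪 (DualNumber (ResidueField 𝒪)) c =
      TrivSqZeroExt.inl (residue 𝒪 c))
    (hp : p ≠ 0)
    (DQ : DeformationRingData 𝒪 ρbar (soCond 𝒪 p Sig Smin))
    (b : Module.Basis (Fin 2) (ResidueField 𝒪) ρbar.V)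
    (rbar : GQ →* M2 (ResidueField 𝒪)) (hrbar : matrixOfBasisRes ρbar b = rbar)
    (S : Finset Nat.Primes) (hS : ∀ q : Nat.Primes, q ∉ S → (q : ℕ) ∉ Sig)
    (L : ∀ q : ↥S, Submodule (ResidueField 𝒪) (Hq1 (ad0Rep rbar) ((q : Nat.Primes) : ℕ)))
    [Finite ↥(Sel S (ad0Rep rbar) L)]
    (hL : ∀ (r : GQ →* M2 (DualNumber (ResidueField 𝒪))) (hr : MatCont r)
      (h : IsLiftOf rbar r), soCond 𝒪 p Sig Smin (ofMatrix r hr) →
        ∀ (hlev : ∃ U ∈ (levelS S).sets, ∀ s ∈ U, r s = 1)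
          (htr : ∀ σ, (liftCocycle rbar r σ).trace = 0) (q : ↥S),
          resq1 S (ad0Rep rbar) ((q : Nat.Primes) : ℕ) (liftClass S h hlev htr) ∈ L q)
    (n : ℕ)
    (hcard : Nat.card ↥(Sel S (ad0Rep rbar) L) ≤ Nat.card (ResidueField 𝒪) ^ n) :
    ∃ γ : MvPowerSeries (Fin n) 𝒪 →ₐ[𝒪] DQ.R, Function.Surjective γ := by
  subst hrbar
  exact exists_mvPowerSeries_surjective_so halg hp DQ b S hS L hL n hcard

/-- `TangentCardSO8.exists_mvPowerSeries_surjective_fl` for a matrix form `rbar` given up to equality. -/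
theorem exists_surjective_fl_of_eq
    (halg : ∀ c : 𝒪, algebraMap 𝒪 (DualNumber (ResidueField 𝒪)) c =
      TrivSqZeroExt.inl (residue 𝒪 c))
    (hp : p ≠ 0)
    (DQ : DeformationRingData 𝒪 ρbar (flCond 𝒪 p Sig Smin))
    (hflat : ∀ (φ : DQ.R →ₐ[𝒪] DualNumber (ResidueField 𝒪))
      (hφ : IsLocalHom (φ : DQ.R →+* DualNumber (ResidueField 𝒪))),
      (DQ.ρ.baseChangeAlong (φ : DQ.R →+* DualNumber (ResidueField 𝒪)) hφ).IsFlatAt p)
    (b : Module.Basis (Fin 2) (ResidueField 𝒪) ρbar.V)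
    (rbar : GQ →* M2 (ResidueField 𝒪)) (hrbar : matrixOfBasisRes ρbar b = rbar)
    (S : Finset Nat.Primes) (hS : ∀ q : Nat.Primes, q ∉ S → (q : ℕ) ∉ Sig)
    (L : ∀ q : ↥S, Submodule (ResidueField 𝒪) (Hq1 (ad0Rep rbar) ((q : Nat.Primes) : ℕ)))
    [Finite ↥(Sel S (ad0Rep rbar) L)]
    (hL : ∀ (r : GQ →* M2 (DualNumber (ResidueField 𝒪))) (hr : MatCont r)
      (h : IsLiftOf rbar r), flCond 𝒪 p Sig Smin (ofMatrix r hr) →
        ∀ (hlev : ∃ U ∈ (levelS S).sets, ∀ s ∈ U, r s = 1)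
          (htr : ∀ σ, (liftCocycle rbar r σ).trace = 0) (q : ↥S),
          resq1 S (ad0Rep rbar) ((q : Nat.Primes) : ℕ) (liftClass S h hlev htr) ∈ L q)
    (n : ℕ)
    (hcard : Nat.card ↥(Sel S (ad0Rep rbar) L) ≤ Nat.card (ResidueField 𝒪) ^ n) :
    ∃ γ : MvPowerSeries (Fin n) 𝒪 →ₐ[𝒪] DQ.R, Function.Surjective γ := by
  subst hrbar
  exact exists_mvPowerSeries_surjective_fl halg hp DQ hflat b S hS L hL n hcard

end Wrap

theorem rhoM_eq_matrixOfBasisRes {k : Type} [Field k] (ρbar : ResidualGaloisRep k) :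
    matrixOfBasisRes ρbar (basis ρbar) = rhoM ρbar :=
  MonoidHom.ext fun _ => rfl

theorem not_mem_sig_of_not_mem_sigQ {Smin : Finset ℕ} {r : ℕ} (qv : Fin r → Nat.Primes)
    (q : Nat.Primes) (hq : q ∉ sigQ Smin qv) :
    (q : ℕ) ∉ Smin ∪ Finset.univ.image (fun i => ((qv i : Nat.Primes) : ℕ)) := by
  intro h
  apply hq
  rw [mem_sigQ]
  rcases Finset.mem_union.1 h with h | h
  · exact Or.inl h
  · obtain ⟨i, -, hi⟩ := Finset.mem_image.1 h
    exact Or.inr ⟨i, Subtype.ext hi⟩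

section Main

variable {𝒪 : Type} [CommRing 𝒪] [IsDomain 𝒪] [IsDiscreteValuationRing 𝒪]
  [IsAdicComplete (maximalIdeal 𝒪) 𝒪] [Finite (ResidueField 𝒪)]
  [alg : Algebra 𝒪 (DualNumber (ResidueField 𝒪))]

/-- **The strict-ordinary half of S56**, from the Greenberg–Wiles inputs (GLOB) and the local
conditions at the primes of `Smin` (LOC). -/
theorem s56_strictOrdinary_of_inputs
    (halg : ∀ c : 𝒪, algebraMap 𝒪 (DualNumber (ResidueField 𝒪)) c =
      TrivSqZeroExt.inl (residue 𝒪 c))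
    (p : ℕ) [hp : Fact p.Prime] [Algebra (ZMod p) (ResidueField 𝒪)] (hp2 : p ≠ 2)
    (ρbar : ResidualGaloisRep (ResidueField 𝒪))
    (habs : ρbar.IsAbsolutelyIrreducible)
    (hdet : (GaloisRepAdic.ofResidualGaloisRep ρbar).DetIsCyclotomic p)
    (hsplit : ∀ σ : GQ, ∃ α β : ResidueField 𝒪,
      LinearMap.charpoly (ρbar.ρ σ) = (X - C α) * (X - C β))
    (hTW : ∀ (K : Type) [Field K] [Algebra (ResidueField 𝒪) K] (G : Subgroup GQ), G.index = 2 →
      ∀ V : Submodule K (ρbar.baseChange K).V,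
        (∀ σ ∈ G, ∀ x ∈ V, (ρbar.baseChange K).ρ σ x ∈ V) → V = ⊥ ∨ V = ⊤)
    (S Smin : Finset ℕ) (hpSmin : p ∈ Smin) (hSmin : Smin ⊆ S)
    (hmin : ∀ q : ℕ, q.Prime → q ≠ p → (q ∈ Smin ↔ ¬ ρbar.IsUnramifiedAt q))
    -- (GLOB)
    (pairq : ∀ q : Nat.Primes,
      Hq1 (resScalars (ZMod p) (ad0Rep (rhoM ρbar))) (q : ℕ) →ₗ[ZMod p]
        Hq1 ((resScalars (ZMod p) (ad0Rep (rhoM ρbar))).dualTwist (cycloChar p)) (q : ℕ) →ₗ[ZMod p]
          ZMod p)
    (hnd : ∀ (q : Nat.Primes)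
      (y : Hq1 ((resScalars (ZMod p) (ad0Rep (rhoM ρbar))).dualTwist (cycloChar p)) (q : ℕ)),
      (∀ x, pairq q x y = 0) → y = 0)
    (I : ∀ Sg : Finset Nat.Primes, primesOf Smin ⊆ Sg →
      GWInputs Sg (resScalars (ZMod p) (ad0Rep (rhoM ρbar)))
        ((resScalars (ZMod p) (ad0Rep (rhoM ρbar))).dualTwist (cycloChar p)))
    (hI : ∀ (Sg : Finset Nat.Primes) (h : primesOf Smin ⊆ Sg) (q : ↥Sg),
      (I Sg h).pair q = pairq q)
    (hr0 : ∀ (Sg : Finset Nat.Primes) (h : primesOf Smin ⊆ Sg),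
      Nat.card (ResidueField 𝒪) ≤ (I Sg h).r0)
    -- (LOC)
    (Lmin : ∀ q : Nat.Primes, Submodule (ResidueField 𝒪) (Hq1 (ad0Rep (rhoM ρbar)) (q : ℕ)))
    (hLfin : ∀ q : Nat.Primes, q ∈ primesOf Smin → Finite ↥(Lmin q))
    (hLcard : ∀ q : Nat.Primes, q ∈ primesOf Smin → Nat.card ↥(Lmin q) ≤
      (if q = pPrime p then Nat.card (ResidueField 𝒪) else 1) *
        Nat.card ↥(Mq (ad0Rep (rhoM ρbar)) (q : ℕ)).ρ.invariants)
    (hLlift : ∀ (Sig : Finset ℕ) (Sg : Finset Nat.Primes)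
      (r : GQ →* M2 (DualNumber (ResidueField 𝒪))) (hr : MatCont r)
      (h : IsLiftOf (rhoM ρbar) r), soCond 𝒪 p Sig Smin (ofMatrix r hr) →
        ∀ (hlev : ∃ U ∈ (levelS Sg).sets, ∀ s ∈ U, r s = 1)
          (htr : ∀ σ, (liftCocycle (rhoM ρbar) r σ).trace = 0) (q : Nat.Primes),
          q ∈ primesOf Smin →
          resq1 Sg (ad0Rep (rhoM ρbar)) (q : ℕ) (liftClass Sg h hlev htr) ∈ Lmin q) :
    ∃ r : ℕ, ∀ n : ℕ, ∃ qv : Fin r → ℕ, Function.Injective qv ∧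
      (∀ i, (qv i).Prime ∧ qv i ∉ S ∧ p ^ (n + 1) ∣ qv i - 1) ∧
      (∀ i, ∀ P : ValuationSubring (AlgebraicClosure ℚ), P.LiesOverPrime (qv i) →
        ∀ φ : AlgebraicClosure ℚ ≃ₐ[ℚ] AlgebraicClosure ℚ, P.IsFrobeniusAt φ (qv i) →
          ∃ α β : ResidueField 𝒪, α ≠ β ∧ LinearMap.charpoly (ρbar.ρ φ) = (X - C α) * (X - C β)) ∧
      ∀ DQ : GaloisRep.DeformationRingData 𝒪 ρbar (fun _A _ _ _ ρ =>
          GaloisRep.strictOrdinaryCondition 𝒪 p (Smin ∪ Finset.univ.image qv) ρ ∧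
            ∀ q ∈ Smin, q.Prime → q ≠ p → ρ.IsUnipotentOnInertiaAt q),
        ∃ γ : MvPowerSeries (Fin r) 𝒪 →ₐ[𝒪] DQ.R, Function.Surjective γ := by
  obtain ⟨r, hr⟩ := exists_tw_primes_card_Sel_le p ρbar hp2 habs hdet hsplit hTW S Smin hpSmin hSmin
    hmin pairq hnd I hI hr0 Lmin hLfin hLcard
  refine ⟨r, fun n => ?_⟩
  obtain ⟨qv, hinj, hq, hfrob, hfin, hcard⟩ := hr n
  refine ⟨fun i => ((qv i : Nat.Primes) : ℕ), fun i j hij => hinj (Subtype.ext hij),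
    fun i => ⟨(qv i).2, (hq i).1, (hq i).2⟩, hfrob, fun DQ => ?_⟩
  haveI := hfin
  exact exists_surjective_so_of_eq halg hp.out.ne_zero DQ (basis ρbar) (rhoM ρbar)
    (rhoM_eq_matrixOfBasisRes ρbar) (sigQ Smin qv) (not_mem_sig_of_not_mem_sigQ qv)
    (condQ (rhoM ρbar) Smin Lmin qv)
    (fun r' hr' h hso hlev htr q => by
      by_cases hq' : (q : Nat.Primes) ∈ primesOf Smin
      · rw [condQ_of_mem _ _ _ _ q hq']
        exact hLlift _ _ r' hr' h hso hlev htr q hq'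
      · rw [condQ_of_not_mem _ _ _ _ q hq']
        exact Submodule.mem_top) r hcard

/-- **The flat half of S56**, from the Greenberg–Wiles inputs (GLOB), the local conditions at the
primes of `Smin` (LOC/FLAT) and flatness of the base changes of the universal deformation. -/
theorem s56_flat_of_inputs
    (halg : ∀ c : 𝒪, algebraMap 𝒪 (DualNumber (ResidueField 𝒪)) c =
      TrivSqZeroExt.inl (residue 𝒪 c))
    (p : ℕ) [hp : Fact p.Prime] [Algebra (ZMod p) (ResidueField 𝒪)] (hp2 : p ≠ 2)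
    (ρbar : ResidualGaloisRep (ResidueField 𝒪))
    (habs : ρbar.IsAbsolutelyIrreducible)
    (hdet : (GaloisRepAdic.ofResidualGaloisRep ρbar).DetIsCyclotomic p)
    (hsplit : ∀ σ : GQ, ∃ α β : ResidueField 𝒪,
      LinearMap.charpoly (ρbar.ρ σ) = (X - C α) * (X - C β))
    (hTW : ∀ (K : Type) [Field K] [Algebra (ResidueField 𝒪) K] (G : Subgroup GQ), G.index = 2 →
      ∀ V : Submodule K (ρbar.baseChange K).V,
        (∀ σ ∈ G, ∀ x ∈ V, (ρbar.baseChange K).ρ σ x ∈ V) → V = ⊥ ∨ V = ⊤)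
    (S Smin : Finset ℕ) (hpSmin : p ∈ Smin) (hSmin : Smin ⊆ S)
    (hmin : ∀ q : ℕ, q.Prime → q ≠ p → (q ∈ Smin ↔ ¬ ρbar.IsUnramifiedAt q))
    -- (GLOB)
    (pairq : ∀ q : Nat.Primes,
      Hq1 (resScalars (ZMod p) (ad0Rep (rhoM ρbar))) (q : ℕ) →ₗ[ZMod p]
        Hq1 ((resScalars (ZMod p) (ad0Rep (rhoM ρbar))).dualTwist (cycloChar p)) (q : ℕ) →ₗ[ZMod p]
          ZMod p)
    (hnd : ∀ (q : Nat.Primes)
      (y : Hq1 ((resScalars (ZMod p) (ad0Rep (rhoM ρbar))).dualTwist (cycloChar p)) (q : ℕ)),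
      (∀ x, pairq q x y = 0) → y = 0)
    (I : ∀ Sg : Finset Nat.Primes, primesOf Smin ⊆ Sg →
      GWInputs Sg (resScalars (ZMod p) (ad0Rep (rhoM ρbar)))
        ((resScalars (ZMod p) (ad0Rep (rhoM ρbar))).dualTwist (cycloChar p)))
    (hI : ∀ (Sg : Finset Nat.Primes) (h : primesOf Smin ⊆ Sg) (q : ↥Sg),
      (I Sg h).pair q = pairq q)
    (hr0 : ∀ (Sg : Finset Nat.Primes) (h : primesOf Smin ⊆ Sg),
      Nat.card (ResidueField 𝒪) ≤ (I Sg h).r0)
    -- (LOC / FLAT)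
    (Lmin : ∀ q : Nat.Primes, Submodule (ResidueField 𝒪) (Hq1 (ad0Rep (rhoM ρbar)) (q : ℕ)))
    (hLfin : ∀ q : Nat.Primes, q ∈ primesOf Smin → Finite ↥(Lmin q))
    (hLcard : ∀ q : Nat.Primes, q ∈ primesOf Smin → Nat.card ↥(Lmin q) ≤
      (if q = pPrime p then Nat.card (ResidueField 𝒪) else 1) *
        Nat.card ↥(Mq (ad0Rep (rhoM ρbar)) (q : ℕ)).ρ.invariants)
    (hLlift : ∀ (Sig : Finset ℕ) (Sg : Finset Nat.Primes)
      (r : GQ →* M2 (DualNumber (ResidueField 𝒪))) (hr : MatCont r)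
      (h : IsLiftOf (rhoM ρbar) r), flCond 𝒪 p Sig Smin (ofMatrix r hr) →
        ∀ (hlev : ∃ U ∈ (levelS Sg).sets, ∀ s ∈ U, r s = 1)
          (htr : ∀ σ, (liftCocycle (rhoM ρbar) r σ).trace = 0) (q : Nat.Primes),
          q ∈ primesOf Smin →
          resq1 Sg (ad0Rep (rhoM ρbar)) (q : ℕ) (liftClass Sg h hlev htr) ∈ Lmin q)
    (hflat : ∀ (Sig : Finset ℕ) (DQ : DeformationRingData 𝒪 ρbar (flCond 𝒪 p Sig Smin))
      (φ : DQ.R →ₐ[𝒪] DualNumber (ResidueField 𝒪))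
      (hφ : IsLocalHom (φ : DQ.R →+* DualNumber (ResidueField 𝒪))),
      (DQ.ρ.baseChangeAlong (φ : DQ.R →+* DualNumber (ResidueField 𝒪)) hφ).IsFlatAt p) :
    ∃ r : ℕ, ∀ n : ℕ, ∃ qv : Fin r → ℕ, Function.Injective qv ∧
      (∀ i, (qv i).Prime ∧ qv i ∉ S ∧ p ^ (n + 1) ∣ qv i - 1) ∧
      (∀ i, ∀ P : ValuationSubring (AlgebraicClosure ℚ), P.LiesOverPrime (qv i) →
        ∀ φ : AlgebraicClosure ℚ ≃ₐ[ℚ] AlgebraicClosure ℚ, P.IsFrobeniusAt φ (qv i) →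
          ∃ α β : ResidueField 𝒪, α ≠ β ∧ LinearMap.charpoly (ρbar.ρ φ) = (X - C α) * (X - C β)) ∧
      ∀ DQ : GaloisRep.DeformationRingData 𝒪 ρbar (fun _A _ _ _ ρ =>
          GaloisRep.flatCondition 𝒪 p (Smin ∪ Finset.univ.image qv) ρ ∧
            ∀ q ∈ Smin, q.Prime → q ≠ p → ρ.IsUnipotentOnInertiaAt q),
        ∃ γ : MvPowerSeries (Fin r) 𝒪 →ₐ[𝒪] DQ.R, Function.Surjective γ := by
  obtain ⟨r, hr⟩ := exists_tw_primes_card_Sel_le p ρbar hp2 habs hdet hsplit hTW S Smin hpSmin hSmin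
    hmin pairq hnd I hI hr0 Lmin hLfin hLcard
  refine ⟨r, fun n => ?_⟩
  obtain ⟨qv, hinj, hq, hfrob, hfin, hcard⟩ := hr n
  refine ⟨fun i => ((qv i : Nat.Primes) : ℕ), fun i j hij => hinj (Subtype.ext hij),
    fun i => ⟨(qv i).2, (hq i).1, (hq i).2⟩, hfrob, fun DQ => ?_⟩
  haveI := hfin
  exact exists_surjective_fl_of_eq halg hp.out.ne_zero DQ (hflat _ DQ) (basis ρbar) (rhoM ρbar)
    (rhoM_eq_matrixOfBasisRes ρbar) (sigQ Smin qv) (not_mem_sig_of_not_mem_sigQ qv)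
    (condQ (rhoM ρbar) Smin Lmin qv)
    (fun r' hr' h hso hlev htr q => by
      by_cases hq' : (q : Nat.Primes) ∈ primesOf Smin
      · rw [condQ_of_mem _ _ _ _ q hq']
        exact hLlift _ _ r' hr' h hso hlev htr q hq'
      · rw [condQ_of_not_mem _ _ _ _ q hq']
        exact Submodule.mem_top) r hcard

end Main

end Fermat.Agent.TW.ASM.AssemblyDef8
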