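/-
Programme T (S56, Taylor–Wiles primes), chapter ASM (helper8): THE ASSEMBLY (ASM-0, layer 5a).

`s56_strictOrdinary_of_glob_so` : the strict-ordinary half of S56 from
  (GLOB)   the Greenberg–Wiles inputs `pairq`, `hnd`, `I`, `hI`, `hr0` (as in `AssemblyDef8`),
  (LOC-SO) a local condition `Lp ≤ Hq1 (ad0Rep (rhoM ρbar)) p` at `p`, finite, with
           `#Lp ≤ #k * #H⁰(ℚ_p, ad⁰ρ̄)`, containing the restrictions to `ℚ_p` of the classes of all
           strict-ordinary lifts to `k[ε]`.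
The local conditions at the primes `q ≠ p` of `Smin` are discharged here: `Lmin q = H¹_ur`
(`LOC/UnipLocal4` + `LOC/DecompSurj4` + `LOC/FiniteH1q4`); the `𝒪`-algebra structure of `k[ε]` is the
canonical one (`halg` by `rfl`).

`minCond p Lp` is the family `Lp` at `p`, `H¹_ur` elsewhere.
-/
import Mathlib
import Fermat.Agent.TW.ASM.AssemblyDef8
import Fermat.Agent.TW.LOC.UnipLocal4
import Fermat.Agent.TW.LOC.FiniteH1q4

set_option autoImplicit false
set_option linter.unusedSectionVars false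
set_option linter.style.haveILetI false

open groupCohomology Polynomial IsLocalRing
open Fermat.Agent.PT.PRO.LevelCoh28 Fermat.Agent.PT.PRO.LevelCohRes28
open Fermat.Agent.PT.GLUE.Objects21
open Fermat.Agent.S53 (matrixOfBasisRes MatCont ofMatrix)
open Fermat.Agent.TW.DEF.Basic1 Fermat.Agent.TW.DEF.ScalarRes8 Fermat.Agent.TW.DEF.Mu1
open Fermat.Agent.TW.DEF.LiftCocycle1 Fermat.Agent.TW.DEF.CondStable8
open Fermat.Agent.TW.GRP.Bridge3 Fermat.Agent.TW.GRP.CycSub3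
open Fermat.Agent.TW.GLOB.GWNumeric1
open Fermat.Agent.TW.ASM.Assembly8 Fermat.Agent.TW.ASM.AssemblyDef8
open Fermat.Agent.TW.LOC.Defs2 (Iq H1ur)
open ExtCitation GaloisRep

namespace Fermat.Agent.TW.ASM.AssemblySO8

noncomputable section

section MinCond

variable (p : ℕ) [Fact p.Prime] {k : Type} [Field k] {rbar : GQ →* M2 k}

/-- The local conditions at the primes of `Smin`: `Lp` at `p`, unramified classes elsewhere. -/
def minCond (Lp : Submodule k (Hq1 (ad0Rep rbar) ((pPrime p : Nat.Primes) : ℕ))) (q : Nat.Primes) :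
    Submodule k (Hq1 (ad0Rep rbar) (q : ℕ)) :=
  if h : q = pPrime p then h ▸ Lp else H1ur (q : ℕ) (Mq (ad0Rep rbar) (q : ℕ))

theorem minCond_p (Lp : Submodule k (Hq1 (ad0Rep rbar) ((pPrime p : Nat.Primes) : ℕ))) :
    minCond p Lp (pPrime p) = Lp := by
  rw [minCond, dif_pos rfl]

theorem minCond_of_ne (Lp : Submodule k (Hq1 (ad0Rep rbar) ((pPrime p : Nat.Primes) : ℕ)))
    {q : Nat.Primes} (h : q ≠ pPrime p) :
    minCond p Lp q = H1ur (q : ℕ) (Mq (ad0Rep rbar) (q : ℕ)) := by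
  rw [minCond, dif_neg h]

end MinCond

section Main

variable {𝒪 : Type} [CommRing 𝒪] [IsDomain 𝒪] [IsDiscreteValuationRing 𝒪]
  [IsAdicComplete (maximalIdeal 𝒪) 𝒪] [Finite (ResidueField 𝒪)]

/-- **The strict-ordinary half of S56** from (GLOB) and (LOC-SO). -/
theorem s56_strictOrdinary_of_glob_so
    (p : ℕ) [hp : Fact p.Prime] [Algebra (ZMod p) (ResidueField 𝒪)] (hp2 : p ≠ 2)
    (ρbar : ResidualGaloisRep (ResidueField 𝒪))
    (habs : ρbar.IsAbsolutelyIrreducible)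
    (hdet : (GaloisRepAdic.ofResidualGaloisRep ρbar).DetIsCyclotomic p)
    (hsplit : ∀ σ : GQ, ∃ α β : ResidueField 𝒪,
      LinearMap.charpoly (ρbar.ρ σ) = (X - C α) * (X - C β))
    (hTW : ∀ (K : Type) [Field K] [Algebra (ResidueField 𝒪) K] (G : Subgroup GQ), G.index = 2 →
      ∀ V : Submodule K (ρbar.baseChange K).V,
        (∀ σ ∈ G, ∀ x ∈ V, (ρbar.baseChange K).ρ σ x ∈ V) → V = ⊥ ∨ V = ⊤)
    (S Smin : Finset ℕ) (hpSmin : p ∈ Smin) (hSmin : Smin ⊆ S)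
    (hmin : ∀ q : ℕ, q.Prime → q ≠ p → (q ∈ Smin ↔ ¬ ρbar.IsUnramifiedAt q))
    -- (GLOB)
    (pairq : ∀ q : Nat.Primes,
      Hq1 (resScalars (ZMod p) (ad0Rep (rhoM ρbar))) (q : ℕ) →ₗ[ZMod p]
        Hq1 ((resScalars (ZMod p) (ad0Rep (rhoM ρbar))).dualTwist (cycloChar p)) (q : ℕ) →ₗ[ZMod p]
          ZMod p)
    (hnd : ∀ (q : Nat.Primes)
      (y : Hq1 ((resScalars (ZMod p) (ad0Rep (rhoM ρbar))).dualTwist (cycloChar p)) (q : ℕ)),
      (∀ x, pairq q x y = 0) → y = 0)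
    (I : ∀ Sg : Finset Nat.Primes, primesOf Smin ⊆ Sg →
      GWInputs Sg (resScalars (ZMod p) (ad0Rep (rhoM ρbar)))
        ((resScalars (ZMod p) (ad0Rep (rhoM ρbar))).dualTwist (cycloChar p)))
    (hI : ∀ (Sg : Finset Nat.Primes) (h : primesOf Smin ⊆ Sg) (q : ↥Sg),
      (I Sg h).pair q = pairq q)
    (hr0 : ∀ (Sg : Finset Nat.Primes) (h : primesOf Smin ⊆ Sg),
      Nat.card (ResidueField 𝒪) ≤ (I Sg h).r0)
    -- (LOC-SO)
    (Lp : Submodule (ResidueField 𝒪) (Hq1 (ad0Rep (rhoM ρbar)) ((pPrime p : Nat.Primes) : ℕ)))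
    (hLpfin : Finite ↥Lp)
    (hLpcard : Nat.card ↥Lp ≤ Nat.card (ResidueField 𝒪) *
      Nat.card ↥(Mq (ad0Rep (rhoM ρbar)) ((pPrime p : Nat.Primes) : ℕ)).ρ.invariants)
    (hLplift : ∀ (Sig : Finset ℕ) (Sg : Finset Nat.Primes)
      (r : GQ →* M2 (DualNumber (ResidueField 𝒪))) (hr : MatCont r)
      (h : IsLiftOf (rhoM ρbar) r), soCond 𝒪 p Sig Smin (ofMatrix r hr) →
        ∀ (hlev : ∃ U ∈ (levelS Sg).sets, ∀ s ∈ U, r s = 1)
          (htr : ∀ σ, (liftCocycle (rhoM ρbar) r σ).trace = 0),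
          resq1 Sg (ad0Rep (rhoM ρbar)) ((pPrime p : Nat.Primes) : ℕ)
            (liftClass Sg h hlev htr) ∈ Lp) :
    ∃ r : ℕ, ∀ n : ℕ, ∃ qv : Fin r → ℕ, Function.Injective qv ∧
      (∀ i, (qv i).Prime ∧ qv i ∉ S ∧ p ^ (n + 1) ∣ qv i - 1) ∧
      (∀ i, ∀ P : ValuationSubring (AlgebraicClosure ℚ), P.LiesOverPrime (qv i) →
        ∀ φ : AlgebraicClosure ℚ ≃ₐ[ℚ] AlgebraicClosure ℚ, P.IsFrobeniusAt φ (qv i) →
          ∃ α β : ResidueField 𝒪, α ≠ β ∧ LinearMap.charpoly (ρbar.ρ φ) = (X - C α) * (X - C β)) ∧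
      ∀ DQ : GaloisRep.DeformationRingData 𝒪 ρbar (fun _A _ _ _ ρ =>
          GaloisRep.strictOrdinaryCondition 𝒪 p (Smin ∪ Finset.univ.image qv) ρ ∧
            ∀ q ∈ Smin, q.Prime → q ≠ p → ρ.IsUnipotentOnInertiaAt q),
        ∃ γ : MvPowerSeries (Fin r) 𝒪 →ₐ[𝒪] DQ.R, Function.Surjective γ := by
  have hp0 := natCast_eq_zero p ρbar hdet
  haveI hchar : CharP (ResidueField 𝒪) p := (CharP.charP_iff_prime_eq_zero hp.out).mpr hp0
  -- local facts at the primes `q ≠ p` of `Smin`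
  have hlevq : ∀ q : Nat.Primes, Fermat.Agent.TW.LOC.TWLocalAd4.IsLevelAt (q : ℕ) (rhoM ρbar) :=
    fun q => Fermat.Agent.TW.LOC.TWLocalAd4.isLevelAt_of_global (rhoM_finiteLevel ρbar)
  have hneq : ∀ q : Nat.Primes, q ≠ pPrime p → p ≠ (q : ℕ) := fun q h h' => h (Subtype.ext h'.symm)
  have hfinq : ∀ q : Nat.Primes, q ≠ pPrime p →
      Finite (Hq1 (ad0Rep (rhoM ρbar)) (q : ℕ)) := by
    intro q hq
    haveI : Finite (Mq (ad0Rep (rhoM ρbar)) (q : ℕ)) :=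
      Finite.of_injective _ (ad0Val_injective (rhoM ρbar))
    exact (Fermat.Agent.TW.LOC.FiniteH1q4.card_H1_le_sq (q : ℕ) p
      (Fermat.Agent.TW.LOC.TWLocalAd4.isDiscrete_Mq_ad0 (hlevq q)) (hneq q hq) (fun n => by
        rw [← Nat.cast_smul_eq_nsmul (ResidueField 𝒪), CharP.cast_eq_zero, zero_smul])).1
  refine s56_strictOrdinary_of_inputs (fun _ => rfl) p hp2 ρbar habs hdet hsplit hTW S Smin hpSmin
    hSmin hmin pairq hnd I hI hr0 (minCond p Lp) (fun q hq => ?_) (fun q hq => ?_)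
    (fun Sig Sg r hr h hso hlev htr q hq => ?_)
  · by_cases hqp : q = pPrime p
    · subst hqp
      rw [minCond_p]
      exact hLpfin
    · rw [minCond_of_ne p Lp hqp]
      haveI := hfinq q hqp
      infer_instance
  · by_cases hqp : q = pPrime p
    · subst hqp
      rw [minCond_p, if_pos rfl]
      exact hLpcard
    · rw [minCond_of_ne p Lp hqp, if_neg hqp, one_mul]
      exact le_of_eq (Fermat.Agent.TW.LOC.UnipLocal4.card_H1ur_ad0 (q : ℕ) (hlevq q))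
  · by_cases hqp : q = pPrime p
    · subst hqp
      rw [minCond_p]
      exact hLplift Sig Sg r hr h hso hlev htr
    · rw [minCond_of_ne p Lp hqp]
      have hqSmin : (q : ℕ) ∈ Smin := mem_primesOf.1 hq
      have hqp' : (q : ℕ) ≠ p := fun h' => hqp (Subtype.ext h')
      have hram : ¬ ρbar.IsUnramifiedAt (q : ℕ) := (hmin (q : ℕ) q.2 hqp').1 hqSmin
      obtain ⟨τ, hτ, hτ1⟩ :=
        Fermat.Agent.TW.LOC.DecompSurj4.exists_mem_Iq_ne_one_of_not_isUnramifiedAt ρbar hram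
      exact Fermat.Agent.TW.LOC.UnipLocal4.resq1_liftClass_mem_H1ur_of_isUnipotent (q : ℕ) p Sg
        (hneq q hqp) hp2 hr h hlev htr (hso.2 (q : ℕ) hqSmin q.2 hqp')
        ⟨τ, hτ, fun h1 => hτ1 ((rhoM_eq_one_iff ρbar _).1 h1)⟩

end Main

end

end Fermat.Agent.TW.ASM.AssemblySO8
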