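/-
Programme T (S56, Taylor–Wiles primes), chapter ASM (helper8): THE ASSEMBLY, RELATIONAL FORM.

Same theorems as `SelmerBound8.dualSel_eq_bot`, `Assembly8.exists_tw_primes_card_Sel_le`,
`AssemblyDef8.s56_strictOrdinary_of_inputs / s56_flat_of_inputs`,
`AssemblySO8.s56_strictOrdinary_of_glob_so`, but the (GLOB) hypothesis package no longer asks the local
pairings `(I Σ).pair q` of the Greenberg–Wiles inputs to be EQUAL to one fixed family `pairq q`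
(impossible to supply: `GLOB/InvRecip1.InvData p Σ` depends on `Σ`, and its invariant maps are only
known to be injective).  Only the ORTHOGONALITY RELATION has to be independent of `Σ`:

  (GLOB') `Z q : Hq1 M q → Hq1 M' q → Prop`,
          `hnd : (∀ x, Z q x y) → y = 0`                              (right non-degeneracy),
          `I Σ h : GWInputs Σ M M'` for all `Σ ⊇ primesOf Smin`,
          `hI : (I Σ h).pair q x y = 0 ↔ Z q x y`,
          `hr0 : #k ≤ (I Σ h).r0`.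

With `GLOB/InvRecip1`: `Z q x y := cupqB b hb q hMq' x y = 0` and `hI = InvData.pair_eq_zero_iff`;
`hnd` is `LOC/CupDualityMu2.cupq_right_nondegenerate`; `hr0`/`arch` are `ASM/ArchCount8`.

* `dualSel_eq_bot_rel`, `exists_tw_primes_card_Sel_le_rel`,
* `s56_strictOrdinary_of_inputs_rel`, `s56_flat_of_inputs_rel`,
* `s56_strictOrdinary_of_glob_so_rel` : first conjunct of S56 from (GLOB') + (LOC-SO),
* `s56_flat_of_glob_fl_rel` : second conjunct of S56 from (GLOB') + (LOC-FL) + `hflat`.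
-/
import Mathlib
import Fermat.Agent.TW.ASM.AssemblySO8

set_option autoImplicit false
set_option linter.unusedSectionVars false
set_option linter.style.haveILetI false

open groupCohomology Polynomial IsLocalRing
open Fermat.Agent.PT.PRO.LevelCoh28 Fermat.Agent.PT.PRO.LevelCohRes28
open Fermat.Agent.PT.GLUE.Objects21
open Fermat.Agent.S53 (matrixOfBasisRes MatCont ofMatrix)
open Fermat.Agent.TW.DEF.Basic1 Fermat.Agent.TW.DEF.ScalarRes8 Fermat.Agent.TW.DEF.Mu1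
open Fermat.Agent.TW.DEF.LiftCocycle1 Fermat.Agent.TW.DEF.DualLift8
open Fermat.Agent.TW.DEF.DualLiftLevel8 Fermat.Agent.TW.DEF.CondStable8
open Fermat.Agent.TW.DEF.TangentCardSO8
open Fermat.Agent.TW.GRP.AdZero3 Fermat.Agent.TW.GRP.Irred3 Fermat.Agent.TW.GRP.Bridge3
open Fermat.Agent.TW.GRP.TWHyp3 Fermat.Agent.TW.GRP.CycSub3
open Fermat.Agent.TW.GLOB.GWNumeric1
open Fermat.Agent.TW.ASM.LevelChange8 Fermat.Agent.TW.ASM.TraceDual8
open Fermat.Agent.TW.ASM.AsmLemmas8 Fermat.Agent.TW.ASM.SelmerBound8 Fermat.Agent.TW.ASM.KillDual8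
open Fermat.Agent.TW.ASM.Assembly8 Fermat.Agent.TW.ASM.AssemblyDef8 Fermat.Agent.TW.ASM.AssemblySO8
open Fermat.Agent.TW.LOC.Defs2 (Iq H1ur)
open ExtCitation GaloisRep

namespace Fermat.Agent.TW.ASM.AssemblyRel8

noncomputable section

/-! ### Layer 2 -/

section Layer2

variable {p : ℕ} [Fact p.Prime] {S₀ S : Finset Nat.Primes} {M M' : Rep.{0} (ZMod p) GQ}

/-- **Layer 2: vanishing of the dual Selmer group after adding primes.** -/
theorem dualSel_eq_bot_rel (h : S₀ ⊆ S) (I₀ : GWInputs S₀ M M') (I : GWInputs S M M')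
    (Z : ∀ q : Nat.Primes, Hq1 M (q : ℕ) → Hq1 M' (q : ℕ) → Prop)
    (hI₀ : ∀ (q : ↥S₀) x y, I₀.pair q x y = 0 ↔ Z q x y)
    (hI : ∀ (q : ↥S) x y, I.pair q x y = 0 ↔ Z q x y)
    (hnd : ∀ q : Nat.Primes, q ∈ S → q ∉ S₀ →
      ∀ y : Hq1 M' (q : ℕ), (∀ x, Z q x y) → y = 0)
    (L₀ : ∀ q : ↥S₀, Submodule (ZMod p) (Hq1 M ((q : Nat.Primes) : ℕ)))
    (L : ∀ q : ↥S, Submodule (ZMod p) (Hq1 M ((q : Nat.Primes) : ℕ)))
    (hLL₀ : ∀ (q : Nat.Primes) (hq : q ∈ S₀), L ⟨q, h hq⟩ = L₀ ⟨q, hq⟩)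
    (hLtop : ∀ (q : Nat.Primes) (hq : q ∈ S), q ∉ S₀ → L ⟨q, hq⟩ = ⊤)
    (hM' : ∃ U ∈ (levelS S₀).sets, ∀ s ∈ U, M'.ρ s = 1)
    (hloc : ∀ (q : Nat.Primes), q ∈ S → q ∉ S₀ → ∀ c : ↥(Z1 (levelS S) M'),
      resq1 S M' (q : ℕ) (H1mk (levelS S) M' c) = 0 →
        ∀ P : ValuationSubring (AlgebraicClosure ℚ), P.LiesOverPrime (q : ℕ) →
          ∀ ι ∈ P.inertiaSubgroupIn ℚ, c.1 ι = 0)
    (hkill : ∀ y ∈ Sel S₀ M' (dualCond I₀ L₀),
      (∀ q : Nat.Primes, q ∈ S → q ∉ S₀ → resq1 S₀ M' (q : ℕ) y = 0) → y = 0) :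
    Sel S M' (dualCond I L) = ⊥ := by
  rw [eq_bot_iff]
  intro x hx
  have hbot : ∀ (q : Nat.Primes) (hq : q ∈ S), q ∉ S₀ → dualCond I L ⟨q, hq⟩ = ⊥ :=
    fun q hq hq₀ => dualCond_eq_bot_of_top I L ⟨q, hq⟩ (hLtop q hq hq₀) (fun y hy =>
      hnd q hq hq₀ y fun x => (hI ⟨q, hq⟩ x y).1 (hy x))
  obtain ⟨y, hy, rfl⟩ := exists_mem_Sel_inflS1_eq M' h hM' (dualCond I₀ L₀) (dualCond I L)
    (fun q hq => by
      ext y
      rw [mem_dualCond_iff, mem_dualCond_iff, hLL₀ q hq]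
      exact forall_congr' fun x => forall_congr' fun _ =>
        (hI ⟨q, h hq⟩ x y).trans (hI₀ ⟨q, hq⟩ x y).symm)
    hbot hloc x hx
  have hy0 : y = 0 := by
    refine hkill y hy fun q hq hq₀ => ?_
    rw [mem_Sel_iff] at hx
    have h1 := hx ⟨q, hq⟩
    rw [hbot q hq hq₀, Submodule.mem_bot, resq1_inflS1] at h1
    exact h1
  rw [hy0, map_zero]
  exact Submodule.zero_mem _

end Layer2

/-! ### Layer 4a -/

section Layer4a

variable (p : ℕ) [hp : Fact p.Prime] {k : Type} [Field k] [Finite k] [Algebra (ZMod p) k]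
  (ρbar : ResidualGaloisRep k)

/-- **Taylor–Wiles primes and the bound for the Selmer group.** -/
theorem exists_tw_primes_card_Sel_le_rel (hp2 : p ≠ 2) (habs : ρbar.IsAbsolutelyIrreducible)
    (hdet : (GaloisRepAdic.ofResidualGaloisRep ρbar).DetIsCyclotomic p)
    (hsplit : ∀ σ : GQ, ∃ α β : k, LinearMap.charpoly (ρbar.ρ σ) = (X - C α) * (X - C β))
    (hTW : ∀ (K : Type) [Field K] [Algebra k K] (G : Subgroup GQ), G.index = 2 →
      ∀ V : Submodule K (ρbar.baseChange K).V,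
        (∀ σ ∈ G, ∀ x ∈ V, (ρbar.baseChange K).ρ σ x ∈ V) → V = ⊥ ∨ V = ⊤)
    (S Smin : Finset ℕ) (hpSmin : p ∈ Smin) (hSmin : Smin ⊆ S)
    (hmin : ∀ q : ℕ, q.Prime → q ≠ p → (q ∈ Smin ↔ ¬ ρbar.IsUnramifiedAt q))
    -- (GLOB)
    (Z : ∀ q : Nat.Primes,
      Hq1 (resScalars (ZMod p) (ad0Rep (rhoM ρbar))) (q : ℕ) →
        Hq1 ((resScalars (ZMod p) (ad0Rep (rhoM ρbar))).dualTwist (cycloChar p)) (q : ℕ) → Prop)
    (hnd : ∀ (q : Nat.Primes)
      (y : Hq1 ((resScalars (ZMod p) (ad0Rep (rhoM ρbar))).dualTwist (cycloChar p)) (q : ℕ)),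
      (∀ x, Z q x y) → y = 0)
    (I : ∀ Sg : Finset Nat.Primes, primesOf Smin ⊆ Sg →
      GWInputs Sg (resScalars (ZMod p) (ad0Rep (rhoM ρbar)))
        ((resScalars (ZMod p) (ad0Rep (rhoM ρbar))).dualTwist (cycloChar p)))
    (hI : ∀ (Sg : Finset Nat.Primes) (h : primesOf Smin ⊆ Sg) (q : ↥Sg) x y,
      (I Sg h).pair q x y = 0 ↔ Z q x y)
    (hr0 : ∀ (Sg : Finset Nat.Primes) (h : primesOf Smin ⊆ Sg), Nat.card k ≤ (I Sg h).r0)
    -- (LOC)
    (Lmin : ∀ q : Nat.Primes, Submodule k (Hq1 (ad0Rep (rhoM ρbar)) (q : ℕ)))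
    (hLfin : ∀ q : Nat.Primes, q ∈ primesOf Smin → Finite ↥(Lmin q))
    (hLcard : ∀ q : Nat.Primes, q ∈ primesOf Smin → Nat.card ↥(Lmin q) ≤
      (if q = pPrime p then Nat.card k else 1) *
        Nat.card ↥(Mq (ad0Rep (rhoM ρbar)) (q : ℕ)).ρ.invariants) :
    ∃ r : ℕ, ∀ n : ℕ, ∃ qv : Fin r → Nat.Primes, Function.Injective qv ∧
      (∀ i, ((qv i : Nat.Primes) : ℕ) ∉ S ∧ p ^ (n + 1) ∣ ((qv i : Nat.Primes) : ℕ) - 1) ∧
      (∀ i, ∀ P : ValuationSubring (AlgebraicClosure ℚ),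
        P.LiesOverPrime ((qv i : Nat.Primes) : ℕ) → ∀ φ : GQ,
        P.IsFrobeniusAt φ ((qv i : Nat.Primes) : ℕ) →
          ∃ α β : k, α ≠ β ∧ LinearMap.charpoly (ρbar.ρ φ) = (X - C α) * (X - C β)) ∧
      Finite (HS1 (sigQ Smin qv) (ad0Rep (rhoM ρbar))) ∧
      Nat.card ↥(Sel (sigQ Smin qv) (ad0Rep (rhoM ρbar)) (condQ (rhoM ρbar) Smin Lmin qv)) ≤
        Nat.card k ^ r := by
  classical
  -- basic facts
  have h2 : (2 : k) ≠ 0 := two_ne_zero_of p ρbar hp2 hdet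
  have hp0 := natCast_eq_zero p ρbar hdet
  haveI hchar : CharP k p := (CharP.charP_iff_prime_eq_zero hp.out).mpr hp0
  have hρ : TWHyp (rhoM ρbar) := twHyp ρbar habs hTW
  have hc := coe_detU_eq_algebraMap_cycloChar p ρbar hdet
  have hvan := Fermat.Agent.TW.GRP.Final3.matrixH1Vanishing_rhoM p ρbar hp2 habs hdet hsplit hTW
  have hρS : ∀ q : ℕ, q.Prime → q ∉ S → ρbar.IsUnramifiedAt q :=
    Fermat.Agent.TW.GRP.Main3.unramified_of_hmin p ρbar hpSmin hSmin hmin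
  have hρSmin : ∀ q : ℕ, q.Prime → q ∉ Smin → ρbar.IsUnramifiedAt q :=
    Fermat.Agent.TW.GRP.Main3.unramified_of_hmin p ρbar hpSmin (Finset.Subset.refl _) hmin
  have hpP : pPrime p ∈ primesOf Smin := mem_primesOf.2 hpSmin
  haveI : Finite (ad0Rep (rhoM ρbar)).V :=
    Finite.of_injective _ (ad0Val_injective (rhoM ρbar))
  -- the dual Selmer group at level `Smin`
  haveI := (I (primesOf Smin) (Finset.Subset.refl _)).finH1'
  obtain ⟨r, hr⟩ := exists_tw_primes_kill p ρbar hp2 habs hdet hTW hvan hc S (hSmin hpSmin) hρS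
    (primesOf Smin) (fun q hq => hSmin (mem_primesOf.1 hq))
    (Sel (primesOf Smin) ((resScalars (ZMod p) (ad0Rep (rhoM ρbar))).dualTwist (cycloChar p))
      (dualCond (I (primesOf Smin) (Finset.Subset.refl _))
        (fun q => condF (ZMod p) (ad0Rep (rhoM ρbar)) ((q : Nat.Primes) : ℕ) (Lmin q))))
  refine ⟨r, fun n => ?_⟩
  obtain ⟨qv, hinj, hq, hfrob, hkill⟩ := hr n
  refine ⟨qv, hinj, hq, fun i P hP φ hφ => exists_roots_ne ρbar hsplit (hfrob i P hP φ hφ).1, ?_⟩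
  have hS₀Sg : primesOf Smin ⊆ sigQ Smin qv := primesOf_subset_sigQ Smin qv
  have hqvS₀ : ∀ i, qv i ∉ primesOf Smin := fun i h => (hq i).1 (hSmin (mem_primesOf.1 h))
  have hQ : ∀ q : Nat.Primes, q ∈ sigQ Smin qv → q ∉ primesOf Smin → ∃ i, qv i = q := by
    intro q hq1 hq2
    rcases mem_sigQ.1 hq1 with h | h
    · exact absurd (mem_primesOf.2 h) hq2
    · exact h
  -- the local facts at the new primes
  have hunr : ∀ i, ∀ P : ValuationSubring (AlgebraicClosure ℚ),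
      P.LiesOverPrime ((qv i : Nat.Primes) : ℕ) → ∀ ι ∈ P.inertiaSubgroupIn ℚ,
        rhoM ρbar ι = 1 :=
    fun i P hP ι hι => rhoM_inertia ρbar (hρS _ (qv i).2 (hq i).1) P hP hι
  have hpq : ∀ i, ((qv i : Nat.Primes) : ℕ) ≠ p := fun i h => (hq i).1 (h ▸ hSmin hpSmin)
  have hloc := fun i => Fermat.Agent.TW.LOC.TWLocalAd4.card_Hq1_ad0_le_of_global
    (q := ((qv i : Nat.Primes) : ℕ)) (rbar := rhoM ρbar) p hp2 (fun h => hpq i h.symm)
    (dvd_trans (dvd_pow_self p (Nat.succ_ne_zero n)) (hq i).2) (hunr i) (rhoM_finiteLevel ρbar)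
    (fun P hP φ hφ => (hfrob i P hP φ hφ).1)
  -- `rbar` is trivial on a member of `levelS (primesOf Smin)`
  have hlev₀ : ∃ U ∈ (levelS (primesOf Smin)).sets, ∀ s ∈ U, rhoM ρbar s = 1 := by
    obtain ⟨U, hU, -, hU1⟩ := Fermat.Agent.TW.DEF.LevelKer1.exists_levelS_forall_eq_one (rhoM ρbar)
      (primesOf Smin)
      (by
        obtain ⟨L, hL, hL1⟩ := rhoM_finiteLevel ρbar
        exact ⟨L, hL, fun s hs => hL1 s fun x hx => by
          rw [IntermediateField.mem_fixingSubgroup_iff] at hs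
          exact hs x hx⟩)
      (fun q hq' P hP g hg => rhoM_inertia ρbar
        (hρSmin _ q.2 (fun h => hq' (mem_primesOf.2 h))) P hP hg)
    exact ⟨U, hU, hU1⟩
  -- layer 2: the dual Selmer group for `sigQ` vanishes
  have hdual : Sel (sigQ Smin qv)
      ((resScalars (ZMod p) (ad0Rep (rhoM ρbar))).dualTwist (cycloChar p))
      (dualCond (I (sigQ Smin qv) hS₀Sg) (fun q => condF (ZMod p) (ad0Rep (rhoM ρbar))
        ((q : Nat.Primes) : ℕ) (condQ (rhoM ρbar) Smin Lmin qv q))) = ⊥ := by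
    refine dualSel_eq_bot_rel hS₀Sg (I (primesOf Smin) (Finset.Subset.refl _))
      (I (sigQ Smin qv) hS₀Sg) Z (hI _ _) (hI _ _) (fun q _ _ => hnd q)
      (fun q => condF (ZMod p) (ad0Rep (rhoM ρbar)) ((q : Nat.Primes) : ℕ) (Lmin q)) _
      (fun q hq' => ?_) (fun q hq1 hq2 => ?_)
      (exists_levelS_dualTwist_eq_one (rhoM ρbar) p hpP hlev₀) (fun q hq1 hq2 c h0 P hP ι hι => ?_)
      (fun y hy hres => hkill y hy fun i => hres (qv i)
        (mem_sigQ.2 (Or.inr ⟨i, rfl⟩)) (hqvS₀ i))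
    · show condF (ZMod p) (ad0Rep (rhoM ρbar)) (q : ℕ)
        (condQ (rhoM ρbar) Smin Lmin qv ⟨q, hS₀Sg hq'⟩) = _
      rw [condQ_of_mem (rhoM ρbar) Smin Lmin qv ⟨q, hS₀Sg hq'⟩ hq']
    · show condF (ZMod p) (ad0Rep (rhoM ρbar)) (q : ℕ)
        (condQ (rhoM ρbar) Smin Lmin qv ⟨q, hq1⟩) = _
      rw [condQ_of_not_mem (rhoM ρbar) Smin Lmin qv ⟨q, hq1⟩ hq2, condF_top]
    · obtain ⟨i, rfl⟩ := hQ q hq1 hq2
      exact eq_zero_on_inertia_of_resq1_eq_zero _ (sigQ Smin qv) ((qv i : Nat.Primes) : ℕ)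
        (dualTwist_unramAt (rhoM ρbar) p ((qv i : Nat.Primes) : ℕ) (hpq i) (hunr i)) c h0 P hP ι hι
  -- finiteness
  haveI hfinL : ∀ q : ↥(sigQ Smin qv), Finite ↥(condQ (rhoM ρbar) Smin Lmin qv q) := by
    intro q
    by_cases hq' : (q : Nat.Primes) ∈ primesOf Smin
    · rw [condQ_of_mem _ _ _ _ q hq']
      exact hLfin q hq'
    · rw [condQ_of_not_mem _ _ _ _ q hq']
      obtain ⟨i, hi⟩ := hQ q q.2 hq'
      haveI : Finite (Hq1 (ad0Rep (rhoM ρbar)) ((q : Nat.Primes) : ℕ)) := by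
        rw [← hi]
        exact (hloc i).1
      exact Finite.of_equiv _ (Submodule.topEquiv (R := k)
        (M := Hq1 (ad0Rep (rhoM ρbar)) ((q : Nat.Primes) : ℕ))).symm.toEquiv
  haveI hfinH : Finite (HS1 (sigQ Smin qv) (ad0Rep (rhoM ρbar))) := by
    haveI := (I (sigQ Smin qv) hS₀Sg).finH1
    exact Finite.of_equiv _ (hS1Equiv (ZMod p) (sigQ Smin qv) (ad0Rep (rhoM ρbar))).symm.toEquiv
  refine ⟨hfinH, ?_⟩
  -- layer 1
  refine card_Sel_le_pow (ad0Rep (rhoM ρbar)) (I (sigQ Smin qv) hS₀Sg)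
    (condQ (rhoM ρbar) Smin Lmin qv) r (hr0 _ _)
    (card_invariants_ad0Rep_eq_one (rhoM ρbar) h2 hρ) hdual ?_
  refine prod_card_le (ad0Rep (rhoM ρbar)) (condQ (rhoM ρbar) Smin Lmin qv)
    (fun q => if (q : Nat.Primes) = pPrime p then Nat.card k
      else if (q : Nat.Primes) ∈ primesOf Smin then 1 else Nat.card k) r (fun q => ?_) ?_
  · by_cases hq' : (q : Nat.Primes) ∈ primesOf Smin
    · rw [condQ_of_mem _ _ _ _ q hq']
      refine (hLcard q hq').trans (Nat.mul_le_mul_right _ ?_)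
      by_cases hqp : (q : Nat.Primes) = pPrime p
      · rw [if_pos hqp, if_pos hqp]
      · rw [if_neg hqp, if_neg hqp, if_pos hq']
    · rw [condQ_of_not_mem _ _ _ _ q hq']
      obtain ⟨i, hi⟩ := hQ q q.2 hq'
      have hqp : (q : Nat.Primes) ≠ pPrime p := fun h => hq' (h ▸ hpP)
      rw [if_neg hqp, if_neg hq']
      have h3 : Nat.card ↥(⊤ : Submodule k (Hq1 (ad0Rep (rhoM ρbar)) ((q : Nat.Primes) : ℕ))) =
          Nat.card (Hq1 (ad0Rep (rhoM ρbar)) ((q : Nat.Primes) : ℕ)) :=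
        Nat.card_congr (Submodule.topEquiv (R := k)
          (M := Hq1 (ad0Rep (rhoM ρbar)) ((q : Nat.Primes) : ℕ))).toEquiv
      rw [h3, ← hi]
      exact (hloc i).2.2.2
  · have hdisj : Disjoint (primesOf Smin) (Finset.univ.image qv) := by
      rw [Finset.disjoint_left]
      intro q hq1 hq2
      obtain ⟨i, -, rfl⟩ := Finset.mem_image.1 hq2
      exact hqvS₀ i hq1
    have hcard : (Finset.univ.image qv).card = r := by
      rw [Finset.card_image_of_injective _ hinj, Finset.card_univ, Fintype.card_fin]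
    have := prod_union_ite hdisj (pPrime p) hpP (Nat.card k)
    rw [hcard] at this
    exact le_of_eq this

end Layer4a

/-! ### Layers 4b, 5a -/

section Main

variable {𝒪 : Type} [CommRing 𝒪] [IsDomain 𝒪] [IsDiscreteValuationRing 𝒪]
  [IsAdicComplete (maximalIdeal 𝒪) 𝒪] [Finite (ResidueField 𝒪)]

section WithAlg

variable [alg : Algebra 𝒪 (DualNumber (ResidueField 𝒪))]

/-- **The strict-ordinary half of S56**, from the Greenberg–Wiles inputs (GLOB) and the local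
conditions at the primes of `Smin` (LOC). -/
theorem s56_strictOrdinary_of_inputs_rel
    (halg : ∀ c : 𝒪, algebraMap 𝒪 (DualNumber (ResidueField 𝒪)) c =
      TrivSqZeroExt.inl (residue 𝒪 c))
    (p : ℕ) [hp : Fact p.Prime] [Algebra (ZMod p) (ResidueField 𝒪)] (hp2 : p ≠ 2)
    (ρbar : ResidualGaloisRep (ResidueField 𝒪))
    (habs : ρbar.IsAbsolutelyIrreducible)
    (hdet : (GaloisRepAdic.ofResidualGaloisRep ρbar).DetIsCyclotomic p)
    (hsplit : ∀ σ : GQ, ∃ α β : ResidueField 𝒪,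
      LinearMap.charpoly (ρbar.ρ σ) = (X - C α) * (X - C β))
    (hTW : ∀ (K : Type) [Field K] [Algebra (ResidueField 𝒪) K] (G : Subgroup GQ), G.index = 2 →
      ∀ V : Submodule K (ρbar.baseChange K).V,
        (∀ σ ∈ G, ∀ x ∈ V, (ρbar.baseChange K).ρ σ x ∈ V) → V = ⊥ ∨ V = ⊤)
    (S Smin : Finset ℕ) (hpSmin : p ∈ Smin) (hSmin : Smin ⊆ S)
    (hmin : ∀ q : ℕ, q.Prime → q ≠ p → (q ∈ Smin ↔ ¬ ρbar.IsUnramifiedAt q))
    -- (GLOB)
    (Z : ∀ q : Nat.Primes,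
      Hq1 (resScalars (ZMod p) (ad0Rep (rhoM ρbar))) (q : ℕ) →
        Hq1 ((resScalars (ZMod p) (ad0Rep (rhoM ρbar))).dualTwist (cycloChar p)) (q : ℕ) → Prop)
    (hnd : ∀ (q : Nat.Primes)
      (y : Hq1 ((resScalars (ZMod p) (ad0Rep (rhoM ρbar))).dualTwist (cycloChar p)) (q : ℕ)),
      (∀ x, Z q x y) → y = 0)
    (I : ∀ Sg : Finset Nat.Primes, primesOf Smin ⊆ Sg →
      GWInputs Sg (resScalars (ZMod p) (ad0Rep (rhoM ρbar)))
        ((resScalars (ZMod p) (ad0Rep (rhoM ρbar))).dualTwist (cycloChar p)))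
    (hI : ∀ (Sg : Finset Nat.Primes) (h : primesOf Smin ⊆ Sg) (q : ↥Sg) x y,
      (I Sg h).pair q x y = 0 ↔ Z q x y)
    (hr0 : ∀ (Sg : Finset Nat.Primes) (h : primesOf Smin ⊆ Sg),
      Nat.card (ResidueField 𝒪) ≤ (I Sg h).r0)
    -- (LOC)
    (Lmin : ∀ q : Nat.Primes, Submodule (ResidueField 𝒪) (Hq1 (ad0Rep (rhoM ρbar)) (q : ℕ)))
    (hLfin : ∀ q : Nat.Primes, q ∈ primesOf Smin → Finite ↥(Lmin q))
    (hLcard : ∀ q : Nat.Primes, q ∈ primesOf Smin → Nat.card ↥(Lmin q) ≤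
      (if q = pPrime p then Nat.card (ResidueField 𝒪) else 1) *
        Nat.card ↥(Mq (ad0Rep (rhoM ρbar)) (q : ℕ)).ρ.invariants)
    (hLlift : ∀ (Sig : Finset ℕ) (Sg : Finset Nat.Primes)
      (r : GQ →* M2 (DualNumber (ResidueField 𝒪))) (hr : MatCont r)
      (h : IsLiftOf (rhoM ρbar) r), soCond 𝒪 p Sig Smin (ofMatrix r hr) →
        ∀ (hlev : ∃ U ∈ (levelS Sg).sets, ∀ s ∈ U, r s = 1)
          (htr : ∀ σ, (liftCocycle (rhoM ρbar) r σ).trace = 0) (q : Nat.Primes),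
          q ∈ primesOf Smin →
          resq1 Sg (ad0Rep (rhoM ρbar)) (q : ℕ) (liftClass Sg h hlev htr) ∈ Lmin q) :
    ∃ r : ℕ, ∀ n : ℕ, ∃ qv : Fin r → ℕ, Function.Injective qv ∧
      (∀ i, (qv i).Prime ∧ qv i ∉ S ∧ p ^ (n + 1) ∣ qv i - 1) ∧
      (∀ i, ∀ P : ValuationSubring (AlgebraicClosure ℚ), P.LiesOverPrime (qv i) →
        ∀ φ : AlgebraicClosure ℚ ≃ₐ[ℚ] AlgebraicClosure ℚ, P.IsFrobeniusAt φ (qv i) →
          ∃ α β : ResidueField 𝒪, α ≠ β ∧ LinearMap.charpoly (ρbar.ρ φ) = (X - C α) * (X - C β)) ∧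
      ∀ DQ : GaloisRep.DeformationRingData 𝒪 ρbar (fun _A _ _ _ ρ =>
          GaloisRep.strictOrdinaryCondition 𝒪 p (Smin ∪ Finset.univ.image qv) ρ ∧
            ∀ q ∈ Smin, q.Prime → q ≠ p → ρ.IsUnipotentOnInertiaAt q),
        ∃ γ : MvPowerSeries (Fin r) 𝒪 →ₐ[𝒪] DQ.R, Function.Surjective γ := by
  obtain ⟨r, hr⟩ := exists_tw_primes_card_Sel_le_rel p ρbar hp2 habs hdet hsplit hTW S Smin hpSmin hSmin
    hmin Z hnd I hI hr0 Lmin hLfin hLcard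
  refine ⟨r, fun n => ?_⟩
  obtain ⟨qv, hinj, hq, hfrob, hfin, hcard⟩ := hr n
  refine ⟨fun i => ((qv i : Nat.Primes) : ℕ), fun i j hij => hinj (Subtype.ext hij),
    fun i => ⟨(qv i).2, (hq i).1, (hq i).2⟩, hfrob, fun DQ => ?_⟩
  haveI := hfin
  exact exists_surjective_so_of_eq halg hp.out.ne_zero DQ (basis ρbar) (rhoM ρbar)
    (rhoM_eq_matrixOfBasisRes ρbar) (sigQ Smin qv) (not_mem_sig_of_not_mem_sigQ qv)
    (condQ (rhoM ρbar) Smin Lmin qv)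
    (fun r' hr' h hso hlev htr q => by
      by_cases hq' : (q : Nat.Primes) ∈ primesOf Smin
      · rw [condQ_of_mem _ _ _ _ q hq']
        exact hLlift _ _ r' hr' h hso hlev htr q hq'
      · rw [condQ_of_not_mem _ _ _ _ q hq']
        exact Submodule.mem_top) r hcard

/-- **The flat half of S56**, from the Greenberg–Wiles inputs (GLOB), the local conditions at the
primes of `Smin` (LOC/FLAT) and flatness of the base changes of the universal deformation. -/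
theorem s56_flat_of_inputs_rel
    (halg : ∀ c : 𝒪, algebraMap 𝒪 (DualNumber (ResidueField 𝒪)) c =
      TrivSqZeroExt.inl (residue 𝒪 c))
    (p : ℕ) [hp : Fact p.Prime] [Algebra (ZMod p) (ResidueField 𝒪)] (hp2 : p ≠ 2)
    (ρbar : ResidualGaloisRep (ResidueField 𝒪))
    (habs : ρbar.IsAbsolutelyIrreducible)
    (hdet : (GaloisRepAdic.ofResidualGaloisRep ρbar).DetIsCyclotomic p)
    (hsplit : ∀ σ : GQ, ∃ α β : ResidueField 𝒪,
      LinearMap.charpoly (ρbar.ρ σ) = (X - C α) * (X - C β))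
    (hTW : ∀ (K : Type) [Field K] [Algebra (ResidueField 𝒪) K] (G : Subgroup GQ), G.index = 2 →
      ∀ V : Submodule K (ρbar.baseChange K).V,
        (∀ σ ∈ G, ∀ x ∈ V, (ρbar.baseChange K).ρ σ x ∈ V) → V = ⊥ ∨ V = ⊤)
    (S Smin : Finset ℕ) (hpSmin : p ∈ Smin) (hSmin : Smin ⊆ S)
    (hmin : ∀ q : ℕ, q.Prime → q ≠ p → (q ∈ Smin ↔ ¬ ρbar.IsUnramifiedAt q))
    -- (GLOB)
    (Z : ∀ q : Nat.Primes,
      Hq1 (resScalars (ZMod p) (ad0Rep (rhoM ρbar))) (q : ℕ) →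
        Hq1 ((resScalars (ZMod p) (ad0Rep (rhoM ρbar))).dualTwist (cycloChar p)) (q : ℕ) → Prop)
    (hnd : ∀ (q : Nat.Primes)
      (y : Hq1 ((resScalars (ZMod p) (ad0Rep (rhoM ρbar))).dualTwist (cycloChar p)) (q : ℕ)),
      (∀ x, Z q x y) → y = 0)
    (I : ∀ Sg : Finset Nat.Primes, primesOf Smin ⊆ Sg →
      GWInputs Sg (resScalars (ZMod p) (ad0Rep (rhoM ρbar)))
        ((resScalars (ZMod p) (ad0Rep (rhoM ρbar))).dualTwist (cycloChar p)))
    (hI : ∀ (Sg : Finset Nat.Primes) (h : primesOf Smin ⊆ Sg) (q : ↥Sg) x y,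
      (I Sg h).pair q x y = 0 ↔ Z q x y)
    (hr0 : ∀ (Sg : Finset Nat.Primes) (h : primesOf Smin ⊆ Sg),
      Nat.card (ResidueField 𝒪) ≤ (I Sg h).r0)
    -- (LOC / FLAT)
    (Lmin : ∀ q : Nat.Primes, Submodule (ResidueField 𝒪) (Hq1 (ad0Rep (rhoM ρbar)) (q : ℕ)))
    (hLfin : ∀ q : Nat.Primes, q ∈ primesOf Smin → Finite ↥(Lmin q))
    (hLcard : ∀ q : Nat.Primes, q ∈ primesOf Smin → Nat.card ↥(Lmin q) ≤
      (if q = pPrime p then Nat.card (ResidueField 𝒪) else 1) *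
        Nat.card ↥(Mq (ad0Rep (rhoM ρbar)) (q : ℕ)).ρ.invariants)
    (hLlift : ∀ (Sig : Finset ℕ) (Sg : Finset Nat.Primes)
      (r : GQ →* M2 (DualNumber (ResidueField 𝒪))) (hr : MatCont r)
      (h : IsLiftOf (rhoM ρbar) r), flCond 𝒪 p Sig Smin (ofMatrix r hr) →
        ∀ (hlev : ∃ U ∈ (levelS Sg).sets, ∀ s ∈ U, r s = 1)
          (htr : ∀ σ, (liftCocycle (rhoM ρbar) r σ).trace = 0) (q : Nat.Primes),
          q ∈ primesOf Smin →
          resq1 Sg (ad0Rep (rhoM ρbar)) (q : ℕ) (liftClass Sg h hlev htr) ∈ Lmin q)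
    (hflat : ∀ (Sig : Finset ℕ) (DQ : DeformationRingData 𝒪 ρbar (flCond 𝒪 p Sig Smin))
      (φ : DQ.R →ₐ[𝒪] DualNumber (ResidueField 𝒪))
      (hφ : IsLocalHom (φ : DQ.R →+* DualNumber (ResidueField 𝒪))),
      (DQ.ρ.baseChangeAlong (φ : DQ.R →+* DualNumber (ResidueField 𝒪)) hφ).IsFlatAt p) :
    ∃ r : ℕ, ∀ n : ℕ, ∃ qv : Fin r → ℕ, Function.Injective qv ∧
      (∀ i, (qv i).Prime ∧ qv i ∉ S ∧ p ^ (n + 1) ∣ qv i - 1) ∧
      (∀ i, ∀ P : ValuationSubring (AlgebraicClosure ℚ), P.LiesOverPrime (qv i) →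
        ∀ φ : AlgebraicClosure ℚ ≃ₐ[ℚ] AlgebraicClosure ℚ, P.IsFrobeniusAt φ (qv i) →
          ∃ α β : ResidueField 𝒪, α ≠ β ∧ LinearMap.charpoly (ρbar.ρ φ) = (X - C α) * (X - C β)) ∧
      ∀ DQ : GaloisRep.DeformationRingData 𝒪 ρbar (fun _A _ _ _ ρ =>
          GaloisRep.flatCondition 𝒪 p (Smin ∪ Finset.univ.image qv) ρ ∧
            ∀ q ∈ Smin, q.Prime → q ≠ p → ρ.IsUnipotentOnInertiaAt q),
        ∃ γ : MvPowerSeries (Fin r) 𝒪 →ₐ[𝒪] DQ.R, Function.Surjective γ := by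
  obtain ⟨r, hr⟩ := exists_tw_primes_card_Sel_le_rel p ρbar hp2 habs hdet hsplit hTW S Smin hpSmin hSmin
    hmin Z hnd I hI hr0 Lmin hLfin hLcard
  refine ⟨r, fun n => ?_⟩
  obtain ⟨qv, hinj, hq, hfrob, hfin, hcard⟩ := hr n
  refine ⟨fun i => ((qv i : Nat.Primes) : ℕ), fun i j hij => hinj (Subtype.ext hij),
    fun i => ⟨(qv i).2, (hq i).1, (hq i).2⟩, hfrob, fun DQ => ?_⟩
  haveI := hfin
  exact exists_surjective_fl_of_eq halg hp.out.ne_zero DQ (hflat _ DQ) (basis ρbar) (rhoM ρbar)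
    (rhoM_eq_matrixOfBasisRes ρbar) (sigQ Smin qv) (not_mem_sig_of_not_mem_sigQ qv)
    (condQ (rhoM ρbar) Smin Lmin qv)
    (fun r' hr' h hso hlev htr q => by
      by_cases hq' : (q : Nat.Primes) ∈ primesOf Smin
      · rw [condQ_of_mem _ _ _ _ q hq']
        exact hLlift _ _ r' hr' h hso hlev htr q hq'
      · rw [condQ_of_not_mem _ _ _ _ q hq']
        exact Submodule.mem_top) r hcard

end WithAlg

/-- **The strict-ordinary half of S56** from (GLOB) and (LOC-SO). -/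
theorem s56_strictOrdinary_of_glob_so_rel
    (p : ℕ) [hp : Fact p.Prime] [Algebra (ZMod p) (ResidueField 𝒪)] (hp2 : p ≠ 2)
    (ρbar : ResidualGaloisRep (ResidueField 𝒪))
    (habs : ρbar.IsAbsolutelyIrreducible)
    (hdet : (GaloisRepAdic.ofResidualGaloisRep ρbar).DetIsCyclotomic p)
    (hsplit : ∀ σ : GQ, ∃ α β : ResidueField 𝒪,
      LinearMap.charpoly (ρbar.ρ σ) = (X - C α) * (X - C β))
    (hTW : ∀ (K : Type) [Field K] [Algebra (ResidueField 𝒪) K] (G : Subgroup GQ), G.index = 2 →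
      ∀ V : Submodule K (ρbar.baseChange K).V,
        (∀ σ ∈ G, ∀ x ∈ V, (ρbar.baseChange K).ρ σ x ∈ V) → V = ⊥ ∨ V = ⊤)
    (S Smin : Finset ℕ) (hpSmin : p ∈ Smin) (hSmin : Smin ⊆ S)
    (hmin : ∀ q : ℕ, q.Prime → q ≠ p → (q ∈ Smin ↔ ¬ ρbar.IsUnramifiedAt q))
    -- (GLOB)
    (Z : ∀ q : Nat.Primes,
      Hq1 (resScalars (ZMod p) (ad0Rep (rhoM ρbar))) (q : ℕ) →
        Hq1 ((resScalars (ZMod p) (ad0Rep (rhoM ρbar))).dualTwist (cycloChar p)) (q : ℕ) → Prop)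
    (hnd : ∀ (q : Nat.Primes)
      (y : Hq1 ((resScalars (ZMod p) (ad0Rep (rhoM ρbar))).dualTwist (cycloChar p)) (q : ℕ)),
      (∀ x, Z q x y) → y = 0)
    (I : ∀ Sg : Finset Nat.Primes, primesOf Smin ⊆ Sg →
      GWInputs Sg (resScalars (ZMod p) (ad0Rep (rhoM ρbar)))
        ((resScalars (ZMod p) (ad0Rep (rhoM ρbar))).dualTwist (cycloChar p)))
    (hI : ∀ (Sg : Finset Nat.Primes) (h : primesOf Smin ⊆ Sg) (q : ↥Sg) x y,
      (I Sg h).pair q x y = 0 ↔ Z q x y)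
    (hr0 : ∀ (Sg : Finset Nat.Primes) (h : primesOf Smin ⊆ Sg),
      Nat.card (ResidueField 𝒪) ≤ (I Sg h).r0)
    -- (LOC-SO)
    (Lp : Submodule (ResidueField 𝒪) (Hq1 (ad0Rep (rhoM ρbar)) ((pPrime p : Nat.Primes) : ℕ)))
    (hLpfin : Finite ↥Lp)
    (hLpcard : Nat.card ↥Lp ≤ Nat.card (ResidueField 𝒪) *
      Nat.card ↥(Mq (ad0Rep (rhoM ρbar)) ((pPrime p : Nat.Primes) : ℕ)).ρ.invariants)
    (hLplift : ∀ (Sig : Finset ℕ) (Sg : Finset Nat.Primes)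
      (r : GQ →* M2 (DualNumber (ResidueField 𝒪))) (hr : MatCont r)
      (h : IsLiftOf (rhoM ρbar) r), soCond 𝒪 p Sig Smin (ofMatrix r hr) →
        ∀ (hlev : ∃ U ∈ (levelS Sg).sets, ∀ s ∈ U, r s = 1)
          (htr : ∀ σ, (liftCocycle (rhoM ρbar) r σ).trace = 0),
          resq1 Sg (ad0Rep (rhoM ρbar)) ((pPrime p : Nat.Primes) : ℕ)
            (liftClass Sg h hlev htr) ∈ Lp) :
    ∃ r : ℕ, ∀ n : ℕ, ∃ qv : Fin r → ℕ, Function.Injective qv ∧
      (∀ i, (qv i).Prime ∧ qv i ∉ S ∧ p ^ (n + 1) ∣ qv i - 1) ∧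
      (∀ i, ∀ P : ValuationSubring (AlgebraicClosure ℚ), P.LiesOverPrime (qv i) →
        ∀ φ : AlgebraicClosure ℚ ≃ₐ[ℚ] AlgebraicClosure ℚ, P.IsFrobeniusAt φ (qv i) →
          ∃ α β : ResidueField 𝒪, α ≠ β ∧ LinearMap.charpoly (ρbar.ρ φ) = (X - C α) * (X - C β)) ∧
      ∀ DQ : GaloisRep.DeformationRingData 𝒪 ρbar (fun _A _ _ _ ρ =>
          GaloisRep.strictOrdinaryCondition 𝒪 p (Smin ∪ Finset.univ.image qv) ρ ∧
            ∀ q ∈ Smin, q.Prime → q ≠ p → ρ.IsUnipotentOnInertiaAt q),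
        ∃ γ : MvPowerSeries (Fin r) 𝒪 →ₐ[𝒪] DQ.R, Function.Surjective γ := by
  have hp0 := natCast_eq_zero p ρbar hdet
  haveI hchar : CharP (ResidueField 𝒪) p := (CharP.charP_iff_prime_eq_zero hp.out).mpr hp0
  -- local facts at the primes `q ≠ p` of `Smin`
  have hlevq : ∀ q : Nat.Primes, Fermat.Agent.TW.LOC.TWLocalAd4.IsLevelAt (q : ℕ) (rhoM ρbar) :=
    fun q => Fermat.Agent.TW.LOC.TWLocalAd4.isLevelAt_of_global (rhoM_finiteLevel ρbar)
  have hneq : ∀ q : Nat.Primes, q ≠ pPrime p → p ≠ (q : ℕ) := fun q h h' => h (Subtype.ext h'.symm)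
  have hfinq : ∀ q : Nat.Primes, q ≠ pPrime p →
      Finite (Hq1 (ad0Rep (rhoM ρbar)) (q : ℕ)) := by
    intro q hq
    haveI : Finite (Mq (ad0Rep (rhoM ρbar)) (q : ℕ)) :=
      Finite.of_injective _ (ad0Val_injective (rhoM ρbar))
    exact (Fermat.Agent.TW.LOC.FiniteH1q4.card_H1_le_sq (q : ℕ) p
      (Fermat.Agent.TW.LOC.TWLocalAd4.isDiscrete_Mq_ad0 (hlevq q)) (hneq q hq) (fun n => by
        rw [← Nat.cast_smul_eq_nsmul (ResidueField 𝒪), CharP.cast_eq_zero, zero_smul])).1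
  refine s56_strictOrdinary_of_inputs_rel (fun _ => rfl) p hp2 ρbar habs hdet hsplit hTW S Smin hpSmin
    hSmin hmin Z hnd I hI hr0 (minCond p Lp) (fun q hq => ?_) (fun q hq => ?_)
    (fun Sig Sg r hr h hso hlev htr q hq => ?_)
  · by_cases hqp : q = pPrime p
    · subst hqp
      rw [minCond_p]
      exact hLpfin
    · rw [minCond_of_ne p Lp hqp]
      haveI := hfinq q hqp
      infer_instance
  · by_cases hqp : q = pPrime p
    · subst hqp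
      rw [minCond_p, if_pos rfl]
      exact hLpcard
    · rw [minCond_of_ne p Lp hqp, if_neg hqp, one_mul]
      exact le_of_eq (Fermat.Agent.TW.LOC.UnipLocal4.card_H1ur_ad0 (q : ℕ) (hlevq q))
  · by_cases hqp : q = pPrime p
    · subst hqp
      rw [minCond_p]
      exact hLplift Sig Sg r hr h hso hlev htr
    · rw [minCond_of_ne p Lp hqp]
      have hqSmin : (q : ℕ) ∈ Smin := mem_primesOf.1 hq
      have hqp' : (q : ℕ) ≠ p := fun h' => hqp (Subtype.ext h')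
      have hram : ¬ ρbar.IsUnramifiedAt (q : ℕ) := (hmin (q : ℕ) q.2 hqp').1 hqSmin
      obtain ⟨τ, hτ, hτ1⟩ :=
        Fermat.Agent.TW.LOC.DecompSurj4.exists_mem_Iq_ne_one_of_not_isUnramifiedAt ρbar hram
      exact Fermat.Agent.TW.LOC.UnipLocal4.resq1_liftClass_mem_H1ur_of_isUnipotent (q : ℕ) p Sg
        (hneq q hqp) hp2 hr h hlev htr (hso.2 (q : ℕ) hqSmin q.2 hqp')
        ⟨τ, hτ, fun h1 => hτ1 ((rhoM_eq_one_iff ρbar _).1 h1)⟩

/-- **The flat half of S56** from (GLOB), (LOC-FL) and flatness of the base changes of the universal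
deformation. -/
theorem s56_flat_of_glob_fl_rel
    (p : ℕ) [hp : Fact p.Prime] [Algebra (ZMod p) (ResidueField 𝒪)] (hp2 : p ≠ 2)
    (ρbar : ResidualGaloisRep (ResidueField 𝒪))
    (habs : ρbar.IsAbsolutelyIrreducible)
    (hdet : (GaloisRepAdic.ofResidualGaloisRep ρbar).DetIsCyclotomic p)
    (hsplit : ∀ σ : GQ, ∃ α β : ResidueField 𝒪,
      LinearMap.charpoly (ρbar.ρ σ) = (X - C α) * (X - C β))
    (hTW : ∀ (K : Type) [Field K] [Algebra (ResidueField 𝒪) K] (G : Subgroup GQ), G.index = 2 →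
      ∀ V : Submodule K (ρbar.baseChange K).V,
        (∀ σ ∈ G, ∀ x ∈ V, (ρbar.baseChange K).ρ σ x ∈ V) → V = ⊥ ∨ V = ⊤)
    (S Smin : Finset ℕ) (hpSmin : p ∈ Smin) (hSmin : Smin ⊆ S)
    (hmin : ∀ q : ℕ, q.Prime → q ≠ p → (q ∈ Smin ↔ ¬ ρbar.IsUnramifiedAt q))
    -- (GLOB)
    (Z : ∀ q : Nat.Primes,
      Hq1 (resScalars (ZMod p) (ad0Rep (rhoM ρbar))) (q : ℕ) →
        Hq1 ((resScalars (ZMod p) (ad0Rep (rhoM ρbar))).dualTwist (cycloChar p)) (q : ℕ) → Prop)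
    (hnd : ∀ (q : Nat.Primes)
      (y : Hq1 ((resScalars (ZMod p) (ad0Rep (rhoM ρbar))).dualTwist (cycloChar p)) (q : ℕ)),
      (∀ x, Z q x y) → y = 0)
    (I : ∀ Sg : Finset Nat.Primes, primesOf Smin ⊆ Sg →
      GWInputs Sg (resScalars (ZMod p) (ad0Rep (rhoM ρbar)))
        ((resScalars (ZMod p) (ad0Rep (rhoM ρbar))).dualTwist (cycloChar p)))
    (hI : ∀ (Sg : Finset Nat.Primes) (h : primesOf Smin ⊆ Sg) (q : ↥Sg) x y,
      (I Sg h).pair q x y = 0 ↔ Z q x y)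
    (hr0 : ∀ (Sg : Finset Nat.Primes) (h : primesOf Smin ⊆ Sg),
      Nat.card (ResidueField 𝒪) ≤ (I Sg h).r0)
    -- (LOC-FL)
    (Lp : Submodule (ResidueField 𝒪) (Hq1 (ad0Rep (rhoM ρbar)) ((pPrime p : Nat.Primes) : ℕ)))
    (hLpfin : Finite ↥Lp)
    (hLpcard : Nat.card ↥Lp ≤ Nat.card (ResidueField 𝒪) *
      Nat.card ↥(Mq (ad0Rep (rhoM ρbar)) ((pPrime p : Nat.Primes) : ℕ)).ρ.invariants)
    (hLplift : ∀ (Sig : Finset ℕ) (Sg : Finset Nat.Primes)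
      (r : GQ →* M2 (DualNumber (ResidueField 𝒪))) (hr : MatCont r)
      (h : IsLiftOf (rhoM ρbar) r), flCond 𝒪 p Sig Smin (ofMatrix r hr) →
        ∀ (hlev : ∃ U ∈ (levelS Sg).sets, ∀ s ∈ U, r s = 1)
          (htr : ∀ σ, (liftCocycle (rhoM ρbar) r σ).trace = 0),
          resq1 Sg (ad0Rep (rhoM ρbar)) ((pPrime p : Nat.Primes) : ℕ)
            (liftClass Sg h hlev htr) ∈ Lp)
    (hflat : ∀ (Sig : Finset ℕ) (DQ : DeformationRingData 𝒪 ρbar (flCond 𝒪 p Sig Smin))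
      (φ : DQ.R →ₐ[𝒪] DualNumber (ResidueField 𝒪))
      (hφ : IsLocalHom (φ : DQ.R →+* DualNumber (ResidueField 𝒪))),
      (DQ.ρ.baseChangeAlong (φ : DQ.R →+* DualNumber (ResidueField 𝒪)) hφ).IsFlatAt p) :
    ∃ r : ℕ, ∀ n : ℕ, ∃ qv : Fin r → ℕ, Function.Injective qv ∧
      (∀ i, (qv i).Prime ∧ qv i ∉ S ∧ p ^ (n + 1) ∣ qv i - 1) ∧
      (∀ i, ∀ P : ValuationSubring (AlgebraicClosure ℚ), P.LiesOverPrime (qv i) →
        ∀ φ : AlgebraicClosure ℚ ≃ₐ[ℚ] AlgebraicClosure ℚ, P.IsFrobeniusAt φ (qv i) →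
          ∃ α β : ResidueField 𝒪, α ≠ β ∧ LinearMap.charpoly (ρbar.ρ φ) = (X - C α) * (X - C β)) ∧
      ∀ DQ : GaloisRep.DeformationRingData 𝒪 ρbar (fun _A _ _ _ ρ =>
          GaloisRep.flatCondition 𝒪 p (Smin ∪ Finset.univ.image qv) ρ ∧
            ∀ q ∈ Smin, q.Prime → q ≠ p → ρ.IsUnipotentOnInertiaAt q),
        ∃ γ : MvPowerSeries (Fin r) 𝒪 →ₐ[𝒪] DQ.R, Function.Surjective γ := by
  have hp0 := natCast_eq_zero p ρbar hdet
  haveI hchar : CharP (ResidueField 𝒪) p := (CharP.charP_iff_prime_eq_zero hp.out).mpr hp0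
  -- local facts at the primes `q ≠ p` of `Smin`
  have hlevq : ∀ q : Nat.Primes, Fermat.Agent.TW.LOC.TWLocalAd4.IsLevelAt (q : ℕ) (rhoM ρbar) :=
    fun q => Fermat.Agent.TW.LOC.TWLocalAd4.isLevelAt_of_global (rhoM_finiteLevel ρbar)
  have hneq : ∀ q : Nat.Primes, q ≠ pPrime p → p ≠ (q : ℕ) := fun q h h' => h (Subtype.ext h'.symm)
  have hfinq : ∀ q : Nat.Primes, q ≠ pPrime p →
      Finite (Hq1 (ad0Rep (rhoM ρbar)) (q : ℕ)) := by
    intro q hq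
    haveI : Finite (Mq (ad0Rep (rhoM ρbar)) (q : ℕ)) :=
      Finite.of_injective _ (ad0Val_injective (rhoM ρbar))
    exact (Fermat.Agent.TW.LOC.FiniteH1q4.card_H1_le_sq (q : ℕ) p
      (Fermat.Agent.TW.LOC.TWLocalAd4.isDiscrete_Mq_ad0 (hlevq q)) (hneq q hq) (fun n => by
        rw [← Nat.cast_smul_eq_nsmul (ResidueField 𝒪), CharP.cast_eq_zero, zero_smul])).1
  refine s56_flat_of_inputs_rel (fun _ => rfl) p hp2 ρbar habs hdet hsplit hTW S Smin hpSmin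
    hSmin hmin Z hnd I hI hr0 (minCond p Lp) (fun q hq => ?_) (fun q hq => ?_)
    (fun Sig Sg r hr h hso hlev htr q hq => ?_) hflat
  · by_cases hqp : q = pPrime p
    · subst hqp
      rw [minCond_p]
      exact hLpfin
    · rw [minCond_of_ne p Lp hqp]
      haveI := hfinq q hqp
      infer_instance
  · by_cases hqp : q = pPrime p
    · subst hqp
      rw [minCond_p, if_pos rfl]
      exact hLpcard
    · rw [minCond_of_ne p Lp hqp, if_neg hqp, one_mul]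
      exact le_of_eq (Fermat.Agent.TW.LOC.UnipLocal4.card_H1ur_ad0 (q : ℕ) (hlevq q))
  · by_cases hqp : q = pPrime p
    · subst hqp
      rw [minCond_p]
      exact hLplift Sig Sg r hr h hso hlev htr
    · rw [minCond_of_ne p Lp hqp]
      have hqSmin : (q : ℕ) ∈ Smin := mem_primesOf.1 hq
      have hqp' : (q : ℕ) ≠ p := fun h' => hqp (Subtype.ext h')
      have hram : ¬ ρbar.IsUnramifiedAt (q : ℕ) := (hmin (q : ℕ) q.2 hqp').1 hqSmin
      obtain ⟨τ, hτ, hτ1⟩ :=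
        Fermat.Agent.TW.LOC.DecompSurj4.exists_mem_Iq_ne_one_of_not_isUnramifiedAt ρbar hram
      exact Fermat.Agent.TW.LOC.UnipLocal4.resq1_liftClass_mem_H1ur_of_isUnipotent (q : ℕ) p Sg
        (hneq q hqp) hp2 hr h hlev htr (hso.2 (q : ℕ) hqSmin q.2 hqp')
        ⟨τ, hτ, fun h1 => hτ1 ((rhoM_eq_one_iff ρbar _).1 h1)⟩

end Main

end

end Fermat.Agent.TW.ASM.AssemblyRel8
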