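/-
Programme T (S56, Taylor–Wiles primes), chapter ASM: the strict-ordinary half of S56 from the global
inputs (GLOB') ONLY.  Owner: helper2 (wiring of helper8's `AssemblyRel8` with `LOC/StrictOrdFinal2`).

`s56_strictOrdinary_of_glob` : first conjunct of S56 from the S56 hypotheses and the relational
Greenberg–Wiles package (GLOB') of `AssemblyRel8`; the local condition at `p` is
`StrictOrdCard2.LpSO p (rhoM ρbar)`.
-/
import Mathlib
import Fermat.Agent.TW.ASM.AssemblyRel8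
import Fermat.Agent.TW.LOC.StrictOrdFinal2

set_option autoImplicit false
set_option linter.unusedSectionVars false
set_option linter.style.haveILetI false

open groupCohomology Polynomial IsLocalRing
open Fermat.Agent.PT.PRO.LevelCoh28 Fermat.Agent.PT.GLUE.Objects21
open Fermat.Agent.TW.DEF.Basic1 Fermat.Agent.TW.DEF.ScalarRes8
open Fermat.Agent.TW.GRP.Bridge3 Fermat.Agent.TW.GRP.CycSub3
open Fermat.Agent.TW.GLOB.GWNumeric1
open Fermat.Agent.TW.ASM.Assembly8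
open ExtCitation GaloisRep

namespace Fermat.Agent.TW.ASM.AssemblySOFinal2

noncomputable section

variable {𝒪 : Type} [CommRing 𝒪] [IsDomain 𝒪] [IsDiscreteValuationRing 𝒪]
  [IsAdicComplete (maximalIdeal 𝒪) 𝒪] [Finite (ResidueField 𝒪)]

/-- **The strict-ordinary half of S56** from (GLOB') only. -/
theorem s56_strictOrdinary_of_glob
    (p : ℕ) [hp : Fact p.Prime] [Algebra (ZMod p) (ResidueField 𝒪)] (hp2 : p ≠ 2)
    (ρbar : ResidualGaloisRep (ResidueField 𝒪))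
    (habs : ρbar.IsAbsolutelyIrreducible)
    (hdet : (GaloisRepAdic.ofResidualGaloisRep ρbar).DetIsCyclotomic p)
    (hsplit : ∀ σ : GQ, ∃ α β : ResidueField 𝒪,
      LinearMap.charpoly (ρbar.ρ σ) = (X - C α) * (X - C β))
    (hTW : ∀ (K : Type) [Field K] [Algebra (ResidueField 𝒪) K] (G : Subgroup GQ), G.index = 2 →
      ∀ V : Submodule K (ρbar.baseChange K).V,
        (∀ σ ∈ G, ∀ x ∈ V, (ρbar.baseChange K).ρ σ x ∈ V) → V = ⊥ ∨ V = ⊤)
    (S Smin : Finset ℕ) (hpSmin : p ∈ Smin) (hSmin : Smin ⊆ S)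
    (hmin : ∀ q : ℕ, q.Prime → q ≠ p → (q ∈ Smin ↔ ¬ ρbar.IsUnramifiedAt q))
    -- (GLOB')
    (Z : ∀ q : Nat.Primes,
      Hq1 (resScalars (ZMod p) (ad0Rep (rhoM ρbar))) (q : ℕ) →
        Hq1 ((resScalars (ZMod p) (ad0Rep (rhoM ρbar))).dualTwist (cycloChar p)) (q : ℕ) → Prop)
    (hnd : ∀ (q : Nat.Primes)
      (y : Hq1 ((resScalars (ZMod p) (ad0Rep (rhoM ρbar))).dualTwist (cycloChar p)) (q : ℕ)),
      (∀ x, Z q x y) → y = 0)
    (I : ∀ Sg : Finset Nat.Primes, primesOf Smin ⊆ Sg →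
      GWInputs Sg (resScalars (ZMod p) (ad0Rep (rhoM ρbar)))
        ((resScalars (ZMod p) (ad0Rep (rhoM ρbar))).dualTwist (cycloChar p)))
    (hI : ∀ (Sg : Finset Nat.Primes) (h : primesOf Smin ⊆ Sg) (q : ↥Sg) x y,
      (I Sg h).pair q x y = 0 ↔ Z q x y)
    (hr0 : ∀ (Sg : Finset Nat.Primes) (h : primesOf Smin ⊆ Sg),
      Nat.card (ResidueField 𝒪) ≤ (I Sg h).r0) :
    ∃ r : ℕ, ∀ n : ℕ, ∃ qv : Fin r → ℕ, Function.Injective qv ∧
      (∀ i, (qv i).Prime ∧ qv i ∉ S ∧ p ^ (n + 1) ∣ qv i - 1) ∧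
      (∀ i, ∀ P : ValuationSubring (AlgebraicClosure ℚ), P.LiesOverPrime (qv i) →
        ∀ φ : AlgebraicClosure ℚ ≃ₐ[ℚ] AlgebraicClosure ℚ, P.IsFrobeniusAt φ (qv i) →
          ∃ α β : ResidueField 𝒪, α ≠ β ∧ LinearMap.charpoly (ρbar.ρ φ) = (X - C α) * (X - C β)) ∧
      ∀ DQ : GaloisRep.DeformationRingData 𝒪 ρbar (fun _A _ _ _ ρ =>
          GaloisRep.strictOrdinaryCondition 𝒪 p (Smin ∪ Finset.univ.image qv) ρ ∧
            ∀ q ∈ Smin, q.Prime → q ≠ p → ρ.IsUnipotentOnInertiaAt q),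
        ∃ γ : MvPowerSeries (Fin r) 𝒪 →ₐ[𝒪] DQ.R, Function.Surjective γ := by
  have hp0 := natCast_eq_zero p ρbar hdet
  haveI hchar : CharP (ResidueField 𝒪) p := (CharP.charP_iff_prime_eq_zero hp.out).mpr hp0
  have hlevp : ∃ U ∈ (levelLoc p).sets, ∀ s ∈ U,
      rhoM ρbar (Fermat.Agent.TW.LOC.Defs2.rq p s) = 1 :=
    Fermat.Agent.TW.LOC.TWLocalAd4.isLevelAt_of_global (rhoM_finiteLevel ρbar)
  exact Fermat.Agent.TW.ASM.AssemblyRel8.s56_strictOrdinary_of_glob_so_rel p hp2 ρbar habs hdet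
    hsplit hTW S Smin hpSmin hSmin hmin Z hnd I hI hr0
    (Fermat.Agent.TW.LOC.StrictOrdCard2.LpSO p (rhoM ρbar))
    (Fermat.Agent.TW.LOC.StrictOrdFinal2.finite_LpSO hp2 hlevp)
    (Fermat.Agent.TW.LOC.StrictOrdFinal2.card_LpSO_le hp2 hlevp)
    (fun _ Sg _ hr h hso hlev htr =>
      Fermat.Agent.TW.LOC.StrictOrdCard2.resq1_liftClass_mem_LpSO hp2 Sg hr h hlev htr
        hso.1.1 hso.1.2.1)

end

end Fermat.Agent.TW.ASM.AssemblySOFinal2
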