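/-
Programme T (S56, Taylor–Wiles primes), chapter ASM (helper8): THE ARCHIMEDEAN COUNT
for `M' = (ad⁰ρ̄)^*(1)` — the fields `r0`, `r0'`, `r0'_pos`, `arch` of `GWNumeric1.GWInputs`
and the hypothesis `hr0` of `AssemblySO8.s56_strictOrdinary_of_glob_so`.

* `cycloChar_complexConjugation : cycloChar p complexConjugation = -1`;
* matrix lemmas: an involution `A` of determinant `-1` has trace `0`
  (`trace_eq_zero_of_mul_self`); for trace-zero `A`, `Y`: `A Y + Y A = tr (A Y)`
  (`mul_add_mul_eq_trace`); hence `-(A Y A) = Y ↔ tr (A Y) = 0` (`neg_conj_eq_iff`);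
* `card_fixed_ad1` : an odd involution `g` (`g² = 1`, `c g = -1`, `det ρ̄ g = -1`) fixes exactly
  `#k²` elements of `ad⁰ρ̄ ⊗ c`;
* `card_dualTwist_ad0`, `card_fixed_dualTwist_ad0` : the same for `(ad⁰ρ̄)^*(χ)` over `𝔽_p`
  (transport along `TraceDual8.adDualIso`);
* `card_dualTwist_rhoM : #M' = #k³`, `card_fixed_complexConjugation : #(M')^{c} = #k²`,
  `card_dualTwist_rhoM_eq_mul : #M' = #k² * #k`  (`M' = (ad⁰ρ̄)^*(1)` for a residual
  representation with cyclotomic determinant, `p` odd), and the submodule form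
  `card_fixedSub_complexConjugation`.
So `r0' = #H⁰(ℝ, M') = #k²` and `r0 = #k`.
-/
import Mathlib
import Fermat.Agent.TW.ASM.AsmLemmas8
import Fermat.Agent.ES.J.CycloChar8

set_option autoImplicit false
set_option linter.unusedSectionVars false
set_option linter.style.haveILetI false

open groupCohomology
open Fermat.Agent.PT.GLUE.Objects21
open Fermat.Agent.TW.DEF.Basic1 Fermat.Agent.TW.DEF.ScalarRes8 Fermat.Agent.TW.DEF.Mu1
open Fermat.Agent.TW.GRP.AdZero3 Fermat.Agent.TW.GRP.Irred3 Fermat.Agent.TW.GRP.Bridge3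
open Fermat.Agent.TW.ASM.TraceDual8 Fermat.Agent.TW.ASM.AsmLemmas8
open ExtCitation

namespace Fermat.Agent.TW.ASM.ArchCount8

noncomputable section

/-! ### The mod `p` cyclotomic character of complex conjugation -/

theorem cycloChar_complexConjugation (p : ℕ) [hp : Fact p.Prime] :
    cycloChar p complexConjugation = -1 := by
  haveI : NeZero p := ⟨hp.out.ne_zero⟩
  apply Units.ext
  rw [Units.val_neg, Units.val_one]
  symm
  show (-1 : ZMod p) = ((modularCyclotomicCharacter (AlgebraicClosure ℚ)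
    (card_rootsOfUnity_eq_self p)
    ((complexConjugation : GQ) : AlgebraicClosure ℚ ≃+* AlgebraicClosure ℚ) : (ZMod p)ˣ) : ZMod p)
  apply modularCyclotomicCharacter.unique
  intro t ht
  have htp : (t : AlgebraicClosure ℚ) ^ p = 1 := by
    have := (mem_rootsOfUnity p t).1 ht
    rw [← Units.val_pow_eq_pow_val, this, Units.val_one]
  have h1 : complexConjugation (t : AlgebraicClosure ℚ) = (t : AlgebraicClosure ℚ)⁻¹ :=
    Fermat.Agent.ES.J.CycloChar8.complexConjugation_rootOfUnity hp.out.ne_zero htp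
  show complexConjugation (t : AlgebraicClosure ℚ) = _
  rw [h1]
  have hval : (-1 : ZMod p).val = p - 1 := by
    rw [ZMod.neg_val, if_neg one_ne_zero, ZMod.val_one]
  rw [hval]
  have ht0 : (t : AlgebraicClosure ℚ) ≠ 0 := t.ne_zero
  rw [eq_comm, ← mul_right_inj' ht0, mul_inv_cancel₀ ht0, ← pow_succ',
    Nat.sub_add_cancel hp.out.one_le, htp]

/-! ### Matrix lemmas -/

section Mat

variable {k : Type} [Field k]

/-- An involution of determinant `-1` has trace `0`. -/
theorem trace_eq_zero_of_mul_self (A : M2 k) (h1 : A * A = 1) (hd : A.det = -1) :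
    A.trace = 0 := by
  have h00 := congrFun (congrFun h1 0) 0
  have h11 := congrFun (congrFun h1 1) 1
  rw [Matrix.mul_apply, Fin.sum_univ_two] at h00 h11
  rw [Matrix.det_fin_two] at hd
  rw [Matrix.trace_fin_two]
  rw [Matrix.one_apply_eq] at h00 h11
  have ha : (A 0 0 + A 1 1) * A 0 0 = 0 := by linear_combination h00 + hd
  have hb : (A 0 0 + A 1 1) * A 1 1 = 0 := by linear_combination h11 + hd
  have : (A 0 0 + A 1 1) * (A 0 0 + A 1 1) = 0 := by linear_combination ha + hb
  exact mul_self_eq_zero.mp this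

/-- For trace-zero `2 × 2` matrices, `A Y + Y A = tr (A Y)`. -/
theorem mul_add_mul_eq_trace (A Y : M2 k) (hA : A.trace = 0) (hY : Y.trace = 0) :
    A * Y + Y * A = (A * Y).trace • (1 : M2 k) := by
  rw [Matrix.trace_fin_two] at hA hY
  have hA' : A 1 1 = - A 0 0 := by linear_combination hA
  have hY' : Y 1 1 = - Y 0 0 := by linear_combination hY
  ext i j
  fin_cases i <;> fin_cases j <;>
    simp [Matrix.mul_apply, Fin.sum_univ_two, Matrix.trace_fin_two, hA', hY'] <;> ring

/-- The fixed points of `Y ↦ -(A Y A)` on trace-zero matrices: the kernel of `Y ↦ tr (A Y)`. -/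
theorem neg_conj_eq_iff (h2 : (2 : k) ≠ 0) (A Y : M2 k) (h1 : A * A = 1) (hA : A.trace = 0)
    (hY : Y.trace = 0) : (-1 : k) • (A * Y * A) = Y ↔ (A * Y).trace = 0 := by
  have key := mul_add_mul_eq_trace A Y hA hY
  constructor
  · intro h
    have h3 : A * Y = -(Y * A) := by
      have := congrArg (fun Z => A * Z) h
      simp only [Matrix.mul_smul] at this
      rw [← Matrix.mul_assoc, ← Matrix.mul_assoc, h1, Matrix.one_mul] at this
      rw [← this, neg_one_smul]
    have h4 : (A * Y).trace = -(A * Y).trace := by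
      conv_lhs => rw [h3, Matrix.trace_neg, Matrix.trace_mul_comm]
    have h5 : (2 : k) * (A * Y).trace = 0 := by linear_combination h4
    exact (mul_eq_zero.1 h5).resolve_left h2
  · intro h
    rw [h, zero_smul] at key
    have h3 : A * Y = -(Y * A) := eq_neg_of_add_eq_zero_left key
    rw [h3, Matrix.neg_mul, Matrix.mul_assoc, h1, Matrix.mul_one, neg_one_smul, neg_neg]

/-- The functional `Y ↦ tr (A Y)` on trace-zero matrices. -/
def trA (A : M2 k) : ↥(slM k) →ₗ[k] k :=
  (Matrix.traceLinearMap (Fin 2) k k) ∘ₗ (LinearMap.mulLeft k A) ∘ₗ (slM k).subtype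

theorem trA_apply (A : M2 k) (Y : ↥(slM k)) : trA A Y = (A * (Y : M2 k)).trace := rfl

theorem trA_surjective (h2 : (2 : k) ≠ 0) (A : M2 k) (h1 : A * A = 1) (hA : A.trace = 0) :
    Function.Surjective (trA A) := by
  intro x
  refine ⟨(x / 2) • (⟨A, mem_slM.2 hA⟩ : ↥(slM k)), ?_⟩
  rw [map_smul, trA_apply]
  show (x / 2) • (A * A).trace = x
  rw [h1, Matrix.trace_one, Fintype.card_fin, smul_eq_mul, Nat.cast_ofNat, div_mul_cancel₀ _ h2]

theorem card_slM [Finite k] : Nat.card ↥(slM k) = Nat.card k ^ 3 := by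
  rw [Module.natCard_eq_pow_finrank (K := k), finrank_slM]

theorem card_ker_trA [Finite k] (h2 : (2 : k) ≠ 0) (A : M2 k) (h1 : A * A = 1)
    (hA : A.trace = 0) : Nat.card ↥(LinearMap.ker (trA A)) = Nat.card k ^ 2 := by
  rw [Module.natCard_eq_pow_finrank (K := k)]
  congr 1
  have h := LinearMap.finrank_range_add_finrank_ker (trA A)
  rw [LinearMap.range_eq_top.2 (trA_surjective h2 A h1 hA), finrank_top, Module.finrank_self,
    finrank_slM] at h
  omega

variable (rbar : GQ →* M2 k) (c : GQ →* kˣ)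

/-- **Fixed points of an odd involution on `ad⁰ρ̄ ⊗ c`.** -/
theorem card_fixed_ad1 [Finite k] (h2 : (2 : k) ≠ 0) (g : GQ) (hg : g * g = 1)
    (hcg : c g = -1) (hdg : (rbar g).det = -1) :
    Nat.card {Y : (ad1Rep rbar c).V // (ad1Rep rbar c).ρ g Y = Y} = Nat.card k ^ 2 := by
  have hginv : g⁻¹ = g := inv_eq_of_mul_eq_one_right hg
  have h1 : rbar g * rbar g = 1 := by rw [← map_mul, hg, map_one]
  have hA : (rbar g).trace = 0 := trace_eq_zero_of_mul_self _ h1 hdg
  rw [← card_ker_trA h2 (rbar g) h1 hA]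
  refine Nat.card_congr (Equiv.subtypeEquivRight fun Y => ?_)
  rw [LinearMap.mem_ker, trA_apply]
  have hY : (ad1Val rbar c Y).trace = 0 := trace_ad1Val rbar c Y
  refine Iff.trans ?_ (neg_conj_eq_iff h2 (rbar g) (ad1Val rbar c Y) h1 hA hY)
  constructor
  · intro h
    have := congrArg (ad1Val rbar c) h
    rw [ad1Val_ρ_apply, hginv, hcg, Units.val_neg, Units.val_one] at this
    exact this
  · intro h
    apply ad1Val_injective rbar c
    rw [ad1Val_ρ_apply, hginv, hcg, Units.val_neg, Units.val_one]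
    exact h

end Mat

/-! ### Transport to the twisted dual -/

section Dual

variable (p : ℕ) [hp : Fact p.Prime] {k : Type} [Field k] [Finite k] [Algebra (ZMod p) k]

/-- `#(ad⁰ρ̄)^*(χ) = #k³`. -/
theorem card_dualTwist_ad0 (rbar : GQ →* M2 k) (c : GQ →* kˣ) (χ : GQ →* (ZMod p)ˣ)
    (h2 : (2 : k) ≠ 0) :
    Nat.card ((resScalars (ZMod p) (ad0Rep rbar)).dualTwist χ).V = Nat.card k ^ 3 := by
  rw [← Nat.card_congr (adDualIso rbar c (ZMod p) χ h2).toEquiv]
  exact card_slM

/-- **The archimedean count**: an odd involution `g` fixes exactly `#k²` elements of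
`(ad⁰ρ̄)^*(χ)`. -/
theorem card_fixed_dualTwist_ad0 (rbar : GQ →* M2 k) (c : GQ →* kˣ) (χ : GQ →* (ZMod p)ˣ)
    (hc : ∀ g, (c g : k) = algebraMap (ZMod p) k (χ g)) (h2 : (2 : k) ≠ 0)
    (g : GQ) (hg : g * g = 1) (hχg : χ g = -1) (hdg : (rbar g).det = -1) :
    Nat.card {f : ((resScalars (ZMod p) (ad0Rep rbar)).dualTwist χ).V //
      ((resScalars (ZMod p) (ad0Rep rbar)).dualTwist χ).ρ g f = f} = Nat.card k ^ 2 := by
  have hcg : c g = -1 := by
    apply Units.ext
    rw [hc g, hχg, Units.val_neg, Units.val_one, map_neg, map_one, Units.val_neg, Units.val_one]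
  rw [← card_fixed_ad1 rbar c h2 g hg hcg hdg]
  let e := adDualIso rbar c (ZMod p) χ h2
  have he := adDualIso_equivariant rbar c (ZMod p) χ hc h2
  refine Nat.card_congr (Equiv.subtypeEquiv e.symm.toEquiv fun f => ?_)
  show _ ↔ (resScalars (ZMod p) (ad1Rep rbar c)).ρ g (e.symm f) = e.symm f
  constructor
  · intro h
    apply e.injective
    rw [he, e.apply_symm_apply, h]
  · intro h
    have := congrArg e h
    rw [he, e.apply_symm_apply] at this
    exact this

end Dual

/-! ### The residual representation -/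

section Final

variable (p : ℕ) [hp : Fact p.Prime] {k : Type} [Field k] [Finite k] [Algebra (ZMod p) k]
  (ρbar : ResidualGaloisRep k)

/-- `#M' = #k³` for `M' = (ad⁰ρ̄)^*(1)`. -/
theorem card_dualTwist_rhoM (hp2 : p ≠ 2)
    (hdet : (GaloisRepAdic.ofResidualGaloisRep ρbar).DetIsCyclotomic p) :
    Nat.card ((resScalars (ZMod p) (ad0Rep (rhoM ρbar))).dualTwist (cycloChar p)).V =
      Nat.card k ^ 3 :=
  card_dualTwist_ad0 p (rhoM ρbar) (detU (rhoM ρbar)) (cycloChar p)
    (Fermat.Agent.TW.GRP.CycSub3.two_ne_zero_of p ρbar hp2 hdet)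

/-- **`#H⁰(ℝ, (ad⁰ρ̄)^*(1)) = #k²`.** -/
theorem card_fixed_complexConjugation (hp2 : p ≠ 2)
    (hdet : (GaloisRepAdic.ofResidualGaloisRep ρbar).DetIsCyclotomic p) :
    Nat.card {f : ((resScalars (ZMod p) (ad0Rep (rhoM ρbar))).dualTwist (cycloChar p)).V //
      ((resScalars (ZMod p) (ad0Rep (rhoM ρbar))).dualTwist (cycloChar p)).ρ
        complexConjugation f = f} = Nat.card k ^ 2 := by
  have hc := coe_detU_eq_algebraMap_cycloChar p ρbar hdet
  have h2 := Fermat.Agent.TW.GRP.CycSub3.two_ne_zero_of p ρbar hp2 hdet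
  refine card_fixed_dualTwist_ad0 p (rhoM ρbar) (detU (rhoM ρbar)) (cycloChar p) hc h2
    complexConjugation complexConjugation_mul_self (cycloChar_complexConjugation p) ?_
  have h := hc complexConjugation
  rw [cycloChar_complexConjugation, Units.val_neg, Units.val_one, map_neg, map_one, coe_detU] at h
  exact h

/-- The submodule form of `card_fixed_complexConjugation`. -/
theorem card_fixedSub_complexConjugation (hp2 : p ≠ 2)
    (hdet : (GaloisRepAdic.ofResidualGaloisRep ρbar).DetIsCyclotomic p) :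
    Nat.card ↥(LinearMap.ker
      (((resScalars (ZMod p) (ad0Rep (rhoM ρbar))).dualTwist (cycloChar p)).ρ
        complexConjugation - 1)) = Nat.card k ^ 2 := by
  rw [← card_fixed_complexConjugation p ρbar hp2 hdet]
  refine Nat.card_congr (Equiv.subtypeEquivRight fun f => ?_)
  rw [LinearMap.mem_ker, LinearMap.sub_apply, Module.End.one_apply, sub_eq_zero]

/-- The `arch` identity of `GWNumeric1.GWInputs` with `r0' = #k²`, `r0 = #k`. -/
theorem card_dualTwist_rhoM_eq_mul (hp2 : p ≠ 2)
    (hdet : (GaloisRepAdic.ofResidualGaloisRep ρbar).DetIsCyclotomic p) :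
    Nat.card ((resScalars (ZMod p) (ad0Rep (rhoM ρbar))).dualTwist (cycloChar p)).V =
      Nat.card k ^ 2 * Nat.card k := by
  rw [card_dualTwist_rhoM p ρbar hp2 hdet, pow_succ]

end Final

end

end Fermat.Agent.TW.ASM.ArchCount8
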