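/-
Programme T (S56, Taylor–Wiles primes), chapter ASM (helper8): THE (GLOB') PACKAGE.

For `M = resScalars (ZMod p) (ad0Rep (rhoM ρbar))`, `M' = M.dualTwist (cycloChar p)` this file builds
the Greenberg–Wiles inputs `GWNumeric1.GWInputs Σ M M'` for every `Σ ⊇ primesOf Smin` from

* `GLOB/InvRecip1` (`InvData`, `pair`, `pair_recip`, `pair_eq_zero_iff`),
* `LOC/Loc02_2` (`finHq2'`, `loc02`), `LOC/CupDualityMu2` (right non-degeneracy of the local cup product),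
* `ASM/ArchCount8` (`r0 = #k`, `r0' = #k²`, `arch`),

leaving as HYPOTHESES exactly the three global numerical statements and three finiteness statements
(for all `Σ ⊇ primesOf Smin`):
  `hfin1 : Finite (HS1 Σ M)`, `hfin1' : Finite (HS1 Σ M')`, `hfin2' : Finite (HS2 Σ M')`,
  `hsha  : #Ш¹_Σ(M) ≤ #Ш²_Σ(M')`,
  `htail : #Ш²_Σ(M') * ∏_{q ∈ Σ} #H²(ℚ_q, M') ≤ #H²(G_Σ, M') * #H⁰(G_ℚ, M)`,
  `htate : #H⁰(G_ℚ, M') * #H²(G_Σ, M') * #M' ≤ #H¹(G_Σ, M') * #{f ∈ M' | c f = f}` (`c` = complex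
           conjugation).
`exists_glob_of_numeric` : the (GLOB') package `Z`, `I`, `hnd`, `hI`, `hr0` of `AssemblyRel8` as an existential.
Main theorems: `s56_strictOrdinary_of_numeric` (first conjunct of S56 from these + (LOC-SO)) and
`s56_flat_of_numeric` (second conjunct from these + (LOC-FL) + `hflat`).
-/
import Mathlib
import Fermat.Agent.TW.ASM.AssemblyRel8
import Fermat.Agent.TW.ASM.ArchCount8
import Fermat.Agent.TW.GLOB.InvRecip1
import Fermat.Agent.TW.LOC.Loc02_2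
import Fermat.Agent.TW.LOC.CupDualityMu2

set_option autoImplicit false
set_option linter.unusedSectionVars false
set_option linter.style.haveILetI false

open groupCohomology Polynomial IsLocalRing
open Fermat.Agent.PT.PRO.LevelCoh28 Fermat.Agent.PT.PRO.LevelCohRes28
open Fermat.Agent.PT.GLUE.Objects21
open Fermat.Agent.S53 (matrixOfBasisRes MatCont ofMatrix)
open Fermat.Agent.TW.DEF.Basic1 Fermat.Agent.TW.DEF.ScalarRes8 Fermat.Agent.TW.DEF.Mu1
open Fermat.Agent.TW.DEF.LiftCocycle1 Fermat.Agent.TW.DEF.CondStable8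
open Fermat.Agent.TW.GRP.Bridge3 Fermat.Agent.TW.GRP.CycSub3
open Fermat.Agent.TW.GLOB.GWNumeric1 Fermat.Agent.TW.GLOB.InvRecip1
open Fermat.Agent.TW.ASM.TraceDual8 Fermat.Agent.TW.ASM.AsmLemmas8
open Fermat.Agent.TW.ASM.Assembly8 Fermat.Agent.TW.ASM.AssemblyRel8 Fermat.Agent.TW.ASM.ArchCount8
open ExtCitation GaloisRep

namespace Fermat.Agent.TW.ASM.GlobPack8

noncomputable section

section Disc

variable (p : ℕ) [hp : Fact p.Prime] {k : Type} [Field k] [Finite k] [Algebra (ZMod p) k]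
  (ρbar : ResidualGaloisRep k)

/-- `ρ̄` is trivial on a member of `levelS Σ` when it is unramified outside `Σ`. -/
theorem exists_levelS_rhoM_eq_one (Sg : Finset Nat.Primes)
    (hur : ∀ q : Nat.Primes, q ∉ Sg → ρbar.IsUnramifiedAt (q : ℕ)) :
    ∃ U ∈ (levelS Sg).sets, ∀ s ∈ U, rhoM ρbar s = 1 := by
  obtain ⟨U, hU, -, hU1⟩ := Fermat.Agent.TW.DEF.LevelKer1.exists_levelS_forall_eq_one (rhoM ρbar) Sg
    (by
      obtain ⟨L, hL, hL1⟩ := rhoM_finiteLevel ρbar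
      exact ⟨L, hL, fun s hs => hL1 s fun x hx => by
        rw [IntermediateField.mem_fixingSubgroup_iff] at hs
        exact hs x hx⟩)
    (fun q hq' P hP g hg => rhoM_inertia ρbar (hur q hq') P hP hg)
  exact ⟨U, hU, hU1⟩

/-- `M' = (ad⁰ρ̄)^*(1)` is a discrete `G_Σ`-module (`p ∈ Σ`, `ρ̄` unramified outside `Σ`). -/
theorem isDiscrete_dualTwist_levelS (Sg : Finset Nat.Primes) (hpSg : pPrime p ∈ Sg)
    (hur : ∀ q : Nat.Primes, q ∉ Sg → ρbar.IsUnramifiedAt (q : ℕ)) :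
    IsDiscrete (levelS Sg).sets
      ((resScalars (ZMod p) (ad0Rep (rhoM ρbar))).dualTwist (cycloChar p)) := by
  obtain ⟨U, hU, hU1⟩ := exists_levelS_dualTwist_eq_one (rhoM ρbar) p hpSg
    (exists_levelS_rhoM_eq_one ρbar Sg hur)
  intro a
  exact ⟨U, hU, fun s hs => by rw [hU1 s hs]; rfl⟩

/-- `M = ad⁰ρ̄` is a discrete `G_{ℚ_q}`-module. -/
theorem isDiscrete_Mq_resScalars (q : ℕ) [Fact q.Prime] :
    IsDiscrete (levelLoc q).sets (Mq (resScalars (ZMod p) (ad0Rep (rhoM ρbar))) q) := by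
  have h := Fermat.Agent.TW.LOC.TWLocalAd4.isDiscrete_Mq_ad0 (q := q)
    (Fermat.Agent.TW.LOC.TWLocalAd4.isLevelAt_of_global (rhoM_finiteLevel ρbar))
  intro a
  obtain ⟨U, hU, hU1⟩ := h a
  exact ⟨U, hU, fun s hs => hU1 s hs⟩

/-- `M' = (ad⁰ρ̄)^*(1)` is a discrete `G_{ℚ_q}`-module. -/
theorem isDiscrete_Mq_dualTwist (Sg : Finset Nat.Primes) (hpSg : pPrime p ∈ Sg)
    (hur : ∀ q : Nat.Primes, q ∉ Sg → ρbar.IsUnramifiedAt (q : ℕ)) (q : ℕ) [Fact q.Prime] :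
    IsDiscrete (levelLoc q).sets
      (Mq ((resScalars (ZMod p) (ad0Rep (rhoM ρbar))).dualTwist (cycloChar p)) q) := by
  obtain ⟨U, hU, hU1⟩ := exists_levelS_dualTwist_eq_one (rhoM ρbar) p hpSg
    (exists_levelS_rhoM_eq_one ρbar Sg hur)
  obtain ⟨V, hV, hVU⟩ := isLevelHom_rq Sg q U hU
  intro a
  refine ⟨V, hV, fun s hs => ?_⟩
  have h1 : rq q s ∈ U := hVU hs
  show ((resScalars (ZMod p) (ad0Rep (rhoM ρbar))).dualTwist (cycloChar p)).ρ (rq q s) a = a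
  rw [hU1 _ h1]
  rfl

end Disc

/-! ### The Greenberg–Wiles inputs -/

section Pack

variable (p : ℕ) [hp : Fact p.Prime] {k : Type} [Field k] [Finite k] [Algebra (ZMod p) k]
  (ρbar : ResidualGaloisRep k)

instance : Finite ((resScalars (ZMod p) (ad0Rep (rhoM ρbar))).dualTwist (cycloChar p)).V :=
  Module.finite_of_finite (ZMod p)

/-- The Greenberg–Wiles inputs for `M = ad⁰ρ̄`, `M' = (ad⁰ρ̄)^*(1)` at level `Σ`, from invariant data
`D`, the three finiteness statements and the three numerical statements `sha`, `tail`, `tate`. -/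
def gwInputs (hp2 : p ≠ 2)
    (hdet : (GaloisRepAdic.ofResidualGaloisRep ρbar).DetIsCyclotomic p)
    (Sg : Finset Nat.Primes) (hpSg : pPrime p ∈ Sg)
    (hur : ∀ q : Nat.Primes, q ∉ Sg → ρbar.IsUnramifiedAt (q : ℕ))
    (D : InvData p Sg)
    (hfin1 : Finite (HS1 Sg (resScalars (ZMod p) (ad0Rep (rhoM ρbar)))))
    (hfin1' : Finite (HS1 Sg ((resScalars (ZMod p) (ad0Rep (rhoM ρbar))).dualTwist (cycloChar p))))
    (hfin2' : Finite (HS2 Sg ((resScalars (ZMod p) (ad0Rep (rhoM ρbar))).dualTwist (cycloChar p))))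
    (hsha : Nat.card ↥(sha1 Sg (resScalars (ZMod p) (ad0Rep (rhoM ρbar)))) ≤
      Nat.card ↥(sha2 Sg ((resScalars (ZMod p) (ad0Rep (rhoM ρbar))).dualTwist (cycloChar p))))
    (htail : Nat.card ↥(sha2 Sg ((resScalars (ZMod p) (ad0Rep (rhoM ρbar))).dualTwist (cycloChar p))) *
        ∏ q : ↥Sg, Nat.card (Hq2 ((resScalars (ZMod p) (ad0Rep (rhoM ρbar))).dualTwist (cycloChar p))
          ((q : Nat.Primes) : ℕ)) ≤
      Nat.card (HS2 Sg ((resScalars (ZMod p) (ad0Rep (rhoM ρbar))).dualTwist (cycloChar p))) *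
        Nat.card ↥(resScalars (ZMod p) (ad0Rep (rhoM ρbar))).ρ.invariants)
    (htate : Nat.card ↥((resScalars (ZMod p) (ad0Rep (rhoM ρbar))).dualTwist (cycloChar p)).ρ.invariants *
        Nat.card (HS2 Sg ((resScalars (ZMod p) (ad0Rep (rhoM ρbar))).dualTwist (cycloChar p))) *
        Nat.card ((resScalars (ZMod p) (ad0Rep (rhoM ρbar))).dualTwist (cycloChar p)).V ≤
      Nat.card (HS1 Sg ((resScalars (ZMod p) (ad0Rep (rhoM ρbar))).dualTwist (cycloChar p))) *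
        Nat.card {f : ((resScalars (ZMod p) (ad0Rep (rhoM ρbar))).dualTwist (cycloChar p)).V //
          ((resScalars (ZMod p) (ad0Rep (rhoM ρbar))).dualTwist (cycloChar p)).ρ
            complexConjugation f = f}) :
    GWInputs Sg (resScalars (ZMod p) (ad0Rep (rhoM ρbar)))
      ((resScalars (ZMod p) (ad0Rep (rhoM ρbar))).dualTwist (cycloChar p)) where
  pair q := D.pair (evalB (cycloChar p) (resScalars (ZMod p) (ad0Rep (rhoM ρbar))))
    (evalB_equivariant (cycloChar p) (resScalars (ZMod p) (ad0Rep (rhoM ρbar)))) q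
    (isDiscrete_Mq_dualTwist p ρbar Sg hpSg hur ((q : Nat.Primes) : ℕ))
  recip := D.pair_recip (evalB (cycloChar p) (resScalars (ZMod p) (ad0Rep (rhoM ρbar))))
    (evalB_equivariant (cycloChar p) (resScalars (ZMod p) (ad0Rep (rhoM ρbar)))) hpSg
    (isDiscrete_dualTwist_levelS p ρbar Sg hpSg hur)
    (fun q => isDiscrete_Mq_dualTwist p ρbar Sg hpSg hur ((q : Nat.Primes) : ℕ))
  finH1 := hfin1
  finH1' := hfin1'
  finH2' := hfin2'
  finHq2' q := Fermat.Agent.TW.LOC.Loc02_2.finite_Hq2_dualTwist p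
    (resScalars (ZMod p) (ad0Rep (rhoM ρbar))) ((q : Nat.Primes) : ℕ)
    (isDiscrete_Mq_resScalars p ρbar ((q : Nat.Primes) : ℕ))
  finM' := inferInstance
  r0 := Nat.card k
  r0' := Nat.card k ^ 2
  r0'_pos := pow_pos Nat.card_pos 2
  arch := card_dualTwist_rhoM_eq_mul p ρbar hp2 hdet
  sha := hsha
  tail := htail
  tate := by
    rw [← card_fixed_complexConjugation p ρbar hp2 hdet]
    exact htate
  loc02 q := Fermat.Agent.TW.LOC.Loc02_2.card_invariants_le_card_Hq2 p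
    (resScalars (ZMod p) (ad0Rep (rhoM ρbar))) ((q : Nat.Primes) : ℕ)
    (isDiscrete_Mq_resScalars p ρbar ((q : Nat.Primes) : ℕ))

/-- **The (GLOB') package** of `AssemblyRel8` from the numerical global statements. -/
theorem exists_glob_of_numeric (hp2 : p ≠ 2)
    (hdet : (GaloisRepAdic.ofResidualGaloisRep ρbar).DetIsCyclotomic p)
    (Smin : Finset ℕ) (hpSmin : p ∈ Smin)
    (hmin : ∀ q : ℕ, q.Prime → q ≠ p → (q ∈ Smin ↔ ¬ ρbar.IsUnramifiedAt q))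
    (hfin1 : ∀ Sg : Finset Nat.Primes, primesOf Smin ⊆ Sg → Finite (HS1 Sg (resScalars (ZMod p) (ad0Rep (rhoM ρbar)))))
    (hfin1' : ∀ Sg : Finset Nat.Primes, primesOf Smin ⊆ Sg → Finite (HS1 Sg ((resScalars (ZMod p) (ad0Rep (rhoM ρbar))).dualTwist (cycloChar p))))
    (hfin2' : ∀ Sg : Finset Nat.Primes, primesOf Smin ⊆ Sg → Finite (HS2 Sg ((resScalars (ZMod p) (ad0Rep (rhoM ρbar))).dualTwist (cycloChar p))))
    (hsha : ∀ Sg : Finset Nat.Primes, primesOf Smin ⊆ Sg →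
      Nat.card ↥(sha1 Sg (resScalars (ZMod p) (ad0Rep (rhoM ρbar)))) ≤ Nat.card ↥(sha2 Sg ((resScalars (ZMod p) (ad0Rep (rhoM ρbar))).dualTwist (cycloChar p))))
    (htail : ∀ Sg : Finset Nat.Primes, primesOf Smin ⊆ Sg →
      Nat.card ↥(sha2 Sg ((resScalars (ZMod p) (ad0Rep (rhoM ρbar))).dualTwist (cycloChar p))) *
        ∏ q : ↥Sg, Nat.card (Hq2 ((resScalars (ZMod p) (ad0Rep (rhoM ρbar))).dualTwist (cycloChar p)) ((q : Nat.Primes) : ℕ)) ≤
      Nat.card (HS2 Sg ((resScalars (ZMod p) (ad0Rep (rhoM ρbar))).dualTwist (cycloChar p))) * Nat.card ↥(resScalars (ZMod p) (ad0Rep (rhoM ρbar))).ρ.invariants)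
    (htate : ∀ Sg : Finset Nat.Primes, primesOf Smin ⊆ Sg →
      Nat.card ↥((resScalars (ZMod p) (ad0Rep (rhoM ρbar))).dualTwist (cycloChar p)).ρ.invariants * Nat.card (HS2 Sg ((resScalars (ZMod p) (ad0Rep (rhoM ρbar))).dualTwist (cycloChar p))) * Nat.card ((resScalars (ZMod p) (ad0Rep (rhoM ρbar))).dualTwist (cycloChar p)).V ≤
      Nat.card (HS1 Sg ((resScalars (ZMod p) (ad0Rep (rhoM ρbar))).dualTwist (cycloChar p))) *
        Nat.card {f : ((resScalars (ZMod p) (ad0Rep (rhoM ρbar))).dualTwist (cycloChar p)).V // ((resScalars (ZMod p) (ad0Rep (rhoM ρbar))).dualTwist (cycloChar p)).ρ complexConjugation f = f}) :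
    ∃ (Z : ∀ q : Nat.Primes, Hq1 (resScalars (ZMod p) (ad0Rep (rhoM ρbar))) (q : ℕ) → Hq1 ((resScalars (ZMod p) (ad0Rep (rhoM ρbar))).dualTwist (cycloChar p)) (q : ℕ) → Prop)
      (I : ∀ Sg : Finset Nat.Primes, primesOf Smin ⊆ Sg → GWInputs Sg (resScalars (ZMod p) (ad0Rep (rhoM ρbar))) ((resScalars (ZMod p) (ad0Rep (rhoM ρbar))).dualTwist (cycloChar p))),
      (∀ (q : Nat.Primes) (y : Hq1 ((resScalars (ZMod p) (ad0Rep (rhoM ρbar))).dualTwist (cycloChar p)) (q : ℕ)), (∀ x, Z q x y) → y = 0) ∧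
      (∀ (Sg : Finset Nat.Primes) (h : primesOf Smin ⊆ Sg) (q : ↥Sg) x y,
        (I Sg h).pair q x y = 0 ↔ Z q x y) ∧
      ∀ (Sg : Finset Nat.Primes) (h : primesOf Smin ⊆ Sg), Nat.card k ≤ (I Sg h).r0 := by
  have hpP : pPrime p ∈ primesOf Smin := mem_primesOf.2 hpSmin
  have hurmin : ∀ Sg : Finset Nat.Primes, primesOf Smin ⊆ Sg → ∀ q : Nat.Primes, q ∉ Sg →
      ρbar.IsUnramifiedAt (q : ℕ) := fun Sg h q hq =>
    Fermat.Agent.TW.GRP.Main3.unramified_of_hmin p ρbar hpSmin (Finset.Subset.refl _) hmin (q : ℕ) q.2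
      (fun h' => hq (h (mem_primesOf.2 h')))
  have hD : ∀ Sg : Finset Nat.Primes, primesOf Smin ⊆ Sg → Nonempty (InvData p Sg) :=
    fun Sg h => exists_invData p Sg hp2 (h hpP)
  exact ⟨fun q x y => cupq p (resScalars (ZMod p) (ad0Rep (rhoM ρbar))) (q : ℕ)
      (isDiscrete_Mq_dualTwist p ρbar (primesOf Smin) hpP (hurmin _ (Finset.Subset.refl _)) (q : ℕ))
      x y = 0,
    fun Sg h => gwInputs p ρbar hp2 hdet Sg (h hpP) (hurmin Sg h) (hD Sg h).some (hfin1 Sg h)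
      (hfin1' Sg h) (hfin2' Sg h) (hsha Sg h) (htail Sg h) (htate Sg h),
    fun q y h => Fermat.Agent.TW.LOC.CupDualityMu2.cupq_right_nondegenerate p (resScalars (ZMod p) (ad0Rep (rhoM ρbar))) (q : ℕ)
      (isDiscrete_Mq_resScalars p ρbar (q : ℕ)) _ y h,
    fun Sg h q x y => (hD Sg h).some.pair_eq_zero_iff _ _ q _ x y,
    fun Sg h => le_refl _⟩

end Pack

/-! ### The two halves of S56 from the numerical global statements -/

section Main

variable {𝒪 : Type} [CommRing 𝒪] [IsDomain 𝒪] [IsDiscreteValuationRing 𝒪]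
  [IsAdicComplete (maximalIdeal 𝒪) 𝒪] [Finite (ResidueField 𝒪)]

/-- **The strict-ordinary half of S56** from `sha`, `tail`, `tate`, finiteness and (LOC-SO). -/
theorem s56_strictOrdinary_of_numeric
    (p : ℕ) [hp : Fact p.Prime] [Algebra (ZMod p) (ResidueField 𝒪)] (hp2 : p ≠ 2)
    (ρbar : ResidualGaloisRep (ResidueField 𝒪))
    (habs : ρbar.IsAbsolutelyIrreducible)
    (hdet : (GaloisRepAdic.ofResidualGaloisRep ρbar).DetIsCyclotomic p)
    (hsplit : ∀ σ : GQ, ∃ α β : ResidueField 𝒪,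
      LinearMap.charpoly (ρbar.ρ σ) = (X - C α) * (X - C β))
    (hTW : ∀ (K : Type) [Field K] [Algebra (ResidueField 𝒪) K] (G : Subgroup GQ), G.index = 2 →
      ∀ V : Submodule K (ρbar.baseChange K).V,
        (∀ σ ∈ G, ∀ x ∈ V, (ρbar.baseChange K).ρ σ x ∈ V) → V = ⊥ ∨ V = ⊤)
    (S Smin : Finset ℕ) (hpSmin : p ∈ Smin) (hSmin : Smin ⊆ S)
    (hmin : ∀ q : ℕ, q.Prime → q ≠ p → (q ∈ Smin ↔ ¬ ρbar.IsUnramifiedAt q))
    -- (GLOB-NUM)
    (hfin1 : ∀ Sg : Finset Nat.Primes, primesOf Smin ⊆ Sg → Finite (HS1 Sg (resScalars (ZMod p) (ad0Rep (rhoM ρbar)))))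
    (hfin1' : ∀ Sg : Finset Nat.Primes, primesOf Smin ⊆ Sg → Finite (HS1 Sg ((resScalars (ZMod p) (ad0Rep (rhoM ρbar))).dualTwist (cycloChar p))))
    (hfin2' : ∀ Sg : Finset Nat.Primes, primesOf Smin ⊆ Sg → Finite (HS2 Sg ((resScalars (ZMod p) (ad0Rep (rhoM ρbar))).dualTwist (cycloChar p))))
    (hsha : ∀ Sg : Finset Nat.Primes, primesOf Smin ⊆ Sg →
      Nat.card ↥(sha1 Sg (resScalars (ZMod p) (ad0Rep (rhoM ρbar)))) ≤ Nat.card ↥(sha2 Sg ((resScalars (ZMod p) (ad0Rep (rhoM ρbar))).dualTwist (cycloChar p))))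
    (htail : ∀ Sg : Finset Nat.Primes, primesOf Smin ⊆ Sg →
      Nat.card ↥(sha2 Sg ((resScalars (ZMod p) (ad0Rep (rhoM ρbar))).dualTwist (cycloChar p))) *
        ∏ q : ↥Sg, Nat.card (Hq2 ((resScalars (ZMod p) (ad0Rep (rhoM ρbar))).dualTwist (cycloChar p)) ((q : Nat.Primes) : ℕ)) ≤
      Nat.card (HS2 Sg ((resScalars (ZMod p) (ad0Rep (rhoM ρbar))).dualTwist (cycloChar p))) * Nat.card ↥(resScalars (ZMod p) (ad0Rep (rhoM ρbar))).ρ.invariants)
    (htate : ∀ Sg : Finset Nat.Primes, primesOf Smin ⊆ Sg →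
      Nat.card ↥((resScalars (ZMod p) (ad0Rep (rhoM ρbar))).dualTwist (cycloChar p)).ρ.invariants * Nat.card (HS2 Sg ((resScalars (ZMod p) (ad0Rep (rhoM ρbar))).dualTwist (cycloChar p))) * Nat.card ((resScalars (ZMod p) (ad0Rep (rhoM ρbar))).dualTwist (cycloChar p)).V ≤
      Nat.card (HS1 Sg ((resScalars (ZMod p) (ad0Rep (rhoM ρbar))).dualTwist (cycloChar p))) *
        Nat.card {f : ((resScalars (ZMod p) (ad0Rep (rhoM ρbar))).dualTwist (cycloChar p)).V // ((resScalars (ZMod p) (ad0Rep (rhoM ρbar))).dualTwist (cycloChar p)).ρ complexConjugation f = f})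
    -- (LOC-SO)
    (Lp : Submodule (ResidueField 𝒪) (Hq1 (ad0Rep (rhoM ρbar)) ((pPrime p : Nat.Primes) : ℕ)))
    (hLpfin : Finite ↥Lp)
    (hLpcard : Nat.card ↥Lp ≤ Nat.card (ResidueField 𝒪) *
      Nat.card ↥(Mq (ad0Rep (rhoM ρbar)) ((pPrime p : Nat.Primes) : ℕ)).ρ.invariants)
    (hLplift : ∀ (Sig : Finset ℕ) (Sg : Finset Nat.Primes)
      (r : GQ →* M2 (DualNumber (ResidueField 𝒪))) (hr : MatCont r)
      (h : IsLiftOf (rhoM ρbar) r), soCond 𝒪 p Sig Smin (ofMatrix r hr) →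
        ∀ (hlev : ∃ U ∈ (levelS Sg).sets, ∀ s ∈ U, r s = 1)
          (htr : ∀ σ, (liftCocycle (rhoM ρbar) r σ).trace = 0),
          resq1 Sg (ad0Rep (rhoM ρbar)) ((pPrime p : Nat.Primes) : ℕ)
            (liftClass Sg h hlev htr) ∈ Lp) :
    ∃ r : ℕ, ∀ n : ℕ, ∃ qv : Fin r → ℕ, Function.Injective qv ∧
      (∀ i, (qv i).Prime ∧ qv i ∉ S ∧ p ^ (n + 1) ∣ qv i - 1) ∧
      (∀ i, ∀ P : ValuationSubring (AlgebraicClosure ℚ), P.LiesOverPrime (qv i) →
        ∀ φ : AlgebraicClosure ℚ ≃ₐ[ℚ] AlgebraicClosure ℚ, P.IsFrobeniusAt φ (qv i) →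
          ∃ α β : ResidueField 𝒪, α ≠ β ∧ LinearMap.charpoly (ρbar.ρ φ) = (X - C α) * (X - C β)) ∧
      ∀ DQ : GaloisRep.DeformationRingData 𝒪 ρbar (fun _A _ _ _ ρ =>
          GaloisRep.strictOrdinaryCondition 𝒪 p (Smin ∪ Finset.univ.image qv) ρ ∧
            ∀ q ∈ Smin, q.Prime → q ≠ p → ρ.IsUnipotentOnInertiaAt q),
        ∃ γ : MvPowerSeries (Fin r) 𝒪 →ₐ[𝒪] DQ.R, Function.Surjective γ := by
  have hpP : pPrime p ∈ primesOf Smin := mem_primesOf.2 hpSmin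
  have hurmin : ∀ Sg : Finset Nat.Primes, primesOf Smin ⊆ Sg → ∀ q : Nat.Primes, q ∉ Sg →
      ρbar.IsUnramifiedAt (q : ℕ) := fun Sg h q hq =>
    Fermat.Agent.TW.GRP.Main3.unramified_of_hmin p ρbar hpSmin (Finset.Subset.refl _) hmin (q : ℕ) q.2
      (fun h' => hq (h (mem_primesOf.2 h')))
  have hD : ∀ Sg : Finset Nat.Primes, primesOf Smin ⊆ Sg → Nonempty (InvData p Sg) :=
    fun Sg h => exists_invData p Sg hp2 (h hpP)
  exact s56_strictOrdinary_of_glob_so_rel p hp2 ρbar habs hdet hsplit hTW S Smin hpSmin hSmin hmin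
    (fun q x y => cupq p (resScalars (ZMod p) (ad0Rep (rhoM ρbar))) (q : ℕ)
      (isDiscrete_Mq_dualTwist p ρbar (primesOf Smin) hpP (hurmin _ (Finset.Subset.refl _)) (q : ℕ))
      x y = 0)
    (fun q y h => Fermat.Agent.TW.LOC.CupDualityMu2.cupq_right_nondegenerate p (resScalars (ZMod p) (ad0Rep (rhoM ρbar))) (q : ℕ)
      (isDiscrete_Mq_resScalars p ρbar (q : ℕ)) _ y h)
    (fun Sg h => gwInputs p ρbar hp2 hdet Sg (h hpP) (hurmin Sg h) (hD Sg h).some (hfin1 Sg h)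
      (hfin1' Sg h) (hfin2' Sg h) (hsha Sg h) (htail Sg h) (htate Sg h))
    (fun Sg h q x y => (hD Sg h).some.pair_eq_zero_iff _ _ q _ x y)
    (fun Sg h => le_refl _)
    Lp hLpfin hLpcard hLplift

/-- **The flat half of S56** from `sha`, `tail`, `tate`, finiteness, (LOC-FL) and `hflat`. -/
theorem s56_flat_of_numeric
    (p : ℕ) [hp : Fact p.Prime] [Algebra (ZMod p) (ResidueField 𝒪)] (hp2 : p ≠ 2)
    (ρbar : ResidualGaloisRep (ResidueField 𝒪))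
    (habs : ρbar.IsAbsolutelyIrreducible)
    (hdet : (GaloisRepAdic.ofResidualGaloisRep ρbar).DetIsCyclotomic p)
    (hsplit : ∀ σ : GQ, ∃ α β : ResidueField 𝒪,
      LinearMap.charpoly (ρbar.ρ σ) = (X - C α) * (X - C β))
    (hTW : ∀ (K : Type) [Field K] [Algebra (ResidueField 𝒪) K] (G : Subgroup GQ), G.index = 2 →
      ∀ V : Submodule K (ρbar.baseChange K).V,
        (∀ σ ∈ G, ∀ x ∈ V, (ρbar.baseChange K).ρ σ x ∈ V) → V = ⊥ ∨ V = ⊤)
    (S Smin : Finset ℕ) (hpSmin : p ∈ Smin) (hSmin : Smin ⊆ S)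
    (hmin : ∀ q : ℕ, q.Prime → q ≠ p → (q ∈ Smin ↔ ¬ ρbar.IsUnramifiedAt q))
    -- (GLOB-NUM)
    (hfin1 : ∀ Sg : Finset Nat.Primes, primesOf Smin ⊆ Sg → Finite (HS1 Sg (resScalars (ZMod p) (ad0Rep (rhoM ρbar)))))
    (hfin1' : ∀ Sg : Finset Nat.Primes, primesOf Smin ⊆ Sg → Finite (HS1 Sg ((resScalars (ZMod p) (ad0Rep (rhoM ρbar))).dualTwist (cycloChar p))))
    (hfin2' : ∀ Sg : Finset Nat.Primes, primesOf Smin ⊆ Sg → Finite (HS2 Sg ((resScalars (ZMod p) (ad0Rep (rhoM ρbar))).dualTwist (cycloChar p))))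
    (hsha : ∀ Sg : Finset Nat.Primes, primesOf Smin ⊆ Sg →
      Nat.card ↥(sha1 Sg (resScalars (ZMod p) (ad0Rep (rhoM ρbar)))) ≤ Nat.card ↥(sha2 Sg ((resScalars (ZMod p) (ad0Rep (rhoM ρbar))).dualTwist (cycloChar p))))
    (htail : ∀ Sg : Finset Nat.Primes, primesOf Smin ⊆ Sg →
      Nat.card ↥(sha2 Sg ((resScalars (ZMod p) (ad0Rep (rhoM ρbar))).dualTwist (cycloChar p))) *
        ∏ q : ↥Sg, Nat.card (Hq2 ((resScalars (ZMod p) (ad0Rep (rhoM ρbar))).dualTwist (cycloChar p)) ((q : Nat.Primes) : ℕ)) ≤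
      Nat.card (HS2 Sg ((resScalars (ZMod p) (ad0Rep (rhoM ρbar))).dualTwist (cycloChar p))) * Nat.card ↥(resScalars (ZMod p) (ad0Rep (rhoM ρbar))).ρ.invariants)
    (htate : ∀ Sg : Finset Nat.Primes, primesOf Smin ⊆ Sg →
      Nat.card ↥((resScalars (ZMod p) (ad0Rep (rhoM ρbar))).dualTwist (cycloChar p)).ρ.invariants * Nat.card (HS2 Sg ((resScalars (ZMod p) (ad0Rep (rhoM ρbar))).dualTwist (cycloChar p))) * Nat.card ((resScalars (ZMod p) (ad0Rep (rhoM ρbar))).dualTwist (cycloChar p)).V ≤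
      Nat.card (HS1 Sg ((resScalars (ZMod p) (ad0Rep (rhoM ρbar))).dualTwist (cycloChar p))) *
        Nat.card {f : ((resScalars (ZMod p) (ad0Rep (rhoM ρbar))).dualTwist (cycloChar p)).V // ((resScalars (ZMod p) (ad0Rep (rhoM ρbar))).dualTwist (cycloChar p)).ρ complexConjugation f = f})
    -- (LOC-FL)
    (Lp : Submodule (ResidueField 𝒪) (Hq1 (ad0Rep (rhoM ρbar)) ((pPrime p : Nat.Primes) : ℕ)))
    (hLpfin : Finite ↥Lp)
    (hLpcard : Nat.card ↥Lp ≤ Nat.card (ResidueField 𝒪) *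
      Nat.card ↥(Mq (ad0Rep (rhoM ρbar)) ((pPrime p : Nat.Primes) : ℕ)).ρ.invariants)
    (hLplift : ∀ (Sig : Finset ℕ) (Sg : Finset Nat.Primes)
      (r : GQ →* M2 (DualNumber (ResidueField 𝒪))) (hr : MatCont r)
      (h : IsLiftOf (rhoM ρbar) r), flCond 𝒪 p Sig Smin (ofMatrix r hr) →
        ∀ (hlev : ∃ U ∈ (levelS Sg).sets, ∀ s ∈ U, r s = 1)
          (htr : ∀ σ, (liftCocycle (rhoM ρbar) r σ).trace = 0),
          resq1 Sg (ad0Rep (rhoM ρbar)) ((pPrime p : Nat.Primes) : ℕ)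
            (liftClass Sg h hlev htr) ∈ Lp)
    (hflat : ∀ (Sig : Finset ℕ) (DQ : DeformationRingData 𝒪 ρbar (flCond 𝒪 p Sig Smin))
      (φ : DQ.R →ₐ[𝒪] DualNumber (ResidueField 𝒪))
      (hφ : IsLocalHom (φ : DQ.R →+* DualNumber (ResidueField 𝒪))),
      (DQ.ρ.baseChangeAlong (φ : DQ.R →+* DualNumber (ResidueField 𝒪)) hφ).IsFlatAt p) :
    ∃ r : ℕ, ∀ n : ℕ, ∃ qv : Fin r → ℕ, Function.Injective qv ∧
      (∀ i, (qv i).Prime ∧ qv i ∉ S ∧ p ^ (n + 1) ∣ qv i - 1) ∧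
      (∀ i, ∀ P : ValuationSubring (AlgebraicClosure ℚ), P.LiesOverPrime (qv i) →
        ∀ φ : AlgebraicClosure ℚ ≃ₐ[ℚ] AlgebraicClosure ℚ, P.IsFrobeniusAt φ (qv i) →
          ∃ α β : ResidueField 𝒪, α ≠ β ∧ LinearMap.charpoly (ρbar.ρ φ) = (X - C α) * (X - C β)) ∧
      ∀ DQ : GaloisRep.DeformationRingData 𝒪 ρbar (fun _A _ _ _ ρ =>
          GaloisRep.flatCondition 𝒪 p (Smin ∪ Finset.univ.image qv) ρ ∧
            ∀ q ∈ Smin, q.Prime → q ≠ p → ρ.IsUnipotentOnInertiaAt q),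
        ∃ γ : MvPowerSeries (Fin r) 𝒪 →ₐ[𝒪] DQ.R, Function.Surjective γ := by
  have hpP : pPrime p ∈ primesOf Smin := mem_primesOf.2 hpSmin
  have hurmin : ∀ Sg : Finset Nat.Primes, primesOf Smin ⊆ Sg → ∀ q : Nat.Primes, q ∉ Sg →
      ρbar.IsUnramifiedAt (q : ℕ) := fun Sg h q hq =>
    Fermat.Agent.TW.GRP.Main3.unramified_of_hmin p ρbar hpSmin (Finset.Subset.refl _) hmin (q : ℕ) q.2
      (fun h' => hq (h (mem_primesOf.2 h')))
  have hD : ∀ Sg : Finset Nat.Primes, primesOf Smin ⊆ Sg → Nonempty (InvData p Sg) :=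
    fun Sg h => exists_invData p Sg hp2 (h hpP)
  exact s56_flat_of_glob_fl_rel p hp2 ρbar habs hdet hsplit hTW S Smin hpSmin hSmin hmin
    (fun q x y => cupq p (resScalars (ZMod p) (ad0Rep (rhoM ρbar))) (q : ℕ)
      (isDiscrete_Mq_dualTwist p ρbar (primesOf Smin) hpP (hurmin _ (Finset.Subset.refl _)) (q : ℕ))
      x y = 0)
    (fun q y h => Fermat.Agent.TW.LOC.CupDualityMu2.cupq_right_nondegenerate p (resScalars (ZMod p) (ad0Rep (rhoM ρbar))) (q : ℕ)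
      (isDiscrete_Mq_resScalars p ρbar (q : ℕ)) _ y h)
    (fun Sg h => gwInputs p ρbar hp2 hdet Sg (h hpP) (hurmin Sg h) (hD Sg h).some (hfin1 Sg h)
      (hfin1' Sg h) (hfin2' Sg h) (hsha Sg h) (htail Sg h) (htate Sg h))
    (fun Sg h q x y => (hD Sg h).some.pair_eq_zero_iff _ _ q _ x y)
    (fun Sg h => le_refl _)
    Lp hLpfin hLpcard hLplift hflat

end Main

end

end Fermat.Agent.TW.ASM.GlobPack8
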