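/-
Programme T (S56, Taylor–Wiles primes), chapter ASM (helper8): THE (GLOB') PACKAGE, `sha` AND FINITENESS
DISCHARGED; S56 FROM `tail` AND `tate` ONLY.

`GlobPack8` with the hypotheses `hsha` (`GLOB/ShaCount8.card_sha1` = statement S55 as a count) and
`hfin1`, `hfin1'`, `hfin2'` (`GLOB/FiniteHS6`) removed:
* `smooth_ad0`, `unram_ad0` : the hypotheses `hsm`, `hMur` of S55 for
  `M = resScalars (ZMod p) (ad0Rep (rhoM ρbar))`; `isDiscrete_resScalars_levelS`;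
* `card_sha1_ad0` : `#Ш¹_Σ(M) = #Ш²_Σ(M')` (+ finiteness) for `Σ ∋ p` outside which `ρ̄` is unramified;
* `exists_glob_of_tail_tate` : the (GLOB') package of `AssemblyRel8` from `tail`, `tate`;
* `s56_of_tail_tate` : BOTH conjuncts of S56 from the hypotheses of S56 and the two numerical
  statements `tail`, `tate` for `M = ad⁰ρ̄` (everything else — (LOC-SO), (LOC-FL) ordinary and
  local-local, `hflat`, `sha`, finiteness, `arch`, `loc02`, reciprocity — is discharged).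
-/
import Mathlib
import Fermat.Agent.TW.ASM.GlobPack8
import Fermat.Agent.TW.GLOB.ShaCount8
import Fermat.Agent.TW.FLAT.FlatBaseChange8
import Fermat.Agent.TW.GLOB.FiniteHS6
import Fermat.Agent.TW.ASM.AssemblySOFinal2
import Fermat.Agent.TW.ASM.AssemblyFLFinal7
import Fermat.Agent.TW.FLAT.LLLocal3

set_option autoImplicit false
set_option linter.unusedSectionVars false
set_option linter.style.haveILetI false

open groupCohomology Polynomial IsLocalRing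
open Fermat.Agent.PT.PRO.LevelCoh28 Fermat.Agent.PT.PRO.LevelCohRes28
open Fermat.Agent.PT.GLUE.Objects21
open Fermat.Agent.S53 (matrixOfBasisRes MatCont ofMatrix)
open Fermat.Agent.TW.DEF.Basic1 Fermat.Agent.TW.DEF.ScalarRes8 Fermat.Agent.TW.DEF.Mu1
open Fermat.Agent.TW.DEF.LiftCocycle1 Fermat.Agent.TW.DEF.CondStable8
open Fermat.Agent.TW.GRP.Bridge3 Fermat.Agent.TW.GRP.CycSub3
open Fermat.Agent.TW.GLOB.GWNumeric1 Fermat.Agent.TW.GLOB.InvRecip1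
open Fermat.Agent.TW.ASM.TraceDual8 Fermat.Agent.TW.ASM.AsmLemmas8
open Fermat.Agent.TW.ASM.Assembly8 Fermat.Agent.TW.ASM.AssemblyRel8 Fermat.Agent.TW.ASM.ArchCount8
open Fermat.Agent.TW.ASM.GlobPack8
open ExtCitation GaloisRep

namespace Fermat.Agent.TW.ASM.GlobSha8

noncomputable section

section Sha

variable (p : ℕ) [hp : Fact p.Prime] {k : Type} [Field k] [Finite k] [Algebra (ZMod p) k]
  (ρbar : ResidualGaloisRep k)

/-- `ad⁰ρ̄` is smooth (hypothesis `hsm` of S55). -/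
theorem smooth_ad0 (m : (resScalars (ZMod p) (ad0Rep (rhoM ρbar))).V) :
    ∃ F : IntermediateField ℚ (AlgebraicClosure ℚ), FiniteDimensional ℚ F ∧
      ∀ s ∈ F.fixingSubgroup, (resScalars (ZMod p) (ad0Rep (rhoM ρbar))).ρ s m = m := by
  obtain ⟨L, hL, hL1⟩ := rhoM_finiteLevel ρbar
  refine ⟨L, hL, fun s hs => ?_⟩
  have h1 : rhoM ρbar s = 1 := hL1 s fun x hx => by
    rw [IntermediateField.mem_fixingSubgroup_iff] at hs
    exact hs x hx
  rw [resScalars_ρ_eq_one (ZMod p) _ (ad0Rep_ρ_eq_one_of_rbar_eq_one (rhoM ρbar) h1)]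
  rfl

/-- `ad⁰ρ̄` is unramified outside `Σ` (hypothesis `hMur` of S55). -/
theorem unram_ad0 (Sg : Finset Nat.Primes)
    (hur : ∀ q : Nat.Primes, q ∉ Sg → ρbar.IsUnramifiedAt (q : ℕ))
    (q : Nat.Primes) (hq : q ∉ Sg) (A : ValuationSubring (AlgebraicClosure ℚ))
    (hA : A.LiesOverPrime (q : ℕ)) (g : GQ) (hg : g ∈ A.inertiaSubgroupIn ℚ) :
    (resScalars (ZMod p) (ad0Rep (rhoM ρbar))).ρ g = 1 :=
  resScalars_ρ_eq_one (ZMod p) _
    (ad0Rep_ρ_eq_one_of_rbar_eq_one (rhoM ρbar) (rhoM_inertia ρbar (hur q hq) A hA hg))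

/-- **`#Ш¹_Σ(ad⁰ρ̄) = #Ш²_Σ((ad⁰ρ̄)^*(1))`** (statement S55). -/
theorem card_sha1_ad0 (hp2 : p ≠ 2) (Sg : Finset Nat.Primes) (hpSg : pPrime p ∈ Sg)
    (hur : ∀ q : Nat.Primes, q ∉ Sg → ρbar.IsUnramifiedAt (q : ℕ)) :
    Finite ↥(sha1 Sg (resScalars (ZMod p) (ad0Rep (rhoM ρbar)))) ∧
      Finite ↥(sha2 Sg ((resScalars (ZMod p) (ad0Rep (rhoM ρbar))).dualTwist (cycloChar p))) ∧
      Nat.card ↥(sha1 Sg (resScalars (ZMod p) (ad0Rep (rhoM ρbar)))) =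
        Nat.card ↥(sha2 Sg ((resScalars (ZMod p) (ad0Rep (rhoM ρbar))).dualTwist (cycloChar p))) :=
  Fermat.Agent.TW.GLOB.ShaCount8.card_sha1 hp2 Sg hpSg
    (resScalars (ZMod p) (ad0Rep (rhoM ρbar))) (smooth_ad0 p ρbar) (unram_ad0 p ρbar Sg hur)

/-- `M = ad⁰ρ̄` is a discrete `G_Σ`-module (`ρ̄` unramified outside `Σ`). -/
theorem isDiscrete_resScalars_levelS (Sg : Finset Nat.Primes)
    (hur : ∀ q : Nat.Primes, q ∉ Sg → ρbar.IsUnramifiedAt (q : ℕ)) :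
    IsDiscrete (levelS Sg).sets (resScalars (ZMod p) (ad0Rep (rhoM ρbar))) := by
  obtain ⟨U, hU, hU1⟩ := exists_levelS_rhoM_eq_one ρbar Sg hur
  intro a
  refine ⟨U, hU, fun s hs => ?_⟩
  rw [resScalars_ρ_eq_one (ZMod p) _ (ad0Rep_ρ_eq_one_of_rbar_eq_one (rhoM ρbar) (hU1 s hs))]
  rfl

instance finite_resScalars_ad0 : Finite (resScalars (ZMod p) (ad0Rep (rhoM ρbar))).V :=
  Module.finite_of_finite (ZMod p)

/-- **The (GLOB') package** of `AssemblyRel8` from `tail` and `tate` only. -/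
theorem exists_glob_of_tail_tate (hp2 : p ≠ 2)
    (hdet : (GaloisRepAdic.ofResidualGaloisRep ρbar).DetIsCyclotomic p)
    (Smin : Finset ℕ) (hpSmin : p ∈ Smin)
    (hmin : ∀ q : ℕ, q.Prime → q ≠ p → (q ∈ Smin ↔ ¬ ρbar.IsUnramifiedAt q))
    (htail : ∀ Sg : Finset Nat.Primes, primesOf Smin ⊆ Sg →
      Nat.card ↥(sha2 Sg ((resScalars (ZMod p) (ad0Rep (rhoM ρbar))).dualTwist (cycloChar p))) *
        ∏ q : ↥Sg, Nat.card (Hq2 ((resScalars (ZMod p) (ad0Rep (rhoM ρbar))).dualTwist (cycloChar p)) ((q : Nat.Primes) : ℕ)) ≤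
      Nat.card (HS2 Sg ((resScalars (ZMod p) (ad0Rep (rhoM ρbar))).dualTwist (cycloChar p))) * Nat.card ↥(resScalars (ZMod p) (ad0Rep (rhoM ρbar))).ρ.invariants)
    (htate : ∀ Sg : Finset Nat.Primes, primesOf Smin ⊆ Sg →
      Nat.card ↥((resScalars (ZMod p) (ad0Rep (rhoM ρbar))).dualTwist (cycloChar p)).ρ.invariants * Nat.card (HS2 Sg ((resScalars (ZMod p) (ad0Rep (rhoM ρbar))).dualTwist (cycloChar p))) * Nat.card ((resScalars (ZMod p) (ad0Rep (rhoM ρbar))).dualTwist (cycloChar p)).V ≤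
      Nat.card (HS1 Sg ((resScalars (ZMod p) (ad0Rep (rhoM ρbar))).dualTwist (cycloChar p))) *
        Nat.card {f : ((resScalars (ZMod p) (ad0Rep (rhoM ρbar))).dualTwist (cycloChar p)).V // ((resScalars (ZMod p) (ad0Rep (rhoM ρbar))).dualTwist (cycloChar p)).ρ complexConjugation f = f}) :
    ∃ (Z : ∀ q : Nat.Primes, Hq1 (resScalars (ZMod p) (ad0Rep (rhoM ρbar))) (q : ℕ) → Hq1 ((resScalars (ZMod p) (ad0Rep (rhoM ρbar))).dualTwist (cycloChar p)) (q : ℕ) → Prop)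
      (I : ∀ Sg : Finset Nat.Primes, primesOf Smin ⊆ Sg → GWInputs Sg (resScalars (ZMod p) (ad0Rep (rhoM ρbar))) ((resScalars (ZMod p) (ad0Rep (rhoM ρbar))).dualTwist (cycloChar p))),
      (∀ (q : Nat.Primes) (y : Hq1 ((resScalars (ZMod p) (ad0Rep (rhoM ρbar))).dualTwist (cycloChar p)) (q : ℕ)), (∀ x, Z q x y) → y = 0) ∧
      (∀ (Sg : Finset Nat.Primes) (h : primesOf Smin ⊆ Sg) (q : ↥Sg) x y,
        (I Sg h).pair q x y = 0 ↔ Z q x y) ∧
      ∀ (Sg : Finset Nat.Primes) (h : primesOf Smin ⊆ Sg), Nat.card k ≤ (I Sg h).r0 := by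
  have hpP : pPrime p ∈ primesOf Smin := mem_primesOf.2 hpSmin
  have hurmin : ∀ Sg : Finset Nat.Primes, primesOf Smin ⊆ Sg → ∀ q : Nat.Primes, q ∉ Sg →
      ρbar.IsUnramifiedAt (q : ℕ) := fun Sg h q hq =>
    Fermat.Agent.TW.GRP.Main3.unramified_of_hmin p ρbar hpSmin (Finset.Subset.refl _) hmin (q : ℕ) q.2
      (fun h' => hq (h (mem_primesOf.2 h')))
  have hsha := fun (Sg : Finset Nat.Primes) (h : primesOf Smin ⊆ Sg) =>
    card_sha1_ad0 p ρbar hp2 Sg (h hpP) (hurmin Sg h)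
  have hdisc := fun (Sg : Finset Nat.Primes) (h : primesOf Smin ⊆ Sg) =>
    isDiscrete_resScalars_levelS p ρbar Sg (hurmin Sg h)
  refine exists_glob_of_numeric p ρbar hp2 hdet Smin hpSmin hmin
    (fun Sg h => Fermat.Agent.TW.GLOB.FiniteHS6.finite_HS1 Sg (h hpP) _ (hdisc Sg h))
    (fun Sg h => Fermat.Agent.TW.GLOB.FiniteHS6.finite_HS1_dualTwist Sg (h hpP) _ (hdisc Sg h))
    (fun Sg h => ?_)
    (fun Sg h => (hsha Sg h).2.2.le) htail htate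
  haveI := (hsha Sg h).2.1
  haveI : ∀ q : ↥Sg, Finite (Hq2 ((resScalars (ZMod p) (ad0Rep (rhoM ρbar))).dualTwist (cycloChar p))
      ((q : Nat.Primes) : ℕ)) := fun q =>
    Fermat.Agent.TW.GLOB.FiniteHS6.finite_Hq2_dualTwist Sg _ (hdisc Sg h) ((q : Nat.Primes) : ℕ)
  exact Fermat.Agent.TW.GLOB.FiniteHS6.finite_HS2_of_sha2 Sg _

end Sha

/-! ### S56 from `tail` and `tate` -/

section Main

variable {𝒪 : Type} [CommRing 𝒪] [IsDomain 𝒪] [IsDiscreteValuationRing 𝒪]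
  [IsAdicComplete (maximalIdeal 𝒪) 𝒪] [Finite (ResidueField 𝒪)]

/-- **S56 (both conjuncts)** from its own hypotheses and the two numerical global statements
`tail`, `tate` for `M = ad⁰ρ̄`, `M' = M^*(1)`. -/
theorem s56_of_tail_tate
    (p : ℕ) [hp : Fact p.Prime] [Algebra (ZMod p) (ResidueField 𝒪)] (hp2 : p ≠ 2)
    (ρbar : ResidualGaloisRep (ResidueField 𝒪))
    (habs : ρbar.IsAbsolutelyIrreducible)
    (hdet : (GaloisRepAdic.ofResidualGaloisRep ρbar).DetIsCyclotomic p)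
    (hsplit : ∀ σ : GQ, ∃ α β : ResidueField 𝒪,
      LinearMap.charpoly (ρbar.ρ σ) = (X - C α) * (X - C β))
    (hTW : ∀ (K : Type) [Field K] [Algebra (ResidueField 𝒪) K] (G : Subgroup GQ), G.index = 2 →
      ∀ V : Submodule K (ρbar.baseChange K).V,
        (∀ σ ∈ G, ∀ x ∈ V, (ρbar.baseChange K).ρ σ x ∈ V) → V = ⊥ ∨ V = ⊤)
    (S Smin : Finset ℕ) (hpSmin : p ∈ Smin) (hSmin : Smin ⊆ S)
    (hmin : ∀ q : ℕ, q.Prime → q ≠ p → (q ∈ Smin ↔ ¬ ρbar.IsUnramifiedAt q))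
    (htail : ∀ Sg : Finset Nat.Primes, primesOf Smin ⊆ Sg →
      Nat.card ↥(sha2 Sg ((resScalars (ZMod p) (ad0Rep (rhoM ρbar))).dualTwist (cycloChar p))) *
        ∏ q : ↥Sg, Nat.card (Hq2 ((resScalars (ZMod p) (ad0Rep (rhoM ρbar))).dualTwist (cycloChar p)) ((q : Nat.Primes) : ℕ)) ≤
      Nat.card (HS2 Sg ((resScalars (ZMod p) (ad0Rep (rhoM ρbar))).dualTwist (cycloChar p))) * Nat.card ↥(resScalars (ZMod p) (ad0Rep (rhoM ρbar))).ρ.invariants)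
    (htate : ∀ Sg : Finset Nat.Primes, primesOf Smin ⊆ Sg →
      Nat.card ↥((resScalars (ZMod p) (ad0Rep (rhoM ρbar))).dualTwist (cycloChar p)).ρ.invariants * Nat.card (HS2 Sg ((resScalars (ZMod p) (ad0Rep (rhoM ρbar))).dualTwist (cycloChar p))) * Nat.card ((resScalars (ZMod p) (ad0Rep (rhoM ρbar))).dualTwist (cycloChar p)).V ≤
      Nat.card (HS1 Sg ((resScalars (ZMod p) (ad0Rep (rhoM ρbar))).dualTwist (cycloChar p))) *
        Nat.card {f : ((resScalars (ZMod p) (ad0Rep (rhoM ρbar))).dualTwist (cycloChar p)).V // ((resScalars (ZMod p) (ad0Rep (rhoM ρbar))).dualTwist (cycloChar p)).ρ complexConjugation f = f}) :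
    (∃ r : ℕ, ∀ n : ℕ, ∃ qv : Fin r → ℕ, Function.Injective qv ∧
      (∀ i, (qv i).Prime ∧ qv i ∉ S ∧ p ^ (n + 1) ∣ qv i - 1) ∧
      (∀ i, ∀ P : ValuationSubring (AlgebraicClosure ℚ), P.LiesOverPrime (qv i) →
        ∀ φ : AlgebraicClosure ℚ ≃ₐ[ℚ] AlgebraicClosure ℚ, P.IsFrobeniusAt φ (qv i) →
          ∃ α β : ResidueField 𝒪, α ≠ β ∧ LinearMap.charpoly (ρbar.ρ φ) = (X - C α) * (X - C β)) ∧
      ∀ DQ : GaloisRep.DeformationRingData 𝒪 ρbar (fun _A _ _ _ ρ =>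
          GaloisRep.strictOrdinaryCondition 𝒪 p (Smin ∪ Finset.univ.image qv) ρ ∧
            ∀ q ∈ Smin, q.Prime → q ≠ p → ρ.IsUnipotentOnInertiaAt q),
        ∃ γ : MvPowerSeries (Fin r) 𝒪 →ₐ[𝒪] DQ.R, Function.Surjective γ) ∧
    (∃ r : ℕ, ∀ n : ℕ, ∃ qv : Fin r → ℕ, Function.Injective qv ∧
      (∀ i, (qv i).Prime ∧ qv i ∉ S ∧ p ^ (n + 1) ∣ qv i - 1) ∧
      (∀ i, ∀ P : ValuationSubring (AlgebraicClosure ℚ), P.LiesOverPrime (qv i) →
        ∀ φ : AlgebraicClosure ℚ ≃ₐ[ℚ] AlgebraicClosure ℚ, P.IsFrobeniusAt φ (qv i) →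
          ∃ α β : ResidueField 𝒪, α ≠ β ∧ LinearMap.charpoly (ρbar.ρ φ) = (X - C α) * (X - C β)) ∧
      ∀ DQ : GaloisRep.DeformationRingData 𝒪 ρbar (fun _A _ _ _ ρ =>
          GaloisRep.flatCondition 𝒪 p (Smin ∪ Finset.univ.image qv) ρ ∧
            ∀ q ∈ Smin, q.Prime → q ≠ p → ρ.IsUnipotentOnInertiaAt q),
        ∃ γ : MvPowerSeries (Fin r) 𝒪 →ₐ[𝒪] DQ.R, Function.Surjective γ) := by
  obtain ⟨Z, I, hnd, hI, hr0⟩ :=
    exists_glob_of_tail_tate p ρbar hp2 hdet Smin hpSmin hmin htail htate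
  refine ⟨Fermat.Agent.TW.ASM.AssemblySOFinal2.s56_strictOrdinary_of_glob p hp2 ρbar habs hdet
      hsplit hTW S Smin hpSmin hSmin hmin Z hnd I hI hr0,
    Fermat.Agent.TW.ASM.AssemblyFLFinal7.s56_flat_of_glob_ll p hp2 ρbar habs hdet
      hsplit hTW S Smin hpSmin hSmin hmin Z hnd I hI hr0 ?_ ?_⟩
  · intro hll
    exact Fermat.Agent.TW.FLAT.LLLocal3.exists_Lp_ll hp2 (rhoM ρbar)
      (Fermat.Agent.TW.LOC.TWLocalAd4.isLevelAt_of_global (rhoM_finiteLevel ρbar))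
      (fun τ _ c hc => Fermat.Agent.TW.FLAT.LocFlWrap7.det_rhoM_of_isCycExp ρbar hdet τ c hc)
      hll
      (fun g => by
        obtain ⟨α, β, h⟩ := hsplit g
        exact ⟨α, β, by rw [charpoly_rhoM]; exact h⟩)
  · exact fun Sig DQ φ hφ =>
      Fermat.Agent.TW.FLAT.FlatBaseChange8.isFlatAt_baseChangeAlong_dualNumber p Sig Smin DQ φ hφ

end Main

end

end Fermat.Agent.TW.ASM.GlobSha8
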