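/-
Programme T (S56, Taylor–Wiles primes), chapter ASM (helper8): S56 IN ITS FROZEN SHAPE FROM THE TWO
GENERAL NUMERICAL GLOBAL STATEMENTS.

`s56_of_general` has the hypotheses of statement S56 verbatim (including `hp𝒪`, `hS`; the
`Algebra (ZMod p) (ResidueField 𝒪)` structure is built inside from `hp𝒪`) plus
* `TailHyp p` : for every `Σ ∋ p` and every finite discrete `G_Σ`-module `X`, `X' = X^*(1)`:
    `#Ш²_Σ(X') · ∏_{q ∈ Σ} #H²(ℚ_q, X') ≤ #H²(G_Σ, X') · #H⁰(G_Σ, X)`;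
* `TateHyp p` : for every `Σ ∋ p` and every finite discrete `G_Σ`-module `Y`:
    `#H⁰(G_Σ, Y) · #H²(G_Σ, Y) · #Y ≤ #H¹(G_Σ, Y) · #Y^{c = 1}` (global Euler characteristic, `≤`),
and concludes S56.  So `Fermat.Agent.S56.result := s56_of_general … tail tate`.
-/
import Mathlib
import Fermat.Agent.TW.ASM.GlobSha8

set_option autoImplicit false
set_option linter.unusedSectionVars false
set_option linter.unusedVariables false
set_option linter.style.haveILetI false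

open groupCohomology Polynomial IsLocalRing
open Fermat.Agent.PT.PRO.LevelCoh28 Fermat.Agent.PT.GLUE.Objects21
open Fermat.Agent.TW.DEF.Basic1 Fermat.Agent.TW.DEF.ScalarRes8
open Fermat.Agent.TW.GRP.Bridge3 Fermat.Agent.TW.GRP.CycSub3
open Fermat.Agent.TW.GLOB.GWNumeric1
open Fermat.Agent.TW.ASM.Assembly8 Fermat.Agent.TW.ASM.GlobPack8 Fermat.Agent.TW.ASM.GlobSha8
open ExtCitation GaloisRep

namespace Fermat.Agent.TW.ASM.S56Wrap8

noncomputable section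

/-- (A3) `tail≤` for general finite discrete `X`, in the shape of `GWInputs.tail`. -/
def TailHyp (p : ℕ) [Fact p.Prime] : Prop :=
  ∀ (Sg : Finset Nat.Primes) (X : Rep.{0} (ZMod p) GQ) [Finite X], pPrime p ∈ Sg →
    IsDiscrete (levelS Sg).sets X →
    Nat.card ↥(sha2 Sg (X.dualTwist (cycloChar p))) *
        ∏ q : ↥Sg, Nat.card (Hq2 (X.dualTwist (cycloChar p)) ((q : Nat.Primes) : ℕ)) ≤
      Nat.card (HS2 Sg (X.dualTwist (cycloChar p))) * Nat.card ↥X.ρ.invariants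

/-- Tate's global Euler characteristic formula (as `≤`) for general finite discrete `Y`, in the
shape of `GWInputs.tate`. -/
def TateHyp (p : ℕ) [Fact p.Prime] : Prop :=
  ∀ (Sg : Finset Nat.Primes) (Y : Rep.{0} (ZMod p) GQ) [Finite Y], pPrime p ∈ Sg →
    IsDiscrete (levelS Sg).sets Y →
    Nat.card ↥Y.ρ.invariants * Nat.card (HS2 Sg Y) * Nat.card Y.V ≤
      Nat.card (HS1 Sg Y) * Nat.card {f : Y.V // Y.ρ complexConjugation f = f}

variable {𝒪 : Type} [CommRing 𝒪] [IsDomain 𝒪] [IsDiscreteValuationRing 𝒪]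
  [IsAdicComplete (maximalIdeal 𝒪) 𝒪] [Finite (ResidueField 𝒪)]

/-- **Statement S56** from `TailHyp p` and `TateHyp p`. -/
theorem s56_of_general
    (p : ℕ) [hp : Fact p.Prime] (hp2 : p ≠ 2) (hp𝒪 : (p : 𝒪) ∈ maximalIdeal 𝒪)
    (ρbar : ResidualGaloisRep (ResidueField 𝒪))
    (habs : ρbar.IsAbsolutelyIrreducible)
    (hdet : (GaloisRepAdic.ofResidualGaloisRep ρbar).DetIsCyclotomic p)
    (hsplit : ∀ σ : AlgebraicClosure ℚ ≃ₐ[ℚ] AlgebraicClosure ℚ,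
      ∃ α β : ResidueField 𝒪, LinearMap.charpoly (ρbar.ρ σ) = (X - C α) * (X - C β))
    (hTW : ∀ (K : Type) [Field K] [Algebra (ResidueField 𝒪) K]
      (G : Subgroup (AlgebraicClosure ℚ ≃ₐ[ℚ] AlgebraicClosure ℚ)), G.index = 2 →
      ∀ V : Submodule K (ρbar.baseChange K).V,
        (∀ σ ∈ G, ∀ x ∈ V, (ρbar.baseChange K).ρ σ x ∈ V) → V = ⊥ ∨ V = ⊤)
    (S Smin : Finset ℕ) (hpSmin : p ∈ Smin) (hSmin : Smin ⊆ S) (hS : ∀ q ∈ S, q.Prime)
    (hmin : ∀ q : ℕ, q.Prime → q ≠ p → (q ∈ Smin ↔ ¬ ρbar.IsUnramifiedAt q))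
    (htail : TailHyp p) (htate : TateHyp p) :
    (∃ r : ℕ, ∀ n : ℕ, ∃ qv : Fin r → ℕ, Function.Injective qv ∧
      (∀ i, (qv i).Prime ∧ qv i ∉ S ∧ p ^ (n + 1) ∣ qv i - 1) ∧
      (∀ i, ∀ P : ValuationSubring (AlgebraicClosure ℚ), P.LiesOverPrime (qv i) →
        ∀ φ : AlgebraicClosure ℚ ≃ₐ[ℚ] AlgebraicClosure ℚ, P.IsFrobeniusAt φ (qv i) →
          ∃ α β : ResidueField 𝒪, α ≠ β ∧ LinearMap.charpoly (ρbar.ρ φ) = (X - C α) * (X - C β)) ∧
      ∀ DQ : GaloisRep.DeformationRingData 𝒪 ρbar (fun _A _ _ _ ρ =>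
          GaloisRep.strictOrdinaryCondition 𝒪 p (Smin ∪ Finset.univ.image qv) ρ ∧
            ∀ q ∈ Smin, q.Prime → q ≠ p → ρ.IsUnipotentOnInertiaAt q),
        ∃ γ : MvPowerSeries (Fin r) 𝒪 →ₐ[𝒪] DQ.R, Function.Surjective γ) ∧
    (∃ r : ℕ, ∀ n : ℕ, ∃ qv : Fin r → ℕ, Function.Injective qv ∧
      (∀ i, (qv i).Prime ∧ qv i ∉ S ∧ p ^ (n + 1) ∣ qv i - 1) ∧
      (∀ i, ∀ P : ValuationSubring (AlgebraicClosure ℚ), P.LiesOverPrime (qv i) →
        ∀ φ : AlgebraicClosure ℚ ≃ₐ[ℚ] AlgebraicClosure ℚ, P.IsFrobeniusAt φ (qv i) →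
          ∃ α β : ResidueField 𝒪, α ≠ β ∧ LinearMap.charpoly (ρbar.ρ φ) = (X - C α) * (X - C β)) ∧
      ∀ DQ : GaloisRep.DeformationRingData 𝒪 ρbar (fun _A _ _ _ ρ =>
          GaloisRep.flatCondition 𝒪 p (Smin ∪ Finset.univ.image qv) ρ ∧
            ∀ q ∈ Smin, q.Prime → q ≠ p → ρ.IsUnipotentOnInertiaAt q),
        ∃ γ : MvPowerSeries (Fin r) 𝒪 →ₐ[𝒪] DQ.R, Function.Surjective γ) := by
  have hp0 : ((p : ℕ) : ResidueField 𝒪) = 0 := by
    have h := (IsLocalRing.residue_eq_zero_iff (p : 𝒪)).2 hp𝒪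
    rwa [map_natCast] at h
  haveI hchar : CharP (ResidueField 𝒪) p := (CharP.charP_iff_prime_eq_zero hp.out).mpr hp0
  letI : Algebra (ZMod p) (ResidueField 𝒪) := ZMod.algebra _ p
  have hpP : pPrime p ∈ primesOf Smin := mem_primesOf.2 hpSmin
  have hurmin : ∀ Sg : Finset Nat.Primes, primesOf Smin ⊆ Sg → ∀ q : Nat.Primes, q ∉ Sg →
      ρbar.IsUnramifiedAt (q : ℕ) := fun Sg h q hq =>
    Fermat.Agent.TW.GRP.Main3.unramified_of_hmin p ρbar hpSmin (Finset.Subset.refl _) hmin (q : ℕ) q.2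
      (fun h' => hq (h (mem_primesOf.2 h')))
  exact s56_of_tail_tate p hp2 ρbar habs hdet hsplit hTW S Smin hpSmin hSmin hmin
    (fun Sg h => htail Sg (resScalars (ZMod p) (ad0Rep (rhoM ρbar))) (h hpP)
      (isDiscrete_resScalars_levelS p ρbar Sg (hurmin Sg h)))
    (fun Sg h => htate Sg ((resScalars (ZMod p) (ad0Rep (rhoM ρbar))).dualTwist (cycloChar p))
      (h hpP) (isDiscrete_dualTwist_levelS p ρbar Sg (h hpP) (hurmin Sg h)))

end

end Fermat.Agent.TW.ASM.S56Wrap8
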