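/-
Programme T (S56, Taylor–Wiles primes), chapter ASM: the FLAT half of S56 from the global inputs
(GLOB') ONLY.  Owner: helper7.

Wiring of `AssemblyFLFinal7.s56_flat_of_glob_ll` with
* `LLLocalFinal2.exists_Lp_ll` (helper2/helper3/helper4/…: the local-local case of (LOC-FL)),
* `BaseChangeFlat6.hflat` (helper6: flatness of the base changes to `k[ε]`),
* the bridge `hsplit_rhoM` from the S56 hypothesis `hsplit` (characteristic polynomials of the
  linear maps `ρbar.ρ σ`) to the matrix form on `Gq p` used by the local-local package.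

`locFlPackage_rhoM` : (LOC-FL) for `rhoM ρbar`, unconditional (from the S56 hypotheses
`hdet`, `hsplit`).
`s56_flat_of_glob` : second conjunct of S56 from the S56 hypotheses and the relational
Greenberg–Wiles package (GLOB') of `AssemblyRel8` only — the exact analogue of
`AssemblySOFinal2.s56_strictOrdinary_of_glob`.
-/
import Mathlib
import Fermat.Agent.TW.ASM.AssemblyFLFinal7
import Fermat.Agent.TW.FLAT.LLLocalFinal2
import Fermat.Agent.TW.FLAT.BaseChangeFlat6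

set_option autoImplicit false
set_option linter.unusedSectionVars false
set_option linter.style.haveILetI false

open groupCohomology Polynomial IsLocalRing
open Fermat.Agent.PT.PRO.LevelCoh28 Fermat.Agent.PT.GLUE.Objects21
open Fermat.Agent.TW.DEF.Basic1 Fermat.Agent.TW.DEF.ScalarRes8
open Fermat.Agent.TW.DEF.CondStable8
open Fermat.Agent.TW.GRP.Bridge3 Fermat.Agent.TW.GRP.CycSub3
open Fermat.Agent.TW.GLOB.GWNumeric1
open Fermat.Agent.TW.ASM.Assembly8
open Fermat.Agent.TW.FLAT.LocFlWrap7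
open ExtCitation GaloisRep

namespace Fermat.Agent.TW.ASM.AssemblyFLGlob7

noncomputable section

/-- The hypothesis `hsplit` of S56 in the matrix form on the decomposition group at `p`. -/
theorem hsplit_rhoM {k : Type} [Field k] (p : ℕ) [Fact p.Prime] (ρbar : ResidualGaloisRep k)
    (hsplit : ∀ σ : GQ, ∃ α β : k, LinearMap.charpoly (ρbar.ρ σ) = (X - C α) * (X - C β))
    (g : Fermat.Agent.TW.LOC.Defs2.Gq p) :
    ∃ α β : k, (rhoM ρbar (Fermat.Agent.TW.LOC.Defs2.rq p g)).charpoly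
      = (X - C α) * (X - C β) := by
  obtain ⟨α, β, h⟩ := hsplit (Fermat.Agent.TW.LOC.Defs2.rq p g)
  exact ⟨α, β, by rw [charpoly_rhoM, h]⟩

/-- **(LOC-FL) for `rhoM ρbar`, unconditional**: a local condition at `p` of size
`≤ #k · #H⁰(ℚ_p, ad⁰ρ̄)` containing the classes of all lifts to `k[ε]` which are flat at `p`. -/
theorem locFlPackage_rhoM {k : Type} [Field k] [Finite k] {p : ℕ} [Fact p.Prime]
    [Algebra (ZMod p) k] (hp2 : p ≠ 2) (ρbar : ResidualGaloisRep k)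
    (hdet : (GaloisRepAdic.ofResidualGaloisRep ρbar).DetIsCyclotomic p)
    (hsplit : ∀ σ : GQ, ∃ α β : k, LinearMap.charpoly (ρbar.ρ σ) = (X - C α) * (X - C β)) :
    LocFlPackage p (rhoM ρbar) := by
  haveI : CharP k p := charP_of_injective_algebraMap (algebraMap (ZMod p) k).injective p
  refine locFlPackage_rhoM_of_ll hp2 ρbar hdet (fun hll => ?_)
  exact Fermat.Agent.TW.FLAT.LLLocalFinal2.exists_Lp_ll hp2 (rhoM ρbar)
    (Fermat.Agent.TW.LOC.TWLocalAd4.isLevelAt_of_global (rhoM_finiteLevel ρbar))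
    (fun τ _ c hc => det_rhoM_of_isCycExp ρbar hdet τ c hc) hll
    (hsplit_rhoM p ρbar hsplit)

variable {𝒪 : Type} [CommRing 𝒪] [IsDomain 𝒪] [IsDiscreteValuationRing 𝒪]
  [IsAdicComplete (maximalIdeal 𝒪) 𝒪] [Finite (ResidueField 𝒪)]

/-- **The flat half of S56** from (GLOB') only. -/
theorem s56_flat_of_glob
    (p : ℕ) [hp : Fact p.Prime] [Algebra (ZMod p) (ResidueField 𝒪)] (hp2 : p ≠ 2)
    (ρbar : ResidualGaloisRep (ResidueField 𝒪))
    (habs : ρbar.IsAbsolutelyIrreducible)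
    (hdet : (GaloisRepAdic.ofResidualGaloisRep ρbar).DetIsCyclotomic p)
    (hsplit : ∀ σ : GQ, ∃ α β : ResidueField 𝒪,
      LinearMap.charpoly (ρbar.ρ σ) = (X - C α) * (X - C β))
    (hTW : ∀ (K : Type) [Field K] [Algebra (ResidueField 𝒪) K] (G : Subgroup GQ), G.index = 2 →
      ∀ V : Submodule K (ρbar.baseChange K).V,
        (∀ σ ∈ G, ∀ x ∈ V, (ρbar.baseChange K).ρ σ x ∈ V) → V = ⊥ ∨ V = ⊤)
    (S Smin : Finset ℕ) (hpSmin : p ∈ Smin) (hSmin : Smin ⊆ S)
    (hmin : ∀ q : ℕ, q.Prime → q ≠ p → (q ∈ Smin ↔ ¬ ρbar.IsUnramifiedAt q))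
    -- (GLOB')
    (Z : ∀ q : Nat.Primes,
      Hq1 (resScalars (ZMod p) (ad0Rep (rhoM ρbar))) (q : ℕ) →
        Hq1 ((resScalars (ZMod p) (ad0Rep (rhoM ρbar))).dualTwist (cycloChar p)) (q : ℕ) → Prop)
    (hnd : ∀ (q : Nat.Primes)
      (y : Hq1 ((resScalars (ZMod p) (ad0Rep (rhoM ρbar))).dualTwist (cycloChar p)) (q : ℕ)),
      (∀ x, Z q x y) → y = 0)
    (I : ∀ Sg : Finset Nat.Primes, primesOf Smin ⊆ Sg →
      GWInputs Sg (resScalars (ZMod p) (ad0Rep (rhoM ρbar)))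
        ((resScalars (ZMod p) (ad0Rep (rhoM ρbar))).dualTwist (cycloChar p)))
    (hI : ∀ (Sg : Finset Nat.Primes) (h : primesOf Smin ⊆ Sg) (q : ↥Sg) x y,
      (I Sg h).pair q x y = 0 ↔ Z q x y)
    (hr0 : ∀ (Sg : Finset Nat.Primes) (h : primesOf Smin ⊆ Sg),
      Nat.card (ResidueField 𝒪) ≤ (I Sg h).r0) :
    ∃ r : ℕ, ∀ n : ℕ, ∃ qv : Fin r → ℕ, Function.Injective qv ∧
      (∀ i, (qv i).Prime ∧ qv i ∉ S ∧ p ^ (n + 1) ∣ qv i - 1) ∧
      (∀ i, ∀ P : ValuationSubring (AlgebraicClosure ℚ), P.LiesOverPrime (qv i) →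
        ∀ φ : AlgebraicClosure ℚ ≃ₐ[ℚ] AlgebraicClosure ℚ, P.IsFrobeniusAt φ (qv i) →
          ∃ α β : ResidueField 𝒪, α ≠ β ∧ LinearMap.charpoly (ρbar.ρ φ) = (X - C α) * (X - C β)) ∧
      ∀ DQ : GaloisRep.DeformationRingData 𝒪 ρbar (fun _A _ _ _ ρ =>
          GaloisRep.flatCondition 𝒪 p (Smin ∪ Finset.univ.image qv) ρ ∧
            ∀ q ∈ Smin, q.Prime → q ≠ p → ρ.IsUnipotentOnInertiaAt q),
        ∃ γ : MvPowerSeries (Fin r) 𝒪 →ₐ[𝒪] DQ.R, Function.Surjective γ :=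
  Fermat.Agent.TW.ASM.AssemblyFLFinal7.s56_flat_of_glob_ll p hp2 ρbar habs hdet hsplit hTW S Smin
    hpSmin hSmin hmin Z hnd I hI hr0 (fun _ => locFlPackage_rhoM hp2 ρbar hdet hsplit)
    (Fermat.Agent.TW.FLAT.BaseChangeFlat6.hflat p ρbar Smin)

end

end Fermat.Agent.TW.ASM.AssemblyFLGlob7
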